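import Fermat.Agent.AV.Defs

/-!
# Calculus of functions on valuations

Extension and composition of valuation rings, principal functions (`QPrin`) with their descent
along field extensions, and the behaviour of the cube expression of a bundle along places and
embeddings.
-/

set_option autoImplicit false
set_option linter.unusedSectionVars false

noncomputable section

universe u

open CategoryTheory CategoryTheory.Limits AlgebraicGeometry

namespace Fermat.Agent.AV

variable {K : Type u} [Field K]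
variable {M N : Type u} [Field M] [Algebra K M] [Field N] [Algebra K N]

namespace Val

theorem valuation_le_iff_div_mem (A : ValuationSubring M) {x y : M} (hy : y ≠ 0) :
    A.valuation x ≤ A.valuation y ↔ x / y ∈ A := by
  rw [← A.valuation_le_one_iff, map_div₀, div_le_one₀]
  exact zero_lt_iff.mpr ((Valuation.ne_zero_iff _).mpr hy)

theorem valuation_eq_iff_div_mem (A : ValuationSubring M) {x y : M} (hx : x ≠ 0) (hy : y ≠ 0) :
    A.valuation x = A.valuation y ↔ x / y ∈ A ∧ y / x ∈ A := by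
  rw [le_antisymm_iff, valuation_le_iff_div_mem A hy, valuation_le_iff_div_mem A hx]

theorem mem_comap_iff (W : Val K N) (φ : M →ₐ[K] N) (x : M) :
    x ∈ (W.comap φ).sub ↔ φ x ∈ W.sub := Iff.rfl

theorem valuation_comap_eq_iff (W : Val K N) (φ : M →ₐ[K] N) {x y : M} :
    (W.comap φ).sub.valuation x = (W.comap φ).sub.valuation y ↔
      W.sub.valuation (φ x) = W.sub.valuation (φ y) := by
  by_cases hx : x = 0
  · subst hx
    rw [map_zero, map_zero φ, map_zero, eq_comm, Valuation.zero_iff, eq_comm (a := (0 : W.sub.ValueGroup)),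
      Valuation.zero_iff, map_eq_zero]
  by_cases hy : y = 0
  · subst hy
    rw [map_zero, map_zero φ, map_zero, Valuation.zero_iff, Valuation.zero_iff, map_eq_zero]
  rw [valuation_eq_iff_div_mem _ hx hy,
    valuation_eq_iff_div_mem _ ((map_ne_zero φ).mpr hx) ((map_ne_zero φ).mpr hy), mem_comap_iff,
    mem_comap_iff, map_div₀, map_div₀]

theorem eq_of_sub_eq {V W : Val K M} (h : V.sub = W.sub) : V = W := by
  cases V; cases W; congr

theorem comap_comap {L : Type u} [Field L] [Algebra K L] (W : Val K L) (φ : M →ₐ[K] N)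
    (ψ : N →ₐ[K] L) : (W.comap ψ).comap φ = W.comap (ψ.comp φ) := rfl

/-- The trivial valuation ring. -/
def triv : Val K M := ⟨⊤, fun _ => ValuationSubring.mem_top _⟩

/-- Valuation rings extend along field embeddings. -/
theorem exists_comap_eq (φ : M →ₐ[K] N) (W : Val K M) : ∃ W' : Val K N, W'.comap φ = W := by
  obtain ⟨V, hV⟩ := (LocalSubring.range (φ.toRingHom.comp W.sub.subtype)).exists_le_valuationSubring
  have hmem : ∀ x ∈ W.sub, φ x ∈ V := fun x hx => hV.1 ⟨⟨x, hx⟩, rfl⟩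
  refine ⟨⟨V, fun k => ?_⟩, eq_of_sub_eq (ValuationSubring.ext _ _ fun x => ⟨fun hx => ?_, hmem x⟩)⟩
  · rw [← φ.commutes]; exact hmem _ (W.algebraMap_mem k)
  · by_contra hn
    have hi := (W.sub.mem_or_inv_mem x).resolve_left hn
    have hx0 : x ≠ 0 := fun h => hn (h ▸ W.sub.zero_mem)
    have hu : IsUnit (Subring.inclusion hV.1 ⟨φ x⁻¹, ⟨x⁻¹, hi⟩, rfl⟩) :=
      IsUnit.of_mul_eq_one (⟨φ x, hx⟩ : V.toSubring) (Subtype.ext (by
        show φ x⁻¹ * φ x = 1
        rw [← map_mul, inv_mul_cancel₀ hx0, map_one]))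
    have := hV.2
    obtain ⟨⟨y, z, hz⟩, hy⟩ :=
      isUnit_iff_exists_inv.mp (isUnit_of_map_unit (Subring.inclusion hV.1) _ hu)
    have e : φ x⁻¹ * φ (z : M) = 1 := by
      subst hz
      exact congrArg Subtype.val hy
    have e' : x⁻¹ * (z : M) = 1 := φ.injective (by rw [map_mul, map_one]; exact e)
    exact hn (by
      have : (z : M) = x := by rw [eq_comm, ← inv_inv x]; exact inv_eq_of_mul_eq_one_right e'
      exact this ▸ z.2)

end Val

namespace Place

variable (P : Place K M N)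

theorem hom_ne_zero_iff (r : P.val.sub) : P.hom r ≠ 0 ↔ IsUnit r := by
  have := P.isLocalHom
  exact ⟨fun h => isUnit_of_map_unit P.hom.toRingHom r h.isUnit, fun h => (h.map P.hom).ne_zero⟩

theorem coe_ne_zero {r : P.val.sub} (h : P.hom r ≠ 0) : (r : M) ≠ 0 := fun e =>
  h (by rw [show r = 0 from Subtype.ext e, map_zero])

theorem mem_compVal_iff {x : M} (W : Val K N) :
    x ∈ (P.compVal W).sub ↔ ∃ r : P.val.sub, P.hom r ∈ W.sub ∧ (r : M) = x := Iff.rfl

theorem coe_mem_compVal_iff {r : P.val.sub} (W : Val K N) :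
    (r : M) ∈ (P.compVal W).sub ↔ P.hom r ∈ W.sub := by
  rw [mem_compVal_iff]
  exact ⟨fun ⟨r', h, e⟩ => Subtype.ext e ▸ h, fun h => ⟨r, h, rfl⟩⟩

theorem compVal_le (W : Val K N) : (P.compVal W).sub ≤ P.val.sub := fun x hx => by
  obtain ⟨r, -, rfl⟩ := (P.mem_compVal_iff W).mp hx
  exact r.2

theorem valuation_compVal_eq_iff {r s : P.val.sub} (hr : P.hom r ≠ 0) (hs : P.hom s ≠ 0)
    (W : Val K N) : (P.compVal W).sub.valuation (r : M) = (P.compVal W).sub.valuation (s : M) ↔
      W.sub.valuation (P.hom r) = W.sub.valuation (P.hom s) := by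
  obtain ⟨ur, hur⟩ := (P.hom_ne_zero_iff r).mp hr
  obtain ⟨us, hus⟩ := (P.hom_ne_zero_iff s).mp hs
  rw [Val.valuation_eq_iff_div_mem _ (P.coe_ne_zero hr) (P.coe_ne_zero hs),
    Val.valuation_eq_iff_div_mem _ hr hs]
  have key : ∀ (a b : P.val.sub) (ub : P.val.subˣ), (ub : P.val.sub) = b →
      ((a : M) / (b : M) ∈ (P.compVal W).sub ↔ P.hom a / P.hom b ∈ W.sub) := fun a b ub hb => by
    subst hb
    have e1 : (a : M) / ((ub : P.val.sub) : M) = ((a * (↑ub⁻¹ : P.val.sub) : P.val.sub) : M) := by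
      rw [div_eq_mul_inv]
      refine congrArg ((a : M) * ·) (inv_eq_of_mul_eq_one_right ?_)
      exact congrArg (fun z : P.val.sub => (z : M)) ub.mul_inv
    have e2 : P.hom a / P.hom (ub : P.val.sub) = P.hom (a * (↑ub⁻¹ : P.val.sub)) := by
      rw [div_eq_mul_inv, map_mul]
      exact congrArg (P.hom a * ·) (inv_eq_of_mul_eq_one_right (by
        rw [← map_mul, ub.mul_inv, map_one]))
    rw [e1, e2, coe_mem_compVal_iff]
  rw [key r s us hus, key s r ur hur]

end Place

/-! ### Principal functions -/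

namespace QPrin

variable {γ δ : Val K M → M}

theorem mul (h : QPrin γ) (h' : QPrin δ) : QPrin fun W => γ W * δ W := by
  obtain ⟨d, hd, c, hc, H⟩ := h
  obtain ⟨e, he, c', hc', H'⟩ := h'
  refine ⟨d * e, Nat.mul_pos hd he, c ^ e * c' ^ d, mul_ne_zero (pow_ne_zero _ hc) (pow_ne_zero _ hc'),
    fun W => ?_⟩
  have h1 := congrArg (· ^ e) (H W)
  have h2 := congrArg (· ^ d) (H' W)
  simp only [map_pow, map_mul, mul_pow, ← pow_mul] at h1 h2 ⊢
  rw [h1, mul_comm d e, h2]

theorem inv (h : QPrin γ) : QPrin fun W => (γ W)⁻¹ := by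
  obtain ⟨d, hd, c, hc, H⟩ := h
  exact ⟨d, hd, c⁻¹, inv_ne_zero hc, fun W => by rw [inv_pow, map_inv₀, H W, map_inv₀]⟩

theorem div (h : QPrin γ) (h' : QPrin δ) : QPrin fun W => γ W / δ W := by
  simpa only [div_eq_mul_inv] using h.mul h'.inv

theorem pow (h : QPrin γ) (n : ℕ) : QPrin fun W => γ W ^ n := by
  obtain ⟨d, hd, c, hc, H⟩ := h
  refine ⟨d, hd, c ^ n, pow_ne_zero _ hc, fun W => ?_⟩
  rw [map_pow W.sub.valuation c, ← H W, ← map_pow, ← pow_mul, ← pow_mul, mul_comm]

theorem one : QPrin (fun _ => 1 : Val K M → M) := ⟨1, one_pos, 1, one_ne_zero, fun _ => by simp⟩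

theorem congr_const (h : QPrin γ) {c : M} (hc : c ≠ 0)
    (e : ∀ W : Val K M, W.sub.valuation (δ W) = W.sub.valuation (c * γ W)) : QPrin δ := by
  obtain ⟨d, hd, c', hc', H⟩ := h
  refine ⟨d, hd, c ^ d * c', mul_ne_zero (pow_ne_zero _ hc) hc', fun W => ?_⟩
  rw [map_pow, e W, map_mul, mul_pow, ← map_pow _ (γ W), H W, ← map_pow, ← map_mul]

theorem congr (h : QPrin γ) (e : ∀ W : Val K M, W.sub.valuation (δ W) = W.sub.valuation (γ W)) :
    QPrin δ :=
  h.congr_const one_ne_zero fun W => by rw [one_mul, e W]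

theorem exists_alg_of_forall {c : N} {φ : M →ₐ[K] N}
    (h : ∀ W : Val K N, (∀ x, φ x ∈ W.sub) → c ∈ W.sub) :
    letI := φ.toRingHom.toAlgebra
    IsIntegral M c := by
  let := φ.toRingHom.toAlgebra
  have h1 : c ∈ (integralClosure (Subring.closure (Set.range φ)) N).toSubring := by
    rw [← iInf_valuationSubring_superset, Subring.mem_iInf]
    intro V
    exact h ⟨V.1, fun k => V.2 ⟨algebraMap K M k, φ.commutes k⟩⟩ fun x => V.2 ⟨x, rfl⟩
  obtain ⟨p, hp, hpc⟩ := h1
  have hr : ∀ y ∈ Subring.closure (Set.range φ), y ∈ φ.toRingHom.range := fun y hy =>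
    (Subring.closure_le.mpr (fun z hz => hz) : Subring.closure (Set.range φ) ≤ φ.toRingHom.range) hy
  have hlift : p.map (Subring.subtype _) ∈ Polynomial.lifts φ.toRingHom := by
    rw [Polynomial.lifts_iff_coeff_lifts]
    intro n
    rw [Polynomial.coeff_map]
    exact hr _ (p.coeff n).2
  obtain ⟨q, hq, -, hqm⟩ := Polynomial.lifts_and_natDegree_eq_and_monic hlift (hp.map _)
  refine ⟨q, hqm, ?_⟩
  rw [show algebraMap M N = φ.toRingHom from rfl, ← Polynomial.eval_map, hq, Polynomial.eval_map]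
  exact hpc

/-- **Descent along a field extension.** -/
theorem descend (φ : M →ₐ[K] N)
    (h : QPrin fun W : Val K N => φ (γ (W.comap φ))) : QPrin γ := by
  classical
  obtain ⟨d, hd, c, hc, H⟩ := h
  let := φ.toRingHom.toAlgebra
  have : IsScalarTower K M N := IsScalarTower.of_algebraMap_eq fun k => (φ.commutes k).symm
  have halg : IsIntegral M c := exists_alg_of_forall fun W hW => by
    rw [← W.sub.valuation_le_one_iff, ← H W, W.sub.valuation_le_one_iff]
    exact W.sub.toSubring.pow_mem (hW _) _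
  let E := AlgebraicClosure M
  let pE := (minpoly M c).map (algebraMap M E)
  have hmon : pE.Monic := (minpoly.monic halg).map _
  have key : ∀ (W : Val K E) (r : E), r ∈ pE.roots →
      W.sub.valuation r =
        W.sub.valuation (algebraMap M E (γ (W.comap (IsScalarTower.toAlgHom K M E)))) ^ d := by
    intro W r hr
    let pb := IntermediateField.adjoin.powerBasis halg
    have hgen : Polynomial.aeval r (minpoly M pb.gen) = 0 := by
      rw [show pb.gen = IntermediateField.AdjoinSimple.gen M c from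
          IntermediateField.adjoin.powerBasis_gen halg, IntermediateField.minpoly_gen]
      rw [Polynomial.aeval_def, ← Polynomial.eval_map]
      exact (Polynomial.mem_roots hmon.ne_zero).mp hr
    let ψ : IntermediateField.adjoin M {c} →ₐ[M] E := pb.lift r hgen
    let ψK : IntermediateField.adjoin M {c} →ₐ[K] E := ψ.restrictScalars K
    let val : IntermediateField.adjoin M {c} →ₐ[K] N := (IntermediateField.val _).restrictScalars K
    obtain ⟨W', hW'⟩ := Val.exists_comap_eq val (W.comap ψK)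
    have hM : W'.comap φ = W.comap (IsScalarTower.toAlgHom K M E) := by
      have e1 : val.comp (IsScalarTower.toAlgHom K M _) = φ := AlgHom.ext fun x => rfl
      have e2 : ψK.comp (IsScalarTower.toAlgHom K M _) = IsScalarTower.toAlgHom K M E :=
        AlgHom.ext fun x => ψ.commutes x
      rw [← e1, ← Val.comap_comap, hW', Val.comap_comap, e2]
    set m := γ (W.comap (IsScalarTower.toAlgHom K M E)) with hm
    have h1 : W'.sub.valuation (val (algebraMap M _ m ^ d)) =
        W'.sub.valuation (val pb.gen) := by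
      have h2 := H W'
      simp only at h2
      rw [hM, ← hm] at h2
      rw [map_pow, show pb.gen = IntermediateField.AdjoinSimple.gen M c from
          IntermediateField.adjoin.powerBasis_gen halg]
      exact h2
    rw [← Val.valuation_comap_eq_iff, hW', Val.valuation_comap_eq_iff] at h1
    rw [← map_pow, show r = ψK pb.gen from (pb.lift_gen r hgen).symm, ← h1, map_pow]
    congr 2
    exact ψ.commutes m
  have hsplit : pE.Splits := IsAlgClosed.splits _
  refine ⟨d * pE.natDegree, Nat.mul_pos hd ?_, (minpoly M c).coeff 0, minpoly.coeff_zero_ne_zero halg hc,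
    fun W => ?_⟩
  · rw [Polynomial.natDegree_map]
    exact minpoly.natDegree_pos halg
  obtain ⟨W', rfl⟩ := Val.exists_comap_eq (IsScalarTower.toAlgHom K M E) W
  rw [Val.valuation_comap_eq_iff]
  have h0 : algebraMap M E ((minpoly M c).coeff 0) = (-1) ^ pE.natDegree * pE.roots.prod := by
    rw [← Polynomial.coeff_map]
    exact hsplit.coeff_zero_eq_prod_roots_of_monic hmon
  show W'.sub.valuation (algebraMap M E _) = W'.sub.valuation (algebraMap M E _)
  rw [h0, map_pow (algebraMap M E), map_mul, map_pow _ (-1 : E), Valuation.map_neg, map_one, one_pow,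
    one_mul, map_multiset_prod, Multiset.map_congr rfl (key W'), Multiset.map_const',
    Multiset.prod_replicate, hsplit.natDegree_eq_card_roots, map_pow, pow_mul]

end QPrin

/-- Two functions correspond along a place up to constants. -/
def PlaceRel (P : Place K M N) (γ : Val K M → M) (δ : Val K N → N) : Prop :=
  ∃ c : M, c ≠ 0 ∧ ∃ c' : N, c' ≠ 0 ∧ ∀ W : Val K N, ∃ r : P.val.sub, P.hom r ≠ 0 ∧
    (P.compVal W).sub.valuation (γ (P.compVal W)) = (P.compVal W).sub.valuation (c * r) ∧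
    W.sub.valuation (δ W) = W.sub.valuation (c' * P.hom r)

namespace PlaceRel

variable {P : Place K M N} {γ γ₂ : Val K M → M} {δ δ₂ : Val K N → N}

theorem mul (h : PlaceRel P γ δ) (h' : PlaceRel P γ₂ δ₂) :
    PlaceRel P (fun W => γ W * γ₂ W) fun W => δ W * δ₂ W := by
  obtain ⟨c, hc, c', hc', H⟩ := h
  obtain ⟨e, he, e', he', H'⟩ := h'
  refine ⟨c * e, mul_ne_zero hc he, c' * e', mul_ne_zero hc' he', fun W => ?_⟩
  obtain ⟨r, hr, h1, h2⟩ := H W
  obtain ⟨s, hs, h3, h4⟩ := H' W
  refine ⟨r * s, by rw [map_mul]; exact mul_ne_zero hr hs, ?_, ?_⟩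
  · rw [map_mul, h1, h3, ← map_mul]
    congr 1
    push_cast
    ring
  · rw [map_mul, h2, h4, ← map_mul, map_mul P.hom]
    congr 1
    ring

theorem inv (h : PlaceRel P γ δ) : PlaceRel P (fun W => (γ W)⁻¹) fun W => (δ W)⁻¹ := by
  obtain ⟨c, hc, c', hc', H⟩ := h
  refine ⟨c⁻¹, inv_ne_zero hc, c'⁻¹, inv_ne_zero hc', fun W => ?_⟩
  obtain ⟨r, hr, h1, h2⟩ := H W
  obtain ⟨u, hu⟩ := (P.hom_ne_zero_iff r).mp hr
  refine ⟨(↑u⁻¹ : P.val.sub), (u⁻¹.isUnit.map P.hom).ne_zero, ?_, ?_⟩
  · rw [map_inv₀, h1, ← map_inv₀, mul_inv]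
    congr 2
    rw [← hu]
    exact inv_eq_of_mul_eq_one_right (congrArg (fun z : P.val.sub => (z : M)) u.mul_inv)
  · rw [map_inv₀, h2, ← map_inv₀, mul_inv]
    congr 2
    rw [← hu]
    exact inv_eq_of_mul_eq_one_right (by rw [← map_mul, u.mul_inv, map_one])

theorem div (h : PlaceRel P γ δ) (h' : PlaceRel P γ₂ δ₂) :
    PlaceRel P (fun W => γ W / γ₂ W) fun W => δ W / δ₂ W := by
  simpa only [div_eq_mul_inv] using h.mul h'.inv

theorem triv_compVal (P : Place K M N) : (P.compVal Val.triv).sub = P.val.sub :=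
  le_antisymm (P.compVal_le _) fun x hx =>
    (P.mem_compVal_iff _).mpr ⟨⟨x, hx⟩, ValuationSubring.mem_top _, rfl⟩

theorem qprin (h : PlaceRel P γ δ) (hγ : QPrin γ) : QPrin δ := by
  obtain ⟨c, hc, c', hc', H⟩ := h
  obtain ⟨d, hd, e, he, He⟩ := hγ
  set z : M := e / c ^ d with hz
  have key : ∀ W : Val K N, ∃ r : P.val.sub, P.hom r ≠ 0 ∧
      (P.compVal W).sub.valuation z = (P.compVal W).sub.valuation ((r ^ d : P.val.sub) : M) ∧
      W.sub.valuation (δ W) = W.sub.valuation (c' * P.hom r) := fun W => by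
    obtain ⟨r, hr, h1, h2⟩ := H W
    refine ⟨r, hr, ?_, h2⟩
    rw [hz, map_div₀, ← He, map_pow, h1, map_pow, map_mul, mul_pow,
      mul_div_cancel_left₀ _ (pow_ne_zero _ ((Valuation.ne_zero_iff _).mpr hc))]
    rw [← map_pow]
    rfl
  have hz0 : z ≠ 0 := div_ne_zero he (pow_ne_zero _ hc)
  obtain ⟨r₀, hr₀, h₀, -⟩ := key Val.triv
  rw [triv_compVal] at h₀
  have hz1 : P.val.sub.valuation z = 1 := by
    rw [h₀]
    exact (P.val.sub.valuation_eq_one_iff _).mp (((P.hom_ne_zero_iff r₀).mp hr₀).pow d)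
  have hzm : z ∈ P.val.sub := (P.val.sub.valuation_le_one_iff z).mp hz1.le
  have hzu : P.hom ⟨z, hzm⟩ ≠ 0 :=
    (P.hom_ne_zero_iff _).mpr ((P.val.sub.valuation_eq_one_iff ⟨z, hzm⟩).mpr hz1)
  refine ⟨d, hd, c' ^ d * P.hom ⟨z, hzm⟩, mul_ne_zero (pow_ne_zero _ hc') hzu, fun W => ?_⟩
  obtain ⟨r, hr, h1, h2⟩ := key W
  have h3 := (P.valuation_compVal_eq_iff (r := ⟨z, hzm⟩) (s := r ^ d) hzu
    (by rw [map_pow]; exact pow_ne_zero _ hr) W).mp h1
  rw [map_pow, h2, map_mul, map_mul, mul_pow, h3, map_pow P.hom, map_pow, map_pow]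

end PlaceRel

theorem LineVal.placeRel {S : Setting K} (B : LineVal S) (P : Place K M N) {a : S.Pt M} {b : S.Pt N}
    (h : P.Maps S a b) : PlaceRel P (B.val a) (B.val b) := B.specialise P a b h

theorem Place.Maps.add {S : Setting K} {P : Place K M N} {a a' : S.Pt M} {b b' : S.Pt N}
    (h : P.Maps S a b) (h' : P.Maps S a' b') : P.Maps S (a + a') (b + b') := by
  obtain ⟨c, hc, hcb⟩ := h
  obtain ⟨c', hc', hcb'⟩ := h'
  exact ⟨c + c', by rw [map_add, hc, hc'], by rw [map_add, hcb, hcb']⟩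

theorem Place.Maps.zero {S : Setting K} (P : Place K M N) : P.Maps S (0 : S.Pt M) (0 : S.Pt N) :=
  ⟨0, map_zero _, map_zero _⟩

namespace LineVal

variable {S : Setting K} (B : LineVal S)

theorem placeRel_cube (P : Place K M N) {a b c : S.Pt M} {a' b' c' : S.Pt N}
    (ha : P.Maps S a a') (hb : P.Maps S b b') (hc : P.Maps S c c') :
    PlaceRel P (B.cube a b c) (B.cube a' b' c') :=
  ((((B.placeRel P ((ha.add hb).add hc)).mul (B.placeRel P ha)).mul (B.placeRel P hb)).mul
      (B.placeRel P hc)).div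
    ((((B.placeRel P (ha.add hb)).mul (B.placeRel P (ha.add hc))).mul
      (B.placeRel P (hb.add hc))).mul (B.placeRel P (Place.Maps.zero P)))

theorem qprin_specialise (P : Place K M N) {a b c : S.Pt M} {a' b' c' : S.Pt N}
    (ha : P.Maps S a a') (hb : P.Maps S b b') (hc : P.Maps S c c') (h : QPrin (B.cube a b c)) :
    QPrin (B.cube a' b' c') :=
  (B.placeRel_cube P ha hb hc).qprin h

theorem natural_cube (φ : M →ₐ[K] N) (a b c : S.Pt M) : ∃ k : N, k ≠ 0 ∧ ∀ W : Val K N,
    W.sub.valuation (B.cube (S.map φ a) (S.map φ b) (S.map φ c) W) =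
      W.sub.valuation (k * φ (B.cube a b c (W.comap φ))) := by
  obtain ⟨k₁, h₁, e₁⟩ := B.natural φ (a + b + c)
  obtain ⟨k₂, h₂, e₂⟩ := B.natural φ a
  obtain ⟨k₃, h₃, e₃⟩ := B.natural φ b
  obtain ⟨k₄, h₄, e₄⟩ := B.natural φ c
  obtain ⟨k₅, h₅, e₅⟩ := B.natural φ (a + b)
  obtain ⟨k₆, h₆, e₆⟩ := B.natural φ (a + c)
  obtain ⟨k₇, h₇, e₇⟩ := B.natural φ (b + c)
  obtain ⟨k₈, h₈, e₈⟩ := B.natural φ (0 : S.Pt M)
  refine ⟨k₁ * k₂ * k₃ * k₄ / (k₅ * k₆ * k₇ * k₈), by simp [h₁, h₂, h₃, h₄, h₅, h₆, h₇, h₈],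
    fun W => ?_⟩
  simp only [map_add, map_zero] at e₁ e₅ e₆ e₇ e₈
  simp only [cube, map_div₀, map_mul, e₁ W, e₂ W, e₃ W, e₄ W, e₅ W, e₆ W, e₇ W, e₈ W]
  simp only [div_eq_mul_inv, mul_inv]
  ac_rfl

theorem cube_ne_zero (a b c : S.Pt M) (W : Val K M) : B.cube a b c W ≠ 0 := by
  simp [cube, B.ne_zero]

theorem qprin_cube_of_map (φ : M →ₐ[K] N) (a b c : S.Pt M)
    (h : QPrin (B.cube (S.map φ a) (S.map φ b) (S.map φ c))) : QPrin (B.cube a b c) := by
  obtain ⟨k, hk, e⟩ := B.natural_cube φ a b c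
  refine QPrin.descend φ (h.congr_const (inv_ne_zero hk) fun W => ?_)
  rw [map_mul, e W, map_mul, ← mul_assoc, ← map_mul, inv_mul_cancel₀ hk, map_one, one_mul]

theorem cube_add (a b c c' : S.Pt M) (W : Val K M) :
    B.cube a b c W = B.cube a b (c + c') W * B.cube c b c' W / B.cube (a + c) b c' W := by
  have e1 : a + b + (c + c') = a + c + b + c' := by abel
  have e2 : b + c + c' = b + (c + c') := by abel
  have e3 : a + c + b = a + b + c := by abel
  have e4 : c + b = b + c := by abel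
  have e5 : a + c + c' = a + (c + c') := by abel
  simp only [cube, e1, e3, e4, e5, e2]
  have hne : ∀ p, B.val p W ≠ 0 := fun p => B.ne_zero p W
  field_simp [hne]

end LineVal

end Fermat.Agent.AV

end
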