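import Mathlib

/-!
# Factoriality descends from a completion

A Noetherian local ring with a map to a factorial Noetherian local ring which is bijective
modulo all powers of the maximal ideals is factorial.
-/

set_option autoImplicit false
set_option linter.style.haveILetI false
set_option linter.unusedSectionVars false

noncomputable section

namespace Fermat.Agent.AV

open IsLocalRing

variable {R P : Type*} [CommRing R] [IsLocalRing R] [IsNoetherianRing R] [CommRing P] [IsDomain P]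
  [IsLocalRing P] [IsNoetherianRing P]

/-- Krull's intersection theorem modulo an element. -/
theorem mem_span_of_forall {u s : R}
    (h : ∀ N : ℕ, ∃ r, s - u * r ∈ maximalIdeal R ^ N) : u ∣ s := by
  rw [← Ideal.mem_span_singleton, ← Ideal.Quotient.eq_zero_iff_mem]
  refine IsHausdorff.haus (I := maximalIdeal R) inferInstance _ fun N => ?_
  obtain ⟨r, hr⟩ := h N
  rw [SModEq.zero, Ideal.smul_top_eq_map, Submodule.restrictScalars_mem]
  simpa [Ideal.Quotient.eq_zero_iff_mem.2 (Ideal.mem_span_singleton_self u)] using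
    Ideal.mem_map_of_mem (algebraMap R (R ⧸ Ideal.span {u})) hr

variable (ι : R →+* P) (hcomap : ∀ N, ((maximalIdeal P) ^ N).comap ι = maximalIdeal R ^ N)

include hcomap in
theorem injective_of_comap : Function.Injective ι := by
  rw [injective_iff_map_eq_zero]
  intro x hx
  rw [← Ideal.mem_bot, ← Ideal.iInf_pow_eq_bot_of_isLocalRing _
    (maximalIdeal.isMaximal R).ne_top, Ideal.mem_iInf]
  intro N
  rw [← hcomap, Ideal.mem_comap, hx]
  exact zero_mem _

variable (hdense : ∀ (p : P) N, ∃ r, p - ι r ∈ maximalIdeal P ^ N)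
  [UniqueFactorizationMonoid P]

include hcomap hdense in
/-- The solutions of `b ∣ a * s` form a principal ideal. -/
theorem exists_colon_generator {a b : R} (ha : a ≠ 0) (hb : b ≠ 0) :
    ∃ u, b ∣ a * u ∧ ∀ s, b ∣ a * s → u ∣ s := by
  have hι := injective_of_comap ι hcomap
  obtain ⟨v, u, g, hvu, hga, hgb⟩ := UniqueFactorizationMonoid.exists_reduced_factors (ι a)
    ((map_ne_zero_iff ι hι).2 ha) (ι b)
  have hg : g ≠ 0 := fun e => ((map_ne_zero_iff ι hι).2 ha) (by rw [← hga, e, zero_mul])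
  have hu0 : u ≠ 0 := fun e => ((map_ne_zero_iff ι hι).2 hb) (by rw [← hgb, e, mul_zero])
  -- a power of the maximal ideal not containing `u`
  obtain ⟨N, hN⟩ : ∃ N, u ∉ maximalIdeal P ^ N := by
    by_contra! h
    exact hu0 (Ideal.mem_bot.1 (Ideal.iInf_pow_eq_bot_of_isLocalRing _
      (maximalIdeal.isMaximal P).ne_top ▸ Ideal.mem_iInf.2 h))
  obtain ⟨c, hc⟩ := Ideal.exists_pow_inf_eq_pow_smul (maximalIdeal R)
    (Ideal.span {a} ⊔ Ideal.span {b} : Submodule R R)
  obtain ⟨u₁, hu₁⟩ := hdense u (N + c)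
  obtain ⟨v₁, hv₁⟩ := hdense v (N + c)
  have herr : a * u₁ - b * v₁ ∈ maximalIdeal R ^ (N + c) := by
    rw [← hcomap, Ideal.mem_comap, map_sub, map_mul, map_mul,
      show ι a * ι u₁ - ι b * ι v₁ = ι b * (v - ι v₁) - ι a * (u - ι u₁) by
        rw [← hga, ← hgb]; ring]
    exact sub_mem (Ideal.mul_mem_left _ _ hv₁) (Ideal.mul_mem_left _ _ hu₁)
  have herr' : a * u₁ - b * v₁ ∈
      maximalIdeal R ^ N * (Ideal.span {a} ⊔ Ideal.span {b}) := by
    have h := (hc (N + c) (Nat.le_add_left c N)).le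
      (show a * u₁ - b * v₁ ∈ maximalIdeal R ^ (N + c) • (⊤ : Submodule R R) ⊓
          (Ideal.span {a} ⊔ Ideal.span {b}) from
        ⟨by simpa using herr, sub_mem
          (Ideal.mem_sup_left (Ideal.mem_span_singleton.2 (dvd_mul_right a u₁)))
          (Ideal.mem_sup_right (Ideal.mem_span_singleton.2 (dvd_mul_right b v₁)))⟩)
    rw [Nat.add_sub_cancel] at h
    exact Submodule.smul_mono le_rfl inf_le_right h
  rw [Ideal.mul_sup, Submodule.mem_sup] at herr'
  obtain ⟨x, hx, y, hy, hxy⟩ := herr'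
  rw [Ideal.mem_mul_span_singleton] at hx hy
  obtain ⟨e₁, he₁, rfl⟩ := hx
  obtain ⟨e₂, he₂, rfl⟩ := hy
  refine ⟨u₁ - e₁, ⟨v₁ + e₂, by linear_combination -hxy⟩, fun s hs => ?_⟩
  have hdvd : ∀ s, b ∣ a * s → u ∣ ι s := fun s ⟨t, ht⟩ => by
    refine hvu.symm.dvd_of_dvd_mul_left ⟨ι t, mul_left_cancel₀ hg ?_⟩
    rw [← mul_assoc, ← mul_assoc, hga, hgb, ← map_mul, ← map_mul, ht]
  obtain ⟨w, hw⟩ := hdvd (u₁ - e₁) ⟨v₁ + e₂, by linear_combination -hxy⟩
  have hclose : u - ι (u₁ - e₁) ∈ maximalIdeal P ^ N := by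
    rw [map_sub, ← sub_add]
    refine add_mem (Ideal.pow_le_pow_right (Nat.le_add_right N c) hu₁) ?_
    rw [← Ideal.mem_comap, hcomap]
    exact he₁
  have hwu : IsUnit w := by
    by_contra hwn
    refine hN ?_
    rw [hw, show u - u * w = u * (1 - w) by ring] at hclose
    exact (Ideal.mul_unit_mem_iff_mem _
      ((IsLocalRing.isUnit_or_isUnit_one_sub_self w).resolve_left hwn)).1 hclose
  obtain ⟨q, hq⟩ : ι (u₁ - e₁) ∣ ι s := by
    rw [hw]
    exact hwu.mul_right_dvd.2 (hdvd s hs)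
  refine mem_span_of_forall fun M => ?_
  obtain ⟨r, hr⟩ := hdense q M
  refine ⟨r, ?_⟩
  rw [← hcomap, Ideal.mem_comap, map_sub ι s, map_mul, hq, ← mul_sub]
  exact Ideal.mul_mem_left _ _ hr

include hcomap hdense in
/-- **Factoriality descends.** -/
theorem uniqueFactorizationMonoid_of_approx :
    IsDomain R ∧ UniqueFactorizationMonoid R := by
  haveI : IsDomain R := (injective_of_comap ι hcomap).isDomain _
  refine ⟨inferInstance, { (inferInstance : WfDvdMonoid R) with
    irreducible_iff_prime := fun {p} => ⟨fun hp => ⟨hp.ne_zero, hp.not_isUnit, fun a b hab => ?_⟩,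
      Prime.irreducible⟩ }⟩
  rcases eq_or_ne a 0 with rfl | ha
  · exact Or.inl (dvd_zero p)
  obtain ⟨u, hu, humin⟩ := exists_colon_generator ι hcomap hdense ha hp.ne_zero
  obtain ⟨w, hw⟩ := humin p (dvd_mul_left p a)
  rcases hp.isUnit_or_isUnit hw with h | h
  · exact Or.inl (h.dvd_mul_right.1 hu)
  · refine Or.inr ?_
    rw [hw]
    exact h.mul_right_dvd.2 (humin b hab)

end Fermat.Agent.AV

end
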