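import Fermat.Agent.AV.PowerSeriesUFD
import Fermat.Agent.AV.LocalFactorial

/-!
# Completion of a smooth algebra at a rational point

At a rational point of an algebra which is etale over polynomials in `g` variables, the local
ring maps to power series in `g` variables bijectively modulo all powers of the maximal ideals;
hence it is factorial.
-/

set_option autoImplicit false
set_option linter.style.haveILetI false

noncomputable section

namespace Fermat.Agent.AV

variable {K : Type*} [Field K] {g : ℕ}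

theorem ker_evalₐ_toAdicCompletion (N : ℕ) (p : MvPowerSeries (Fin g) K) :
    AdicCompletion.evalₐ (MvPolynomial.idealOfVars (Fin g) K) N
      (MvPowerSeries.toAdicCompletionAlgEquiv (Fin g) K p) = 0 ↔
      p ∈ IsLocalRing.maximalIdeal (MvPowerSeries (Fin g) K) ^ N := by
  set I := MvPolynomial.idealOfVars (Fin g) K
  set E := MvPowerSeries.toAdicCompletionAlgEquiv (Fin g) K
  have hM : (IsLocalRing.maximalIdeal (MvPowerSeries (Fin g) K)).map E.toRingEquiv =
      I.map (algebraMap _ (AdicCompletion I (MvPolynomial (Fin g) K))) := by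
    rw [maximalIdeal_mvPowerSeries]
    simp_rw [I, E, MvPolynomial.idealOfVars, Ideal.map_span, ← Set.range_comp]
    congr 2
    funext i
    simp [AdicCompletion.algebraMap_apply, ← MvPolynomial.coe_X,
      MvPowerSeries.toAdicCompletion_coe]
  have h1 : p ∈ IsLocalRing.maximalIdeal (MvPowerSeries (Fin g) K) ^ N ↔
      E p ∈ (I ^ N • ⊤ : Submodule (MvPolynomial (Fin g) K)
        (AdicCompletion I (MvPolynomial (Fin g) K))) := by
    rw [Ideal.smul_top_eq_map, Submodule.restrictScalars_mem, Ideal.map_pow, ← hM,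
      ← Ideal.map_pow]
    exact (Ideal.apply_mem_of_equiv_iff (f := E.toRingEquiv)).symm
  rw [h1, AdicCompletion.pow_smul_top_eq_ker_eval (MvPolynomial.idealOfVars_fg _ _),
    LinearMap.mem_ker, ← AdicCompletion.factor_eval_eq_evalₐ _ _ (le_of_eq (Ideal.mul_top _))]
  obtain ⟨q, hq⟩ := Submodule.Quotient.mk_surjective _
    (AdicCompletion.eval I (MvPolynomial (Fin g) K) N (E p))
  rw [← hq, Submodule.mapQ_apply, LinearMap.id_apply, Submodule.Quotient.mk_eq_zero,
    Submodule.Quotient.mk_eq_zero, smul_eq_mul, Ideal.mul_top]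

section Chart

variable {B : Type*} [CommRing B] [Algebra K B]

/-- **The completion map of an étale chart at a rational point.** -/
theorem exists_completion_map (h : MvPolynomial (Fin g) K →ₐ[K] B) (hh : h.toRingHom.Etale)
    (ev : B →ₐ[K] K) (h0 : ∀ i, ev (h (MvPolynomial.X i)) = 0) :
    ∃ ι : B →ₐ[K] MvPowerSeries (Fin g) K,
      (∀ i, ι (h (MvPolynomial.X i)) = MvPowerSeries.X i) ∧
      (∀ N, (IsLocalRing.maximalIdeal (MvPowerSeries (Fin g) K) ^ N).comap ι.toRingHom =
        (RingHom.ker ev.toRingHom) ^ N) ∧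
      ∀ p N, ∃ b, p - ι b ∈ IsLocalRing.maximalIdeal (MvPowerSeries (Fin g) K) ^ N := by
  classical
  set I := MvPolynomial.idealOfVars (Fin g) K
  set m := RingHom.ker ev.toRingHom with hm
  letI : Algebra (MvPolynomial (Fin g) K) B := h.toRingHom.toAlgebra
  haveI : Algebra.Etale (MvPolynomial (Fin g) K) B := hh
  haveI : IsScalarTower K (MvPolynomial (Fin g) K) B :=
    IsScalarTower.of_algebraMap_eq fun c => (h.commutes c).symm
  have hev : ∀ p, ev (h p) = MvPolynomial.constantCoeff p := fun p =>
    (MvPolynomial.ringHom_ext (f := ev.toRingHom.comp h.toRingHom)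
      (g := MvPolynomial.constantCoeff) (fun c => by
        show ev (h (MvPolynomial.C c)) = _
        rw [← MvPolynomial.algebraMap_eq, h.commutes, ev.commutes]
        simp) (fun i => by simpa using h0 i) |>.trans rfl |> fun e => RingHom.congr_fun e p)
  have hI : ∀ p, p - MvPolynomial.C (MvPolynomial.constantCoeff p) ∈ I := fun p => by
    rw [← pow_one I, MvPolynomial.mem_pow_idealOfVars_iff']
    intro x hx
    obtain rfl : x = 0 := (Finsupp.degree_eq_zero_iff x).1 (by omega)
    simp [MvPolynomial.constantCoeff_eq]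
  have hIm : ∀ p ∈ I, h p ∈ m := by
    intro p hp
    have : I ≤ m.comap h.toRingHom := Ideal.span_le.2 (by
      rintro _ ⟨i, rfl⟩
      exact h0 i)
    exact this hp
  -- the maps at finite levels
  have lev : ∀ N, ∃ f : B →ₐ[MvPolynomial (Fin g) K] MvPolynomial (Fin g) K ⧸ I ^ N,
      ∀ b, Ideal.Quotient.mk (I.map (Ideal.Quotient.mk (I ^ N))) (f b) =
        Ideal.Quotient.mk _ (Ideal.Quotient.mk (I ^ N) (MvPolynomial.C (ev b))) := by
    intro N
    have hnil : IsNilpotent (I.map (Ideal.Quotient.mk (I ^ N))) :=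
      ⟨N, by rw [← Ideal.map_pow, Ideal.map_quotient_self]; rfl⟩
    let g₀ : B →ₐ[MvPolynomial (Fin g) K]
        (MvPolynomial (Fin g) K ⧸ I ^ N) ⧸ I.map (Ideal.Quotient.mk (I ^ N)) :=
      { ((Ideal.Quotient.mk _).comp ((Ideal.Quotient.mk (I ^ N)).comp
          (MvPolynomial.C.comp ev.toRingHom))) with
        commutes' := fun p => by
          show Ideal.Quotient.mk _ (Ideal.Quotient.mk _ (MvPolynomial.C (ev (h p)))) =
            Ideal.Quotient.mk _ (Ideal.Quotient.mk _ p)
          rw [hev, eq_comm, Ideal.Quotient.eq, ← map_sub]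
          exact Ideal.mem_map_of_mem _ (hI p) }
    exact ⟨Algebra.FormallySmooth.lift _ hnil g₀, fun b => Algebra.FormallySmooth.mk_lift _ hnil g₀ b⟩
  choose f hf using lev
  have hcompat : ∀ {a b : ℕ} (hab : a ≤ b),
      (Ideal.Quotient.factorₐ (MvPolynomial (Fin g) K) (Ideal.pow_le_pow_right hab)).comp (f b) =
        f a := by
    intro a b hab
    refine Algebra.FormallyUnramified.ext (I := I.map (Ideal.Quotient.mk (I ^ a)))
      ⟨a, by rw [← Ideal.map_pow, Ideal.map_quotient_self]; rfl⟩ fun x => ?_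
    rw [hf a x, Ideal.Quotient.eq]
    have h1 := Ideal.mem_map_of_mem (Ideal.Quotient.factor (Ideal.pow_le_pow_right hab))
      (Ideal.Quotient.eq.1 (hf b x))
    rw [Ideal.map_map, Ideal.Quotient.factor_comp_mk, map_sub, Ideal.Quotient.factor_mk] at h1
    exact h1
  let j : B →ₐ[MvPolynomial (Fin g) K] MvPowerSeries (Fin g) K :=
    (MvPowerSeries.toAdicCompletionAlgEquiv (Fin g) K).symm.toAlgHom.comp
      (AdicCompletion.liftAlgHom I f hcompat)
  have hj : ∀ N b, AdicCompletion.evalₐ I N
      (MvPowerSeries.toAdicCompletionAlgEquiv (Fin g) K (j b)) = f N b := fun N b => by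
    rw [show MvPowerSeries.toAdicCompletionAlgEquiv (Fin g) K (j b) =
      AdicCompletion.liftAlgHom I f hcompat b from AlgEquiv.apply_symm_apply _ _]
    exact AdicCompletion.evalₐ_liftRingHom I (fun n => (f n).toRingHom)
      (fun hle => congrArg AlgHom.toRingHom (hcompat hle)) N b
  -- the maps back to the truncations of `B`
  have back : ∀ N b, f N b = 0 → b ∈ m ^ N := by
    intro N b hb
    let θ : (MvPolynomial (Fin g) K ⧸ I ^ N) →ₐ[MvPolynomial (Fin g) K] B ⧸ m ^ N :=
      Ideal.Quotient.liftₐ _ (Algebra.ofId _ _) fun p hp => by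
        show Ideal.Quotient.mk (m ^ N) (h p) = 0
        rw [Ideal.Quotient.eq_zero_iff_mem]
        have : I ^ N ≤ (m ^ N).comap h.toRingHom :=
          (Ideal.pow_right_mono (fun q hq => hIm q hq) N).trans (Ideal.le_comap_pow _ N)
        exact this hp
    have hθ : θ.comp (f N) = Ideal.Quotient.mkₐ _ (m ^ N) := by
      refine Algebra.FormallyUnramified.ext (I := m.map (Ideal.Quotient.mk (m ^ N)))
        ⟨N, by rw [← Ideal.map_pow, Ideal.map_quotient_self]; rfl⟩ fun x => ?_
      have h1 := Ideal.mem_map_of_mem θ.toRingHom (Ideal.Quotient.eq.1 (hf N x))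
      rw [Ideal.map_map] at h1
      have h2 : (I.map ((θ : (MvPolynomial (Fin g) K ⧸ I ^ N) →+* B ⧸ m ^ N).comp
          (Ideal.Quotient.mk (I ^ N)))) ≤ m.map (Ideal.Quotient.mk (m ^ N)) := by
        rw [Ideal.map_le_iff_le_comap]
        intro q hq
        rw [Ideal.mem_comap]
        exact Ideal.mem_map_of_mem (Ideal.Quotient.mk (m ^ N)) (hIm q hq)
      rw [map_sub] at h1
      rw [Ideal.Quotient.eq]
      have h3 : Ideal.Quotient.mk (m ^ N) (h (MvPolynomial.C (ev x))) -
          Ideal.Quotient.mk (m ^ N) x ∈ m.map (Ideal.Quotient.mk (m ^ N)) := by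
        rw [← map_sub]
        refine Ideal.mem_map_of_mem _ ?_
        rw [← MvPolynomial.algebraMap_eq, h.commutes, hm, RingHom.mem_ker]
        show ev (algebraMap K B (ev x) - x) = 0
        rw [map_sub, ev.commutes]
        simp
      have h4 := add_mem (h2 h1) h3
      convert h4 using 1
      show θ (f N x) - Ideal.Quotient.mk (m ^ N) x =
        θ (f N x) - Ideal.Quotient.mk (m ^ N) (h (MvPolynomial.C (ev x))) + _
      ring
    have h5 := AlgHom.congr_fun hθ b
    rw [AlgHom.comp_apply, hb, map_zero] at h5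
    exact Ideal.Quotient.eq_zero_iff_mem.1 h5.symm
  let ι : B →ₐ[K] MvPowerSeries (Fin g) K := j.restrictScalars K
  refine ⟨ι, fun i => ?_, fun N => le_antisymm (fun b hb => ?_) ?_, fun p N => ?_⟩
  · show j (algebraMap (MvPolynomial (Fin g) K) B (MvPolynomial.X i)) = _
    rw [AlgHom.commutes, MvPowerSeries.algebraMap_apply']
    simp
  · exact back N b (by rw [← hj, ker_evalₐ_toAdicCompletion]; exact hb)
  · have hle : m ≤ (IsLocalRing.maximalIdeal (MvPowerSeries (Fin g) K)).comap ι.toRingHom :=
      fun b hb => by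
        rw [Ideal.mem_comap, ← pow_one (IsLocalRing.maximalIdeal _), ← ker_evalₐ_toAdicCompletion]
        show AdicCompletion.evalₐ I 1
          (MvPowerSeries.toAdicCompletionAlgEquiv (Fin g) K (j b)) = 0
        rw [hj]
        obtain ⟨q, hq⟩ := Ideal.Quotient.mk_surjective (f 1 b)
        rw [← hq, Ideal.Quotient.eq_zero_iff_mem, pow_one]
        have h1 := hf 1 b
        rw [← hq, show ev b = 0 from (RingHom.mem_ker).1 hb, map_zero, map_zero, map_zero,
          Ideal.Quotient.eq_zero_iff_mem, Ideal.mem_quotient_iff_mem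
            (Ideal.pow_le_self one_ne_zero)] at h1
        exact h1
    exact (Ideal.pow_right_mono hle N).trans (Ideal.le_comap_pow _ N)
  · obtain ⟨q, hq⟩ := Ideal.Quotient.mk_surjective
      (AdicCompletion.evalₐ I N (MvPowerSeries.toAdicCompletionAlgEquiv (Fin g) K p))
    refine ⟨algebraMap (MvPolynomial (Fin g) K) B q, ?_⟩
    rw [← ker_evalₐ_toAdicCompletion, map_sub, map_sub]
    show _ - AdicCompletion.evalₐ I N (MvPowerSeries.toAdicCompletionAlgEquiv (Fin g) K
      (j (algebraMap (MvPolynomial (Fin g) K) B q))) = 0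
    rw [hj, AlgHom.commutes, ← hq, Ideal.Quotient.algebraMap_eq, sub_self]

/-- **The local ring at a rational point of an étale chart is factorial.** -/
theorem uniqueFactorizationMonoid_of_chart [Infinite K] [IsNoetherianRing B]
    (h : MvPolynomial (Fin g) K →ₐ[K] B) (hh : h.toRingHom.Etale)
    (ev : B →ₐ[K] K) (h0 : ∀ i, ev (h (MvPolynomial.X i)) = 0)
    (R : Type*) [CommRing R] [Algebra B R] [(RingHom.ker ev.toRingHom).IsPrime]
    [IsLocalization.AtPrime R (RingHom.ker ev.toRingHom)] :
    IsDomain R ∧ UniqueFactorizationMonoid R := by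
  obtain ⟨ι, -, hcomap, hdense⟩ := exists_completion_map h hh ev h0
  set M := IsLocalRing.maximalIdeal (MvPowerSeries (Fin g) K)
  set m := RingHom.ker ev.toRingHom
  haveI := IsLocalization.AtPrime.isLocalRing R m
  haveI : IsNoetherianRing R := IsLocalization.isNoetherianRing m.primeCompl R inferInstance
  haveI : IsDomain (MvPowerSeries (Fin g) K) := NoZeroDivisors.to_isDomain _
  haveI := uniqueFactorizationMonoid_mvPowerSeries (k := K) g
  have hunit : ∀ s : m.primeCompl, IsUnit (ι (s : B)) := fun s => by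
    refine IsLocalRing.notMem_maximalIdeal.1 fun hs => s.2 ?_
    have := (hcomap 1).le (show (s : B) ∈ _ by rw [Ideal.mem_comap, pow_one]; exact hs)
    rwa [pow_one] at this
  let ιR : R →+* MvPowerSeries (Fin g) K := IsLocalization.lift (g := ι.toRingHom) hunit
  have hιR : ∀ b, ιR (algebraMap B R b) = ι b := fun b => IsLocalization.lift_eq _ b
  refine uniqueFactorizationMonoid_of_approx ιR (fun N => le_antisymm ?_ ?_) fun p N => ?_
  · intro x hx
    obtain ⟨b, s, rfl⟩ := IsLocalization.exists_mk'_eq m.primeCompl x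
    have h1 : ι b ∈ M ^ N := by
      have := Ideal.mul_mem_right (ιR (algebraMap B R s)) _ (Ideal.mem_comap.1 hx)
      rwa [← map_mul, IsLocalization.mk'_spec, hιR] at this
    have h2 : b ∈ m ^ N := (hcomap N).le h1
    rw [IsLocalization.mk'_eq_mul_mk'_one]
    refine Ideal.mul_mem_right _ _ ?_
    rw [← IsLocalization.AtPrime.map_eq_maximalIdeal m R, ← Ideal.map_pow]
    exact Ideal.mem_map_of_mem _ h2
  · rw [← IsLocalization.AtPrime.map_eq_maximalIdeal m R, ← Ideal.map_pow, Ideal.map_le_iff_le_comap]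
    intro b hb
    rw [Ideal.mem_comap, Ideal.mem_comap, hιR]
    exact (hcomap N).ge hb
  · obtain ⟨b, hb⟩ := hdense p N
    exact ⟨algebraMap B R b, by rwa [hιR]⟩

end Chart

end Fermat.Agent.AV

end
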