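import Fermat.Agent.AV.Generic

/-!
# Base change to an algebraically closed field and generic points over it

`exists_generic_over`: over an algebraically closed extension there are points which are generic
over it.
-/

set_option autoImplicit false
set_option linter.unusedSectionVars false

noncomputable section

universe u

open CategoryTheory CategoryTheory.Limits AlgebraicGeometry NeronModelInfra GoodReductionJacobian
open scoped TensorProduct

namespace Fermat.Agent.AV

variable {K : Type u} [Field K] [IsAlgClosed K] (S : Setting K) (M : Type u) [Field M] [Algebra K M]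

theorem surjective_str : Surjective (str K M) :=
  ⟨fun _ => ⟨IsLocalRing.closedPoint M, Subsingleton.elim _ _⟩⟩

/-- The base change of an abelian variety to an extension field is integral. -/
theorem isIntegral_baseChange : IsIntegral (pullback S.f (str K M)) := by
  have := isIntegral_setting S
  have := S.bundle.smooth
  have := surjective_str (K := K) M
  have : IsReduced (pullback S.f (str K M)) := isReduced_of_smooth (pullback.snd S.f (str K M))
  let p := pullback.fst S.f (str K M)
  have hfib : ∀ x : S.A, IsPreirreducible (p ⁻¹' {x}) := fun x => by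
    let ψ := Spec.preimage (S.A.fromSpecResidueField x ≫ S.f)
    let : Algebra K (S.A.residueField x) := ψ.hom.toAlgebra
    have := isDomain_tensorProduct K (S.A.residueField x) M
    let e : pullback (S.A.fromSpecResidueField x) p ≅
        Spec (CommRingCat.of (S.A.residueField x ⊗[K] M)) :=
      pullbackRightPullbackFstIso S.f (str K M) (S.A.fromSpecResidueField x) ≪≫
        pullback.congrHom (show S.A.fromSpecResidueField x ≫ S.f = str K (S.A.residueField x) from
          (Spec.map_preimage _).symm) rfl ≪≫ pullbackSpecIso K (S.A.residueField x) M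
    have : IrreducibleSpace (pullback (S.A.fromSpecResidueField x) p : Scheme.{u}) :=
      e.hom.homeomorph.irreducibleSpace_iff.mpr
        (inferInstanceAs (IrreducibleSpace (PrimeSpectrum (S.A.residueField x ⊗[K] M))))
    rw [← S.A.range_fromSpecResidueField x,
      ← Scheme.Pullback.range_snd (f := S.A.fromSpecResidueField x) (g := p), ← Set.image_univ]
    exact ((IrreducibleSpace.isIrreducible_univ _).image _
      (pullback.snd (S.A.fromSpecResidueField x) p).continuous.continuousOn).isPreirreducible
  have : IrreducibleSpace (pullback S.f (str K M) : Scheme.{u}) := by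
    rw [irreducibleSpace_def]
    refine IsIrreducible.preimage_of_isPreirreducible_fiber
      (IrreducibleSpace.isIrreducible_univ S.A) p p.isOpenMap hfib ?_
    rw [Set.univ_inter, p.surjective.range_eq]
    exact Set.univ_nonempty
  exact isIntegral_of_irreducibleSpace_of_isReduced _

variable {M}

/-- A point of the base change, moved by a rational point over the extension. -/
def shiftBy (c : S.Pt M) : SchemeHomOver (pullback.snd S.f (str K M) ≫ str K M) S.f :=
  S.law.mul _ ⟨pullback.fst S.f (str K M), pullback.condition⟩
    (schemeHomOverComp (pullback.snd S.f (str K M)) rfl c)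

theorem comp_shiftBy {M' : Type u} [Field M'] [Algebra K M'] (j : M →ₐ[K] M') (c : S.Pt M)
    (z : Spec (CommRingCat.of M') ⟶ pullback S.f (str K M))
    (hz : z ≫ pullback.snd S.f (str K M) = Spec.map (CommRingCat.ofHom j.toRingHom))
    (a : S.Pt M') (ha : z ≫ pullback.fst S.f (str K M) = a.1) :
    z ≫ (shiftBy S c).1 = (a + S.map j c).1 := by
  have hψ : z ≫ pullback.snd S.f (str K M) ≫ str K M = str K M' := by
    rw [← Category.assoc, hz]; exact Setting.str_comp j
  have h := S.law.mul_natural _ (str K M') z hψ ⟨pullback.fst S.f (str K M), pullback.condition⟩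
    (schemeHomOverComp (pullback.snd S.f (str K M)) rfl c)
  have h1 : schemeHomOverComp z hψ ⟨pullback.fst S.f (str K M), pullback.condition⟩ = a :=
    Subtype.ext ha
  have h2 : schemeHomOverComp z hψ (schemeHomOverComp (pullback.snd S.f (str K M)) rfl c) =
      S.map j c := by
    refine Subtype.ext ?_
    show z ≫ pullback.snd S.f (str K M) ≫ c.1 = Spec.map _ ≫ c.1
    rw [← Category.assoc, hz]
  rw [h1, h2] at h
  exact congrArg Subtype.val h

theorem surjective_shiftBy (c : S.Pt M) : Surjective (shiftBy S c).1 := by
  refine ⟨fun x => ?_⟩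
  let ψ := Spec.preimage (S.A.fromSpecResidueField x ≫ S.f)
  let : Algebra K (S.A.residueField x) := ψ.hom.toAlgebra
  obtain ⟨M', _, i, j, hij⟩ := exists_common_extension (k := K) (E := S.A.residueField x) (M := M)
  let : Algebra K M' := (j.comp (algebraMap K M)).toAlgebra
  let jA : M →ₐ[K] M' := { j with commutes' := fun _ => rfl }
  let iA : S.A.residueField x →ₐ[K] M' := { i with commutes' := hij }
  let y : S.Pt M' :=
    S.map iA ⟨S.A.fromSpecResidueField x, (Spec.map_preimage _).symm⟩
  let d : S.Pt M' := y - S.map jA c
  let z := pullback.lift d.1 (Spec.map (CommRingCat.ofHom jA.toRingHom))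
    (d.2.trans (Setting.str_comp jA).symm)
  have hz : z ≫ (shiftBy S c).1 = y.1 := by
    rw [comp_shiftBy S jA c z (pullback.lift_snd _ _ _) d (pullback.lift_fst _ _ _),
      sub_add_cancel]
  refine ⟨z (IsLocalRing.closedPoint M'), ?_⟩
  refine ((Scheme.Hom.comp_apply _ _ _).symm.trans
    (congrArg (fun φ : Spec (CommRingCat.of M') ⟶ S.A => φ (IsLocalRing.closedPoint M')) hz)).trans ?_
  show S.A.fromSpecResidueField x (Spec.map (CommRingCat.ofHom iA.toRingHom) _) = x
  exact Scheme.fromSpecResidueField_apply _ _

variable (M) in
/-- A generic point over an algebraically closed extension. -/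
theorem exists_generic_over [IsAlgClosed M] :
    ∃ (N : Type u) (_ : Field N) (_ : Algebra K N) (_ : IsAlgClosed N) (i : M →ₐ[K] N) (a : S.Pt N),
      IsGenericOver S i a ∧ ∀ c : S.Pt M,
        closure {(a + S.map i c).1 (IsLocalRing.closedPoint N)} = (⊤ : Set S.A) := by
  have := isIntegral_setting S
  have := isIntegral_baseChange S M
  let X := pullback S.f (str K M)
  let N := AlgebraicClosure X.functionField
  let ι : X.functionField →+* N := algebraMap _ _
  let q : X ⟶ Spec (CommRingCat.of M) := pullback.snd S.f (str K M)
  let α : M →+* N := (Spec.preimage (genPt ι ≫ q)).hom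
  have hα : genPt ι ≫ q = Spec.map (CommRingCat.ofHom α) := (Spec.map_preimage _).symm
  let : Algebra K N := (α.comp (algebraMap K M)).toAlgebra
  let iA : M →ₐ[K] N := { α with commutes' := fun _ => rfl }
  let a : S.Pt N := ⟨genPt ι ≫ pullback.fst S.f (str K M), by
    rw [Category.assoc, pullback.condition, ← Category.assoc, hα]
    exact Setting.str_comp iA⟩
  refine ⟨N, inferInstance, inferInstance, inferInstance, iA, a, fun b => ?_, fun c => ?_⟩
  · let σ : Spec (CommRingCat.of M) ⟶ X := pullback.lift b.1 (𝟙 _) (by rw [b.2, Category.id_comp])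
    obtain ⟨V, M', _, i, h, c, hloc, hc₁, hc₂⟩ := exists_specialisation ι σ
    obtain ⟨γ, hγ₁, hγ₂, hγ₃⟩ := exists_base q hc₁ hc₂ hα (β := RingHom.id M)
      ((pullback.lift_snd _ _ _).trans (Spec.map_id _).symm)
    let : Algebra K M' := (i.comp (algebraMap K M)).toAlgebra
    have hmem : ∀ k, algebraMap K N k ∈ V := fun k =>
      show α (algebraMap K M k) ∈ V from hγ₁ (algebraMap K M k) ▸ (γ _).2
    refine ⟨M', inferInstance, inferInstance, { i with commutes' := fun _ => rfl },
      placeOf V hmem h (fun k =>
        (congrArg h (Subtype.ext (hγ₁ (algebraMap K M k)).symm)).trans (hγ₂ _)) hloc,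
      fun x => ⟨show α x ∈ V from hγ₁ x ▸ (γ x).2,
        (congrArg h (Subtype.ext (hγ₁ x).symm)).trans (hγ₂ x)⟩,
      maps_placeOf S (γ := γ.comp (algebraMap K M)) (c ≫ pullback.fst S.f (str K M)) ?_
        (fun k => hγ₁ _) ?_ ?_⟩
    · rw [Category.assoc, pullback.condition, ← Category.assoc]
      refine (congrArg (· ≫ str K M) hγ₃).trans ?_
      exact (Spec.map_comp _ _).symm
    · rw [← Category.assoc, hc₁]
    · rw [← Category.assoc, hc₂, Category.assoc, pullback.lift_fst]
      rfl
  · have := surjective_shiftBy S c
    have h : (a + S.map iA c).1 (IsLocalRing.closedPoint N) = genericPoint S.A := by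
      refine (congrArg (fun φ : Spec (CommRingCat.of N) ⟶ S.A => φ (IsLocalRing.closedPoint N))
        (comp_shiftBy S iA c (genPt ι) hα a rfl).symm).trans ((Scheme.Hom.comp_apply _ _ _).trans ?_)
      exact (congrArg (shiftBy S c).1 (genPt_apply ι _)).trans
        (map_genericPoint_of_surjective (shiftBy S c).1)
    rw [h]
    exact genericPoint_spec S.A

end Fermat.Agent.AV

end
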