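import Fermat.Agent.AV.Places
import Fermat.Agent.FF.Structure

/-!
# Curves through a rational point of an étale algebra over a polynomial ring
-/

set_option autoImplicit false
set_option linter.unusedSectionVars false

noncomputable section

universe u

open scoped TensorProduct IntermediateField
open Fermat.Agent

namespace Fermat.Agent.AV.CurveAlg

variable {K : Type u} [Field K] {g : ℕ}

/-- Over an algebraically closed field, an element whose residue is transcendental would generate
a subfield of the valuation ring. -/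
theorem exists_residue_eq [IsAlgClosed K] {F M : Type u} [Field F] [Algebra K F]
    [FF.IsFunctionField K F] [Field M] [Algebra K M] (V : ValuationSubring F)
    (hVK : ∀ k, algebraMap K F k ∈ V) (h : V →+* M) (hloc : IsLocalHom h)
    (hh : ∀ k, h ⟨algebraMap K F k, hVK k⟩ = algebraMap K M k) (y₀ : V) (hy₀ : (y₀ : F) ≠ 0)
    (hy₀h : h y₀ = 0) (r : V) : ∃ k, h r = algebraMap K M k := by
  let : Algebra K V := ((algebraMap K F).codRestrict V.toSubring hVK).toAlgebra
  let incl : V →ₐ[K] F := { V.subtype with commutes' := fun _ => rfl }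
  let hA : V →ₐ[K] M := { h with commutes' := hh }
  have hpoly : ∀ (p : Polynomial K), ∃ hp : Polynomial.aeval (r : F) p ∈ V,
      h ⟨_, hp⟩ = Polynomial.aeval (h r) p := by
    intro p
    have e1 : Polynomial.aeval (r : F) p = ((Polynomial.aeval r p : V) : F) :=
      Polynomial.aeval_algHom_apply incl r p
    refine ⟨e1 ▸ (Polynomial.aeval r p : V).2, ?_⟩
    exact (congrArg h (Subtype.ext e1)).trans (Polynomial.aeval_algHom_apply hA r p).symm
  have halg : IsAlgebraic K (h r) := by
    by_contra htr
    have hunit : ∀ p : Polynomial K, p ≠ 0 → ∃ hp : Polynomial.aeval (r : F) p ∈ V,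
        IsUnit (⟨_, hp⟩ : V) := fun p hp => by
      obtain ⟨hp', hp''⟩ := hpoly p
      refine ⟨hp', hloc.1 _ ?_⟩
      rw [hp'']
      exact Ne.isUnit (transcendental_iff.mp htr p |>.mt hp)
    have htrF : Transcendental K (r : F) := transcendental_iff.mpr fun p hp => by
      by_contra hp0
      obtain ⟨hp', hu⟩ := hunit p hp0
      exact hu.ne_zero (Subtype.ext hp)
    have hsub : ∀ z : K⟮(r : F)⟯, (z : F) ∈ V := fun z => by
      obtain ⟨p, q, hpq⟩ := (IntermediateField.mem_adjoin_simple_iff K (z : F)).mp z.2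
      rw [hpq]
      obtain ⟨hp, -⟩ := hpoly p
      rcases eq_or_ne q 0 with rfl | hq0
      · simp
      obtain ⟨hq, hu⟩ := hunit q hq0
      obtain ⟨w, hw⟩ := isUnit_iff_exists_inv.mp hu
      have hw' : Polynomial.aeval (r : F) q * (w : F) = 1 := congrArg Subtype.val hw
      rw [div_eq_mul_inv, ← eq_inv_of_mul_eq_one_right hw']
      exact mul_mem hp w.2
    have := FF.finiteDimensional_adjoin htrF
    let : Algebra K⟮(r : F)⟯ V := (RingHom.codRestrict (algebraMap K⟮(r : F)⟯ F) V.toSubring hsub).toAlgebra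
    have : IsScalarTower K⟮(r : F)⟯ V F := IsScalarTower.of_algebraMap_eq fun _ => rfl
    have hall : ∀ z : F, z ∈ V := fun z => by
      obtain ⟨w, hw⟩ := IsIntegrallyClosed.algebraMap_eq_of_integral (R := V)
        (IsIntegral.tower_top (IsIntegral.of_finite K⟮(r : F)⟯ z))
      exact hw ▸ w.2
    have h1 : y₀ * ⟨(y₀ : F)⁻¹, hall _⟩ = 1 := Subtype.ext (mul_inv_cancel₀ hy₀)
    have h2 := congrArg h h1
    rw [map_mul, hy₀h, zero_mul, map_one] at h2
    exact zero_ne_one h2
  let E := K⟮h r⟯
  have : FiniteDimensional K E := IntermediateField.adjoin.finiteDimensional halg.isIntegral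
  obtain ⟨k, hk⟩ := (IsAlgClosed.algebraMap_bijective_of_isIntegral (k := K) (K := E)).2
    ⟨h r, IntermediateField.mem_adjoin_simple_self K (h r)⟩
  exact ⟨k, (congrArg (fun e : E => (e : M)) hk).symm⟩

variable {B : Type u} [CommRing B] [IsDomain B] [Algebra (MvPolynomial (Fin g) K) B]
  [Algebra K B] [IsScalarTower K (MvPolynomial (Fin g) K) B]
  [Algebra.Etale (MvPolynomial (Fin g) K) B]

theorem isAlgebraic_of_etale (b : B) : IsAlgebraic (MvPolynomial (Fin g) K) b := by
  let P := MvPolynomial (Fin g) K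
  let F := FractionRing B
  have : FaithfulSMul P F := (faithfulSMul_iff_algebraMap_injective P F).mpr
    (IsScalarTower.algebraMap_eq P B F ▸
      (IsFractionRing.injective B F).comp (FaithfulSMul.algebraMap_injective P B))
  let : Algebra (FractionRing P) F := FractionRing.liftAlgebra P F
  have : Algebra.QuasiFinite P F := .trans P B F
  have : Algebra.QuasiFinite (FractionRing P) F := .of_restrictScalars P _ _
  have : Module.Finite (FractionRing P) F := .of_quasiFinite
  exact (isAlgebraic_algebraMap_iff (IsFractionRing.injective B F)).mp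
    ((IsFractionRing.isAlgebraic_iff P (FractionRing P) F).mpr
      (IsAlgebraic.of_finite _ (algebraMap B F b)))

include K in
theorem ringKrullDim_le : ringKrullDim B ≤ g := by
  let P := MvPolynomial (Fin g) K
  have h : ringKrullDim B ≤ ringKrullDim P :=
    Order.krullDim_le_of_strictMono
      (fun Q : PrimeSpectrum B => (⟨Q.asIdeal.under P, inferInstance⟩ : PrimeSpectrum P))
      fun Q Q' hlt => by
        refine lt_of_le_of_ne (Ideal.comap_mono hlt.le) fun he => hlt.ne ?_
        have he' : Q.asIdeal.under P = Q'.asIdeal.under P := congrArg PrimeSpectrum.asIdeal he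
        exact PrimeSpectrum.ext (Algebra.QuasiFinite.eq_of_le_of_under_eq Q.asIdeal Q'.asIdeal
          hlt.le he')
  rwa [MvPolynomial.ringKrullDim_of_isNoetherianRing, ringKrullDim_eq_zero_of_field, zero_add,
    Nat.card_eq_fintype_card, Fintype.card_fin] at h

omit [Algebra K B] [IsScalarTower K (MvPolynomial (Fin g) K) B] [IsDomain B]
  [Algebra.Etale (MvPolynomial (Fin g) K) B] in
/-- A field generated by fractions from an unramified algebra is finite over the field of
constants. -/
theorem finiteDimensional_of_fractions {P k₁ F : Type u} [CommRing P] [Field k₁] [Field F]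
    [Algebra P k₁] [Algebra k₁ F] [Algebra P B] [Algebra B F] [Algebra P F]
    [IsScalarTower P k₁ F] [IsScalarTower P B F] [Algebra.FormallyUnramified P B]
    [Algebra.EssFiniteType P B]
    (hfrac : ∀ y : F, ∃ n d : B, algebraMap B F d ≠ 0 ∧ y = algebraMap B F n / algebraMap B F d) :
    FiniteDimensional k₁ F := by
  have : Module.Finite k₁ (k₁ ⊗[P] B) := Algebra.FormallyUnramified.finite_of_free k₁ _
  let Φ : k₁ ⊗[P] B →ₐ[k₁] F := Algebra.TensorProduct.lift (Algebra.ofId k₁ F)
    (IsScalarTower.toAlgHom P B F) fun _ _ => Commute.all _ _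
  have hmemΦ : ∀ b : B, algebraMap B F b ∈ Φ.range := fun b => ⟨1 ⊗ₜ b, by
    show Φ ((1 : k₁) ⊗ₜ[P] b) = _
    rw [Algebra.TensorProduct.lift_tmul, map_one, one_mul]; rfl⟩
  have : Module.Finite k₁ Φ.range :=
    Module.Finite.of_surjective Φ.rangeRestrict.toLinearMap (Φ.rangeRestrict_surjective)
  have hfield : IsField Φ.range :=
    isField_of_isIntegral_of_isField' (R := k₁) (Field.toIsField k₁)
  refine Module.Finite.of_surjective Φ.toLinearMap fun y => ?_
  obtain ⟨n, d, hd, rfl⟩ := hfrac y
  obtain ⟨w, hw⟩ := hfield.mul_inv_cancel (a := ⟨_, hmemΦ d⟩)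
    (fun hh => hd (congrArg Subtype.val hh))
  have hw' : algebraMap B F d * (w : F) = 1 := congrArg Subtype.val hw
  obtain ⟨t, ht⟩ := mul_mem (hmemΦ n) w.2
  refine ⟨t, ht.trans ?_⟩
  rw [eq_inv_of_mul_eq_one_right hw', ← div_eq_mul_inv]

include g in
/-- A curve through a rational point avoiding a given hypersurface. -/
theorem exists_curve [IsAlgClosed K] (χ : B →ₐ[K] K) {h : B} (h0 : h ≠ 0) (hχ : χ h = 0) :
    ∃ (F : Type u) (_ : Field F) (_ : Algebra K F) (_ : FF.IsFunctionField K F) (ψ : B →ₐ[K] F)
      (V : ValuationSubring F) (hVK : ∀ k, algebraMap K F k ∈ V) (hom : V →+* K),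
      IsLocalHom hom ∧ (∀ k, hom ⟨algebraMap K F k, hVK k⟩ = k) ∧ ψ h ≠ 0 ∧
        ∀ b, ∃ hb : ψ b ∈ V, hom ⟨ψ b, hb⟩ = χ b := by
  classical
  let P := MvPolynomial (Fin g) K
  let e : P →ₐ[K] B := IsScalarTower.toAlgHom K P B
  let a : Fin g → K := fun i => χ (e (MvPolynomial.X i))
  have hae : χ.comp e = MvPolynomial.aeval a := MvPolynomial.algHom_ext fun i => by simp [a]
  obtain ⟨h', hh', h'0⟩ := Submodule.exists_mem_ne_zero_of_ne_bot
    (Ideal.comap_ne_bot_of_algebraic_mem (R := P) h0 (Ideal.mem_span_singleton_self h)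
      (isAlgebraic_of_etale h))
  obtain ⟨c, hc⟩ := Ideal.mem_span_singleton'.mp (Ideal.mem_comap.mp hh')
  obtain ⟨p, hp⟩ : ∃ p : Fin g → K, MvPolynomial.aeval p h' ≠ 0 := by
    by_contra hn
    push Not at hn
    exact h'0 (MvPolynomial.funext fun x => by simpa [MvPolynomial.aeval_eq_eval] using hn x)
  have hap : a ≠ p := by
    rintro rfl
    refine hp ?_
    rw [← hae, AlgHom.comp_apply]
    show χ (algebraMap P B h') = 0
    rw [← hc, map_mul, hχ, mul_zero]
  obtain ⟨j, hj⟩ := Function.ne_iff.mp hap
  let d : Fin g → K := fun i => p i - a i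
  have hdj : d j ≠ 0 := sub_ne_zero.mpr (Ne.symm hj)
  let line : P →ₐ[K] Polynomial K :=
    MvPolynomial.aeval fun i => Polynomial.C (a i) + Polynomial.C (d i) * Polynomial.X
  have hline : ∀ (q : P) (t : K),
      (line q).eval t = MvPolynomial.aeval (fun i => a i + d i * t) q := by
    intro q t
    have : (Polynomial.aeval t).comp line = MvPolynomial.aeval (fun i => a i + d i * t) :=
      MvPolynomial.algHom_ext fun i => by simp [line]
    rw [← this, AlgHom.comp_apply, Polynomial.coe_aeval_eq_eval]
  let u : P := MvPolynomial.C (d j)⁻¹ * (MvPolynomial.X j - MvPolynomial.C (a j))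
  have hu : line u = Polynomial.X := Polynomial.funext fun t => by
    rw [hline, Polynomial.eval_X]
    simp only [u, map_mul, map_sub, MvPolynomial.aeval_C, MvPolynomial.aeval_X,
      Algebra.algebraMap_self, RingHom.id_apply, add_sub_cancel_left]
    rw [← mul_assoc, inv_mul_cancel₀ hdj, one_mul]
  let m : Ideal B := RingHom.ker χ
  have hmprime : m.IsPrime := RingHom.ker_isPrime _
  let q : Ideal P := RingHom.ker line
  have hqprime : q.IsPrime := RingHom.ker_isPrime _
  have hqm : q ≤ m.under P := fun x hx => by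
    have h1 := congrArg (Polynomial.eval 0) (RingHom.mem_ker.mp hx)
    rw [hline, Polynomial.eval_zero] at h1
    simp only [mul_zero, add_zero] at h1
    show χ (e x) = 0
    rw [← AlgHom.comp_apply, hae]
    exact h1
  obtain ⟨Q, hQm, hQ, hQq⟩ :=
    Ideal.exists_ideal_le_liesOver_of_le (p := q) (q := m.under P) m hqm
  let F := FractionRing (B ⧸ Q)
  let ψ : B →ₐ[K] F := (IsScalarTower.toAlgHom K (B ⧸ Q) F).comp (Ideal.Quotient.mkₐ K Q)
  have hker : ∀ b, ψ b = 0 ↔ b ∈ Q := fun b => by
    rw [← Ideal.Quotient.eq_zero_iff_mem]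
    exact map_eq_zero_iff (algebraMap (B ⧸ Q) F) (IsFractionRing.injective _ _)
  have hkerP : ∀ q' : P, ψ (e q') = 0 ↔ line q' = 0 := fun q' => by
    rw [hker, ← RingHom.mem_ker, show RingHom.ker line = Q.under P from hQq.over]
    exact Iff.rfl
  let x : F := ψ (e u)
  have hx : Transcendental K x := transcendental_iff.mpr fun r hr => by
    have : ψ (e (Polynomial.aeval u r)) = 0 := by
      rw [← Polynomial.aeval_algHom_apply, ← Polynomial.aeval_algHom_apply]; exact hr
    rw [hkerP, ← Polynomial.aeval_algHom_apply, hu, Polynomial.aeval_X_left_apply] at this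
    exact this
  have hgen : ∀ q' : P, ψ (e q') ∈ K⟮x⟯ := fun q' => by
    have key : ψ (e q') = Polynomial.aeval x (line q') := by
      have h0' : line (q' - Polynomial.aeval u (line q')) = 0 := by
        rw [map_sub, ← Polynomial.aeval_algHom_apply, hu, Polynomial.aeval_X_left_apply, sub_self]
      have := (hkerP _).mpr h0'
      rw [map_sub, map_sub, sub_eq_zero, ← Polynomial.aeval_algHom_apply,
        ← Polynomial.aeval_algHom_apply] at this
      exact this
    rw [key]
    exact IntermediateField.algebra_adjoin_le_adjoin _ _ (Polynomial.aeval_mem_adjoin_singleton K x)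
  let k₁ := K⟮x⟯
  let : Algebra P k₁ :=
    (RingHom.codRestrict ((ψ.comp e).toRingHom) k₁.toSubalgebra.toSubring hgen).toAlgebra
  have : IsScalarTower P k₁ F := IsScalarTower.of_algebraMap_eq fun _ => rfl
  have : IsScalarTower P B F := IsScalarTower.of_algebraMap_eq fun _ => rfl
  have : FiniteDimensional k₁ F := finiteDimensional_of_fractions (P := P) (B := B) fun y => by
    obtain ⟨n₀, d₀, hd₀, rfl⟩ := IsFractionRing.div_surjective (A := B ⧸ Q) y
    obtain ⟨n₁, rfl⟩ := Ideal.Quotient.mk_surjective n₀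
    obtain ⟨d₁, rfl⟩ := Ideal.Quotient.mk_surjective d₀
    exact ⟨n₁, d₁, IsFractionRing.to_map_ne_zero_of_mem_nonZeroDivisors (R := B ⧸ Q) hd₀, rfl⟩
  have : FF.IsFunctionField K F := FF.isFunctionField_of_finite hx
  -- the place
  let O := Localization.AtPrime m
  have hunit : ∀ y : m.primeCompl, IsUnit (ψ y) := fun y =>
    Ne.isUnit fun h1 => y.2 (hQm ((hker _).mp h1))
  have hunitχ : ∀ y : m.primeCompl, IsUnit (χ y) := fun y => Ne.isUnit fun h1 => y.2 h1
  let ι : O →+* F := IsLocalization.lift (g := ψ.toRingHom) hunit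
  let φ : O →+* K := IsLocalization.lift (g := χ.toRingHom) hunitχ
  have : IsLocalHom φ := ⟨fun y hy => by
    obtain ⟨b, s, rfl⟩ := IsLocalization.exists_mk'_eq m.primeCompl y
    have hb : χ b ≠ 0 := fun hb => by
      have := IsLocalization.lift_mk'_spec (g := χ.toRingHom) hunitχ b (φ (IsLocalization.mk' O b s))
        s |>.mp rfl
      rw [show χ.toRingHom b = 0 from hb] at this
      exact hy.ne_zero ((mul_eq_zero.mp this.symm).resolve_left fun h1 => (hunitχ s).ne_zero h1)
    exact IsLocalization.AtPrime.isUnit_mk'_iff O m b s |>.mpr hb⟩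
  obtain ⟨V, hV, M', _, i, hom, hloc, hhom⟩ := exists_place ι φ
  have hι : ∀ b, ι (algebraMap B O b) = ψ b := fun b => IsLocalization.lift_eq _ _
  have hφ : ∀ b, φ (algebraMap B O b) = χ b := fun b => IsLocalization.lift_eq _ _
  have hψV : ∀ b, ∃ hb : ψ b ∈ V, hom ⟨ψ b, hb⟩ = i (χ b) := fun b => by
    refine ⟨hι b ▸ hV _, ?_⟩
    have := hhom (algebraMap B O b)
    rw [hφ] at this
    rw [← this]
    congr 1
    exact Subtype.ext (hι b).symm
  let : Algebra K M' := i.toAlgebra
  have hVK : ∀ k, algebraMap K F k ∈ V := fun k => by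
    obtain ⟨hb, -⟩ := hψV (algebraMap K B k)
    rwa [AlgHom.commutes] at hb
  have hhK : ∀ k, hom ⟨algebraMap K F k, hVK k⟩ = algebraMap K M' k := fun k => by
    obtain ⟨hb, hb'⟩ := hψV (algebraMap K B k)
    simp only [AlgHom.commutes, Algebra.algebraMap_self, RingHom.id_apply] at hb'
    exact hb'
  obtain ⟨hxV, hxh⟩ := hψV (e u)
  have hxh0 : hom ⟨x, hxV⟩ = 0 := by
    have h1 := hline u 0
    rw [hu, Polynomial.eval_X] at h1
    simp only [mul_zero, add_zero] at h1
    rw [hxh, ← AlgHom.comp_apply, hae, ← h1, map_zero]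
  have hx0 : x ≠ 0 := fun h1 => hx (h1 ▸ isAlgebraic_zero)
  have hres := exists_residue_eq V hVK hom hloc hhK ⟨x, hxV⟩ hx0 hxh0
  choose res hres using hres
  let hom' : V →+* K :=
    { toFun := res
      map_one' := i.injective (by rw [← RingHom.algebraMap_toAlgebra i, ← hres, map_one, map_one])
      map_mul' := fun y z => i.injective (by
        rw [← RingHom.algebraMap_toAlgebra i, ← hres, map_mul, map_mul, ← hres, ← hres])
      map_zero' := i.injective (by rw [← RingHom.algebraMap_toAlgebra i, ← hres, map_zero, map_zero])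
      map_add' := fun y z => i.injective (by
        rw [← RingHom.algebraMap_toAlgebra i, ← hres, map_add, map_add, ← hres, ← hres]) }
  refine ⟨F, inferInstance, inferInstance, inferInstance, ψ, V, hVK, hom', ⟨fun y hy => ?_⟩,
    fun k => i.injective ?_, ?_, fun b => ?_⟩
  · refine hloc.1 y ?_
    rw [hres y]
    exact hy.map (algebraMap K M')
  · rw [← RingHom.algebraMap_toAlgebra i]
    exact (hres _).symm.trans (hhK k)
  · intro h1
    have hmem : algebraMap P B h' ∈ Q := hc ▸ Ideal.mul_mem_left Q c ((hker h).mp h1)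
    have h2 : line h' = 0 := (hkerP h').mp ((hker _).mpr hmem)
    have h3 := congrArg (Polynomial.eval 1) h2
    rw [hline, Polynomial.eval_zero] at h3
    refine hp ?_
    convert h3 using 2
    congr 1
    funext i
    simp [d]
  · obtain ⟨hb, hb'⟩ := hψV b
    exact ⟨hb, i.injective (by rw [← RingHom.algebraMap_toAlgebra i]; exact (hres _).symm.trans hb')⟩

end Fermat.Agent.AV.CurveAlg

end
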