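import Fermat.Agent.AV.Generic
import Fermat.Agent.AV.CurveAlg

/-!
# Curves through the origin whose sum is generic

`exists_curves`: there are `g` curves through the origin and points of them in a common field whose
sum lies over the generic point of the variety.
-/

set_option autoImplicit false
set_option linter.unusedSectionVars false

noncomputable section

universe u

open CategoryTheory CategoryTheory.Limits AlgebraicGeometry NeronModelInfra GoodReductionJacobian
open scoped TensorProduct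

namespace Fermat.Agent.AV

variable {K : Type u} [Field K] (S : Setting K)

/-- A curve through the origin. -/
structure OriginCurve where
  F : Type u
  [field : Field F]
  [algebra : Algebra K F]
  ff : FF.IsFunctionField K F
  x : S.Pt F
  P : Place K F K
  maps : P.Maps S x 0

attribute [instance] OriginCurve.field OriginCurve.algebra

/-- A point which is the sum of `k` curves through the origin and specialises to it. -/
def IsCurveSum (k : ℕ) (z : S.A) : Prop :=
  ∃ (N : Type u) (_ : Field N) (_ : Algebra K N) (C : Fin k → OriginCurve S)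
    (h : ∀ i, (C i).F →ₐ[K] N) (R : Type u) (_ : CommRing R) (_ : Algebra K R) (ι : R →ₐ[K] N)
    (ρ : R →ₐ[K] K) (c : S.Pt R), Function.Injective ι ∧
      S.map ι c = ∑ i, S.map (h i) (C i).x ∧ S.map ρ c = 0 ∧
      z = (∑ i, S.map (h i) (C i).x).1 (IsLocalRing.closedPoint N)

theorem specializes_of_maps {R N M : Type u} [CommRing R] [Algebra K R] [Field N] [Algebra K N]
    [Field M] [Algebra K M] (ι : R →ₐ[K] N) (hι : Function.Injective ι) (ρ : R →ₐ[K] M)
    (c : S.Pt R) :
    (S.map ι c).1 (IsLocalRing.closedPoint N) ⤳ (S.map ρ c).1 (IsLocalRing.closedPoint M) := by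
  show (Spec.map (CommRingCat.ofHom ι.toRingHom) ≫ c.1) _ ⤳
    (Spec.map (CommRingCat.ofHom ρ.toRingHom) ≫ c.1) _
  have h : (IsLocalRing.closedPoint N : PrimeSpectrum N).comap ι.toRingHom ≤
      (IsLocalRing.closedPoint M : PrimeSpectrum M).comap ρ.toRingHom := by
    intro r hr
    have hr' : ι r ∈ IsLocalRing.maximalIdeal N := hr
    rw [IsLocalRing.maximalIdeal_eq_bot, Ideal.mem_bot] at hr'
    have := hι (hr'.trans (map_zero ι).symm)
    subst this
    exact zero_mem _
  exact ((PrimeSpectrum.le_iff_specializes _ _).mp h).map c.1.continuous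

theorem isCurveSum_zero : IsCurveSum S 0 ((0 : S.Pt K).1 (IsLocalRing.closedPoint K)) :=
  ⟨K, inferInstance, inferInstance, fun i => i.elim0, fun i => i.elim0, K, inferInstance,
    inferInstance, AlgHom.id K K, AlgHom.id K K, 0, Function.injective_id,
    by rw [map_zero, Finset.univ_eq_empty, Finset.sum_empty], map_zero _,
    by rw [Finset.univ_eq_empty, Finset.sum_empty]⟩

theorem IsCurveSum.specializes {k : ℕ} {z : S.A} (hz : IsCurveSum S k z) :
    z ⤳ (0 : S.Pt K).1 (IsLocalRing.closedPoint K) := by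
  obtain ⟨N, _, _, C, h, R, _, _, ι, ρ, c, hι, hc, hρ, rfl⟩ := hz
  rw [← hc, ← hρ]
  exact specializes_of_maps S ι hι ρ c

/-- Add a curve. -/
theorem IsCurveSum.succ [IsAlgClosed K] {k : ℕ} {z : S.A} (hz : IsCurveSum S k z)
    (D : OriginCurve S) : ∃ z', IsCurveSum S (k + 1) z' ∧ z' ⤳ z ∧
      z' ⤳ D.x.1 (IsLocalRing.closedPoint D.F) := by
  obtain ⟨N, _, _, C, h, R, _, _, ι, ρ, c, hι, hc, hρ, rfl⟩ := hz
  obtain ⟨cV, hcV, hcV0⟩ := D.maps
  have := isDomain_tensorProduct K N D.F
  let T := N ⊗[K] D.F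
  let N' := FractionRing T
  let frac : T →ₐ[K] N' := IsScalarTower.toAlgHom K T N'
  have hfrac : Function.Injective frac := IsFractionRing.injective T N'
  let jN : N →ₐ[K] N' := frac.comp Algebra.TensorProduct.includeLeft
  let jF : D.F →ₐ[K] N' := frac.comp Algebra.TensorProduct.includeRight
  let V := D.P.val.sub
  let total : S.Pt N' := S.map jN (∑ i, S.map (h i) (C i).x) + S.map jF D.x
  let C' : Fin (k + 1) → OriginCurve S := Fin.cons D C
  let h' : ∀ i, (C' i).F →ₐ[K] N' :=
    Fin.cases (motive := fun i => (C' i).F →ₐ[K] N') jF fun i => jN.comp (h i)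
  have hsum : ∑ i, S.map (h' i) (C' i).x = total := by
    rw [Fin.sum_univ_succ]
    show S.map jF D.x + ∑ i, S.map (jN.comp (h i)) (C i).x = _
    simp only [← Setting.map_map, ← map_sum]
    exact add_comm _ _
  -- the three ways to see the sum
  have key : ∀ (A₁ A₂ : Type u) [CommRing A₁] [Algebra K A₁] [CommRing A₂] [Algebra K A₂]
      (ι₁ : A₁ →ₐ[K] N) (ι₂ : A₂ →ₐ[K] D.F), Function.Injective ι₁ → Function.Injective ι₂ →
      ∀ (c₁ : S.Pt A₁) (c₂ : S.Pt A₂), S.map ι₁ c₁ = ∑ i, S.map (h i) (C i).x →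
        S.map ι₂ c₂ = D.x → ∀ (M : Type u) [Field M] [Algebra K M] (ρ₁ : A₁ →ₐ[K] M)
        (ρ₂ : A₂ →ₐ[K] M), ∃ (c' : S.Pt (A₁ ⊗[K] A₂)) (ι' : A₁ ⊗[K] A₂ →ₐ[K] N')
          (ρ' : A₁ ⊗[K] A₂ →ₐ[K] M), Function.Injective ι' ∧ S.map ι' c' = total ∧
            S.map ρ' c' = S.map ρ₁ c₁ + S.map ρ₂ c₂ := by
    intro A₁ A₂ _ _ _ _ ι₁ ι₂ h₁ h₂ c₁ c₂ e₁ e₂ M _ _ ρ₁ ρ₂
    refine ⟨S.map Algebra.TensorProduct.includeLeft c₁ + S.map Algebra.TensorProduct.includeRight c₂,
      frac.comp (Algebra.TensorProduct.map ι₁ ι₂),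
      Algebra.TensorProduct.lift ρ₁ ρ₂ fun _ _ => Commute.all _ _, ?_, ?_, ?_⟩
    · refine hfrac.comp ?_
      exact TensorProduct.map_injective_of_flat_flat ι₁.toLinearMap ι₂.toLinearMap h₁ h₂
    · have hL : (frac.comp (Algebra.TensorProduct.map ι₁ ι₂)).comp
          Algebra.TensorProduct.includeLeft = jN.comp ι₁ := AlgHom.ext fun a => by
        show frac (Algebra.TensorProduct.map ι₁ ι₂ (a ⊗ₜ[K] 1)) = frac (ι₁ a ⊗ₜ[K] 1)
        rw [Algebra.TensorProduct.map_tmul, map_one]
      have hR : (frac.comp (Algebra.TensorProduct.map ι₁ ι₂)).comp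
          Algebra.TensorProduct.includeRight = jF.comp ι₂ := AlgHom.ext fun a => by
        show frac (Algebra.TensorProduct.map ι₁ ι₂ (1 ⊗ₜ[K] a)) = frac (1 ⊗ₜ[K] ι₂ a)
        rw [Algebra.TensorProduct.map_tmul, map_one]
      rw [map_add, Setting.map_map, Setting.map_map, hL, hR]
      show _ = S.map jN _ + S.map jF D.x
      rw [← e₁, ← e₂, Setting.map_map, Setting.map_map]
    · have hL : (Algebra.TensorProduct.lift ρ₁ ρ₂ fun _ _ => Commute.all _ _).comp
          Algebra.TensorProduct.includeLeft = ρ₁ := AlgHom.ext fun a => by simp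
      have hR : (Algebra.TensorProduct.lift ρ₁ ρ₂ fun _ _ => Commute.all _ _).comp
          Algebra.TensorProduct.includeRight = ρ₂ := AlgHom.ext fun a => by simp
      rw [map_add, Setting.map_map, Setting.map_map, hL, hR]
  have hinclV : Function.Injective D.P.val.incl := Subtype.val_injective
  have hofK : ∀ {M : Type u} [Field M] [Algebra K M] (a : S.Pt R),
      S.map ρ a = 0 → S.map ((Algebra.ofId K M).comp ρ) a = 0 := fun a ha => by
    rw [← Setting.map_map, ha, map_zero]
  refine ⟨total.1 (IsLocalRing.closedPoint N'), ?_, ?_, ?_⟩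
  · obtain ⟨c', ι', ρ', hi, he, hr⟩ :=
      key R V ι D.P.val.incl hι hinclV c cV hc hcV K ρ D.P.hom
    refine ⟨N', inferInstance, inferInstance, C', h', R ⊗[K] V, inferInstance, inferInstance, ι',
      ρ', c', hi, he.trans hsum.symm, ?_, by rw [hsum]⟩
    rw [hr, hρ, hcV0, add_zero]
  · obtain ⟨c', ι', ρ', hi, he, hr⟩ := key N V (AlgHom.id K N) D.P.val.incl
      Function.injective_id hinclV _ cV (Setting.map_id _ _) hcV N (AlgHom.id K N)
      ((Algebra.ofId K N).comp D.P.hom)
    have := specializes_of_maps S ι' hi ρ' c'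
    rwa [he, hr, Setting.map_id, ← Setting.map_map, hcV0, map_zero, add_zero] at this
  · obtain ⟨c', ι', ρ', hi, he, hr⟩ := key R D.F ι (AlgHom.id K D.F) hι
      Function.injective_id c D.x hc (Setting.map_id _ _) D.F ((Algebra.ofId K D.F).comp ρ)
      (AlgHom.id K D.F)
    have := specializes_of_maps S ι' hi ρ' c'
    rwa [he, hr, Setting.map_id, hofK c hρ, zero_add] at this

/-- **Curves through the origin whose sum is generic.** -/
theorem exists_curves [IsAlgClosed K] (hg : 0 < S.g) :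
    ∃ (N : Type u) (_ : Field N) (_ : Algebra K N) (F : Fin S.g → Type u)
      (_ : ∀ i, Field (F i)) (_ : ∀ i, Algebra K (F i)) (_ : ∀ i, FF.IsFunctionField K (F i))
      (x : ∀ i, S.Pt (F i)) (P : ∀ i, Place K (F i) K) (h : ∀ i, F i →ₐ[K] N),
      (∀ i, (P i).Maps S (x i) 0) ∧
      closure {(∑ i, S.map (h i) (x i)).1 (IsLocalRing.closedPoint N)} = (⊤ : Set S.A) := by
  have := isIntegral_setting S
  let o : S.A := (0 : S.Pt K).1 (IsLocalRing.closedPoint K)
  obtain ⟨V, hV, hoV, -, hVs⟩ := exists_chart S.f S.g (x := o) (W := ⊤) trivial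
  have : Nonempty V := ⟨⟨_, hoV⟩⟩
  let B := Γ(S.A, V)
  let : Algebra K B := (baseHom S.f V).hom.toAlgebra
  have : Algebra.IsStandardSmoothOfRelativeDimension S.g K B := hVs
  obtain ⟨φ, hφ⟩ := Algebra.IsStandardSmoothOfRelativeDimension.exists_etale_mvPolynomial S.g K B
  let : Algebra (MvPolynomial (Fin S.g) K) B := φ.toRingHom.toAlgebra
  have : Algebra.Etale (MvPolynomial (Fin S.g) K) B := hφ
  have : IsScalarTower K (MvPolynomial (Fin S.g) K) B :=
    IsScalarTower.of_algebraMap_eq fun k => (φ.commutes k).symm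
  let χ₀ : CommRingCat.of B ⟶ CommRingCat.of K :=
    S.A.presheaf.germ V o hoV ≫ Scheme.stalkClosedPointTo (0 : S.Pt K).1
  have hχ₀ : Spec.map χ₀ ≫ hV.fromSpec = (0 : S.Pt K).1 := by
    rw [Spec.map_comp, Category.assoc]
    exact (congrArg _ (hV.fromSpecStalk_eq_fromSpecStalk hoV)).trans
      (Scheme.Spec_stalkClosedPointTo_fromSpecStalk _)
  let χ : B →ₐ[K] K :=
    { χ₀.hom with
      commutes' := fun k => congrArg (fun r : CommRingCat.of K ⟶ CommRingCat.of K => r.hom k)
        (show baseHom S.f V ≫ χ₀ = CommRingCat.ofHom (algebraMap K K) by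
          apply Spec.map_injective
          rw [Spec.map_comp, ← fromSpec_comp S.f hV, ← Category.assoc, hχ₀]
          exact (0 : S.Pt K).2) }
  have ho : hV.fromSpec ⟨RingHom.ker χ, RingHom.ker_isPrime _⟩ = o := by
    refine Eq.trans ?_ ((Scheme.Hom.comp_apply _ _ _).symm.trans
      (congrArg (fun r : Spec (CommRingCat.of K) ⟶ S.A => r (IsLocalRing.closedPoint K)) hχ₀))
    congr 1
    refine PrimeSpectrum.ext ?_
    show RingHom.ker χ = Ideal.comap χ₀.hom (IsLocalRing.maximalIdeal K)
    rw [IsLocalRing.maximalIdeal_eq_bot]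
    rfl
  -- a curve avoiding a hypersurface through the origin
  have hcurve : ∀ h : B, h ≠ 0 → χ h = 0 → ∃ (D : OriginCurve S) (p : PrimeSpectrum B),
      hV.fromSpec p = D.x.1 (IsLocalRing.closedPoint D.F) ∧ h ∉ p.asIdeal := by
    intro h h0 hχ
    obtain ⟨F, _, _, hF, ψ, W, hWK, hom, hloc, hhomK, hψh, hψ⟩ :=
      CurveAlg.exists_curve (g := S.g) χ h0 hχ
    choose hψW hψhom using hψ
    let γB : B →+* W := (ψ.toRingHom).codRestrict W.toSubring hψW
    have hbase : ∀ {R : Type u} [CommRing R] [Algebra K R] (r : B →+* R),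
        (∀ k, r (algebraMap K B k) = algebraMap K R k) →
        (Spec.map (CommRingCat.ofHom r) ≫ hV.fromSpec) ≫ S.f = str K R := fun r hr => by
      rw [Category.assoc, fromSpec_comp S.f hV, ← Spec.map_comp]
      congr 1
      exact CommRingCat.hom_ext (RingHom.ext hr)
    let x : S.Pt F :=
      ⟨Spec.map (CommRingCat.ofHom ψ.toRingHom) ≫ hV.fromSpec, hbase _ ψ.commutes⟩
    refine ⟨⟨F, hF, x, placeOf W hWK hom hhomK hloc,
      maps_placeOf S (γ := γB.comp (algebraMap K B)) (Spec.map (CommRingCat.ofHom γB) ≫ hV.fromSpec)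
        ?_ (fun k => ψ.commutes k) ?_ ?_⟩, ⟨RingHom.ker ψ, RingHom.ker_isPrime _⟩, ?_, hψh⟩
    · rw [Category.assoc, fromSpec_comp S.f hV, ← Spec.map_comp]
      rfl
    · rw [← Category.assoc, ← Spec.map_comp]
      rfl
    · rw [← Category.assoc, ← Spec.map_comp, ← hχ₀]
      congr 2
      exact CommRingCat.hom_ext (RingHom.ext hψhom)
    · refine Eq.trans ?_ (Scheme.Hom.comp_apply _ _ _).symm
      congr 1
      refine PrimeSpectrum.ext ?_
      show RingHom.ker ψ = Ideal.comap ψ.toRingHom (IsLocalRing.maximalIdeal F)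
      rw [IsLocalRing.maximalIdeal_eq_bot]
      rfl
  have hle : ∀ p q : PrimeSpectrum B, hV.fromSpec p ⤳ hV.fromSpec q → p ≤ q := fun p q hpq =>
    (PrimeSpectrum.le_iff_specializes p q).mpr
      (hV.fromSpec.isOpenEmbedding.isInducing.specializes_iff.mp hpq)
  have main : ∀ k : ℕ, ∃ z, IsCurveSum S k z ∧ (z = genericPoint S.A ∨
      ∃ l : LTSeries (PrimeSpectrum B), l.length = k ∧ hV.fromSpec l.head = z) := by
    intro k
    induction k with
    | zero =>
      exact ⟨o, isCurveSum_zero S, Or.inr ⟨RelSeries.singleton _ ⟨RingHom.ker χ,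
        RingHom.ker_isPrime _⟩, rfl, ho⟩⟩
    | succ k ih =>
      obtain ⟨z, hz, rfl | ⟨l, hl, rfl⟩⟩ := ih
      · let X₀ : MvPolynomial (Fin S.g) K :=
          MvPolynomial.X ⟨0, hg⟩ - MvPolynomial.C (χ (φ (MvPolynomial.X ⟨0, hg⟩)))
        have hX₀ : φ X₀ ≠ 0 := fun h => by
          have h1 : X₀ = 0 := FaithfulSMul.algebraMap_injective _ B (h.trans (map_zero φ).symm)
          have h2 := congrArg (MvPolynomial.eval
            (fun _ => χ (φ (MvPolynomial.X ⟨0, hg⟩)) + 1)) h1
          simp [X₀] at h2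
        obtain ⟨D, -, -, -⟩ := hcurve (φ X₀) hX₀ (by simp [X₀])
        obtain ⟨z', hz', hzz, -⟩ := hz.succ S D
        exact ⟨z', hz', Or.inl
          (hzz.antisymm ((genericPoint_spec S.A).specializes trivial)).eq⟩
      · by_cases hgen : hV.fromSpec l.head = genericPoint S.A
        · have h0 : (⊥ : Ideal B).IsPrime := Ideal.isPrime_bot
          let X₀ : MvPolynomial (Fin S.g) K :=
            MvPolynomial.X ⟨0, hg⟩ - MvPolynomial.C (χ (φ (MvPolynomial.X ⟨0, hg⟩)))
          have hX₀ : φ X₀ ≠ 0 := fun h => by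
            have h1 : X₀ = 0 := FaithfulSMul.algebraMap_injective _ B (h.trans (map_zero φ).symm)
            have h2 := congrArg (MvPolynomial.eval
              (fun _ => χ (φ (MvPolynomial.X ⟨0, hg⟩)) + 1)) h1
            simp [X₀] at h2
          obtain ⟨D, -, -, -⟩ := hcurve (φ X₀) hX₀ (by simp [X₀])
          obtain ⟨z', hz', hzz, -⟩ := hz.succ S D
          exact ⟨z', hz', Or.inl ((hgen ▸ hzz).antisymm
            ((genericPoint_spec S.A).specializes trivial)).eq⟩
        have hbot : l.head.asIdeal ≠ ⊥ := fun hb => hgen (by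
          have := genericPoint_eq_of_isOpenImmersion hV.fromSpec
          rw [genericPoint_eq_bot_of_affine] at this
          exact Eq.trans (congrArg hV.fromSpec (PrimeSpectrum.ext hb)) this)
        obtain ⟨h, hh, h0⟩ := Submodule.exists_mem_ne_zero_of_ne_bot hbot
        have hz0 : l.head ≤ ⟨RingHom.ker χ, RingHom.ker_isPrime _⟩ :=
          hle _ _ (ho ▸ hz.specializes S)
        obtain ⟨D, p, hp, hhp⟩ := hcurve h h0 (hz0 hh)
        obtain ⟨z', hz', hzz, hzx⟩ := hz.succ S D
        obtain ⟨(q : PrimeSpectrum B), rfl⟩ : z' ∈ Set.range hV.fromSpec := by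
          rw [hV.range_fromSpec]
          exact (hz'.specializes S).mem_open V.isOpen hoV
        have hlt : q < l.head := lt_of_le_of_ne (hle _ _ hzz) fun he => hhp (by
          subst he
          exact hle _ _ (hp ▸ hzx) hh)
        exact ⟨_, hz', Or.inr ⟨l.cons q hlt, by simp [hl], by simp⟩⟩
  obtain ⟨z, ⟨N, _, _, C, h, R, _, _, ι, ρ, c, -, -, -, rfl⟩, hz⟩ := main S.g
  refine ⟨N, inferInstance, inferInstance, fun i => (C i).F, fun i => (C i).field,
    fun i => (C i).algebra, fun i => (C i).ff, fun i => (C i).x, fun i => (C i).P, h,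
    fun i => (C i).maps, ?_⟩
  rcases hz with hz | ⟨l, hl, hlz⟩
  · rw [hz]; exact genericPoint_spec S.A
  · have hbot : l.head.asIdeal = ⊥ := by
      by_contra hb
      have h0 : (⊥ : Ideal B).IsPrime := Ideal.isPrime_bot
      let l' := l.cons ⟨⊥, h0⟩ (show (⟨⊥, h0⟩ : PrimeSpectrum B) < l.head from
        lt_of_le_of_ne (show (⊥ : Ideal B) ≤ l.head.asIdeal from bot_le)
          fun he => hb (congrArg PrimeSpectrum.asIdeal he).symm)
      have h1 : (l'.length : WithBot ℕ∞) ≤ ringKrullDim B := Order.LTSeries.length_le_krullDim l'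
      have h2 := h1.trans (CurveAlg.ringKrullDim_le (K := K) (g := S.g) (B := B))
      simp only [l', RelSeries.cons_length, hl] at h2
      exact absurd (WithBot.coe_le_coe.mp h2) (by norm_cast; omega)
    rw [← hlz]
    have := genericPoint_eq_of_isOpenImmersion hV.fromSpec
    rw [genericPoint_eq_bot_of_affine] at this
    rw [show hV.fromSpec l.head = genericPoint S.A from
      (congrArg hV.fromSpec (PrimeSpectrum.ext hbot)).trans this]
    exact genericPoint_spec S.A

end Fermat.Agent.AV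

end
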