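import Fermat.Agent.AV.Calculus
import Fermat.Agent.AV.Curves
import Fermat.Agent.AV.GenericOver
import Fermat.Agent.AV.Cube.Curve

/-!
# The theorem of the cube for points

`qprin_cube`: the cube expression of a bundle at three points is principal.  By additivity it is
enough to treat a third point on a curve through the origin (`qprin_cube_curve`), as the generic
point is a sum of points of such curves.
-/

set_option autoImplicit false
set_option linter.unusedSectionVars false

noncomputable section

universe u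

open CategoryTheory CategoryTheory.Limits AlgebraicGeometry

namespace Fermat.Agent.AV

variable {K : Type u} [Field K] {S : Setting K}

namespace LineVal

variable (B : LineVal S) {M : Type u} [Field M] [Algebra K M]

theorem cube_zero (a b : S.Pt M) (W : Val K M) : B.cube a b 0 W = 1 := by
  have hne : ∀ p, B.val p W ≠ 0 := fun p => B.ne_zero p W
  simp only [cube, add_zero]
  field_simp [hne]

/-- The cube is principal with the given point in the third place, over all extensions. -/
def CubeTriv (t : S.Pt M) : Prop :=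
  ∀ (N : Type u) [Field N] [Algebra K N] [IsAlgClosed N] (j : M →ₐ[K] N) (a b : S.Pt N),
    QPrin (B.cube a b (S.map j t))

variable {B}

theorem CubeTriv.map {N : Type u} [Field N] [Algebra K N] {t : S.Pt M} (h : B.CubeTriv t)
    (φ : M →ₐ[K] N) : B.CubeTriv (S.map φ t) := fun L _ _ _ j a b => by
  rw [Setting.map_map]; exact h L (j.comp φ) a b

theorem CubeTriv.zero : B.CubeTriv (0 : S.Pt M) := fun L _ _ _ j a b =>
  QPrin.one.congr fun W => by rw [map_zero, B.cube_zero]

theorem CubeTriv.add {t t' : S.Pt M} (h : B.CubeTriv t) (h' : B.CubeTriv t') :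
    B.CubeTriv (t + t') := fun L _ _ _ j a b => by
  refine (((h L j a b).mul (h' L j (a + S.map j t) b)).div (h' L j (S.map j t) b)).congr fun W => ?_
  congr 1
  rw [map_add, B.cube_add a b (S.map j t) (S.map j t') W]
  have h1 := B.cube_ne_zero (S.map j t) b (S.map j t') W
  have h2 := B.cube_ne_zero (a + S.map j t) b (S.map j t') W
  field_simp

theorem CubeTriv.sum {ι : Type*} (s : Finset ι) (t : ι → S.Pt M) (h : ∀ i ∈ s, B.CubeTriv (t i)) :
    B.CubeTriv (∑ i ∈ s, t i) :=
  Finset.sum_induction t B.CubeTriv (fun _ _ => CubeTriv.add) CubeTriv.zero h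

theorem CubeTriv.of_map {N : Type u} [Field N] [Algebra K N] {t : S.Pt M} (φ : M →ₐ[K] N)
    (h : B.CubeTriv (S.map φ t)) : B.CubeTriv t := fun L _ _ _ j a b => by
  let := φ.toRingHom.toAlgebra
  let := j.toRingHom.toAlgebra
  let R := TensorProduct M L N
  obtain ⟨m, hm⟩ := Ideal.exists_maximal R
  have := hm
  let := Ideal.Quotient.field m
  let E := AlgebraicClosure (R ⧸ m)
  let f₁ : L →+* E := (algebraMap (R ⧸ m) E).comp
    ((Ideal.Quotient.mk m).comp (Algebra.TensorProduct.includeLeftRingHom (R := M)))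
  let f₂ : N →+* E := (algebraMap (R ⧸ m) E).comp
    ((Ideal.Quotient.mk m).comp (Algebra.TensorProduct.includeRight (R := M) (A := L)).toRingHom)
  have hf : ∀ x, f₁ (j x) = f₂ (φ x) := fun x => by
    show algebraMap (R ⧸ m) E (Ideal.Quotient.mk m _) = algebraMap (R ⧸ m) E (Ideal.Quotient.mk m _)
    congr 2
    exact Algebra.TensorProduct.tmul_one_eq_one_tmul x
  let := (f₁.comp (algebraMap K L)).toAlgebra
  let g₁ : L →ₐ[K] E := { f₁ with commutes' := fun _ => rfl }
  let g₂ : N →ₐ[K] E := { f₂ with
    commutes' := fun k => by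
      show f₂ (algebraMap K N k) = f₁ (algebraMap K L k)
      rw [← φ.commutes, ← j.commutes, hf] }
  have e : S.map g₂ (S.map φ t) = S.map g₁ (S.map j t) := by
    rw [Setting.map_map, Setting.map_map]
    congr 2
    exact AlgHom.ext fun x => (hf x).symm
  refine B.qprin_cube_of_map g₁ _ _ _ ?_
  rw [← e]
  exact h E g₂ _ _

end LineVal

variable [IsAlgClosed K] (S)

theorem cubeTriv_eta (hg : 0 < S.g) (B : LineVal S) (G : GenericData S) : B.CubeTriv G.eta := by
  obtain ⟨N, _, _, F, _, _, _, x, P, h, hP, hgen⟩ := exists_curves S hg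
  obtain ⟨j₀, hj₀⟩ := G.desc N _ hgen
  refine LineVal.CubeTriv.of_map j₀ (hj₀ ▸ LineVal.CubeTriv.sum _ _ fun i _ => ?_)
  exact LineVal.CubeTriv.map (fun L _ _ _ j a b => qprin_cube_curve S B (F i) (x i) (P i) (hP i) L j a b)
    (h i)

/-- **The theorem of the cube.** -/
theorem qprin_cube (hg : 0 < S.g) (G : GenericData S) (B : LineVal S) {M : Type u} [Field M]
    [Algebra K M] (a b c : S.Pt M) : QPrin (B.cube a b c) := by
  let φ : M →ₐ[K] AlgebraicClosure M := IsScalarTower.toAlgHom K M (AlgebraicClosure M)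
  refine B.qprin_cube_of_map φ a b c ?_
  obtain ⟨N, _, _, _, i, η, -, hη⟩ := exists_generic_over S (AlgebraicClosure M)
  refine B.qprin_cube_of_map i _ _ _ ?_
  have key : ∀ d : S.Pt (AlgebraicClosure M), ∀ p q : S.Pt N, QPrin (B.cube p q (η + S.map i d)) := by
    intro d p q
    obtain ⟨j, hj⟩ := G.desc N _ (hη d)
    exact hj ▸ cubeTriv_eta S hg B G N j p q
  set A := S.map i (S.map φ a)
  set Bp := S.map i (S.map φ b)
  set C := S.map i (S.map φ c) with hC
  have h0 : ∀ p q : S.Pt N, QPrin (B.cube p q η) := fun p q => by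
    simpa using key 0 p q
  refine (((key (S.map φ c) A Bp).mul (h0 C Bp)).div (h0 (A + C) Bp)).congr fun W => ?_
  rw [B.cube_add A Bp C η W, ← hC, add_comm C η]

end Fermat.Agent.AV

end
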