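import Fermat.Agent.AV.Setting

/-!
# Generic points, divisors and polarisations of an abelian variety

`GenericData`: the function field with its generic point.  `IsGenericOver`: genericity over a
subfield.  `DivData`: an effective divisor given by local equations on an open cover.
`Polarisation`: a symmetric line bundle, given by its values at points, with a function dominating
the poles of generators of the function field.
-/

set_option autoImplicit false
set_option linter.unusedSectionVars false

noncomputable section

universe u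

open CategoryTheory CategoryTheory.Limits AlgebraicGeometry NeronModelInfra GoodReductionJacobian

namespace Fermat.Agent.AV

variable {K : Type u} [Field K]

namespace Setting

variable (S : Setting K)

/-- Restriction of sections. -/
def res {U V : S.A.Opens} (h : V ≤ U) : Γ(S.A, U) →+* Γ(S.A, V) :=
  (S.A.presheaf.map (homOfLE h).op).hom

variable {R : Type u} [CommRing R] [Algebra K R]

/-- A point lies in an open. -/
def Mem (a : S.Pt R) (U : S.A.Opens) : Prop := (⊤ : (Spec (CommRingCat.of R)).Opens) ≤ a.1 ⁻¹ᵁ U

/-- Evaluation of a section at a point of its open. -/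
def ev (a : S.Pt R) {U : S.A.Opens} (h : S.Mem a U) : Γ(S.A, U) →+* R :=
  ((a.1.appLE U ⊤ h) ≫ (Scheme.ΓSpecIso (CommRingCat.of R)).hom).hom

end Setting

variable (S : Setting K)

/-- The function field with its generic point. -/
structure GenericData where
  KA : Type u
  [field : Field KA]
  [algebra : Algebra K KA]
  eta : S.Pt KA
  isGeneric : IsIntegral S.A ∧ eta.1 (IsLocalRing.closedPoint KA) ∈ {x : S.A | closure {x} = ⊤}
  desc : ∀ (M : Type u) [Field M] [Algebra K M] (a : S.Pt M),
    closure {a.1 (IsLocalRing.closedPoint M)} = (⊤ : Set S.A) →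
      ∃ j : KA →ₐ[K] M, S.map j eta = a
  trdeg : ∃ x : Fin S.g → KA, AlgebraicIndependent K x ∧
    Algebra.IsAlgebraic (IntermediateField.adjoin K (Set.range x)) KA
  fg : (⊤ : IntermediateField K KA).FG
  /-- every point is, after a field extension, a specialisation of the generic point -/
  spec : ∀ (M : Type u) [Field M] [Algebra K M] (b : S.Pt M),
    ∃ (M' : Type u) (_ : Field M') (_ : Algebra K M') (i : M →ₐ[K] M') (P : Place K KA M'),
      P.Maps S eta (S.map i b)

attribute [instance] GenericData.field GenericData.algebra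

/-- A point of `N` over a subfield is generic. -/
def IsGenericOver {M N : Type u} [Field M] [Algebra K M] [Field N] [Algebra K N] (i : M →ₐ[K] N)
    (a : S.Pt N) : Prop :=
  ∀ b : S.Pt M, ∃ (M' : Type u) (_ : Field M') (_ : Algebra K M') (i' : M →ₐ[K] M')
    (P : Place K N M'), (∀ x : M, ∃ h : i x ∈ P.val.sub, P.hom ⟨i x, h⟩ = i' x) ∧
      P.Maps S a (S.map i' b)

/-- An effective divisor given by local equations. -/
structure DivData (G : GenericData S) where
  n : ℕ
  U : Fin n → S.A.Opens
  cover : ∀ x : S.A, ∃ i, x ∈ U i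
  eta_mem : ∀ i, S.Mem G.eta (U i)
  e : ∀ i, Γ(S.A, U i)
  g : ∀ i j, Γ(S.A, U i ⊓ U j)
  g_mul : ∀ i j, S.res inf_le_left (e i) = g i j * S.res inf_le_right (e j)
  g_cocycle : ∀ i j k (W : S.A.Opens) (hij : W ≤ U i ⊓ U j) (hjk : W ≤ U j ⊓ U k)
    (hik : W ≤ U i ⊓ U k), S.res hik (g i k) = S.res hij (g i j) * S.res hjk (g j k)
  g_self : ∀ i, g i i = 1
  e_ne : ∀ i, S.ev G.eta (eta_mem i) (e i) ≠ 0

/-- A symmetric line bundle with a section dominating the poles of generators. -/
structure Polarisation (G : GenericData S) where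
  B : LineVal S
  gam : Val K G.KA → G.KA
  gam_eta : ∃ c : G.KA, c ≠ 0 ∧ ∀ W : Val K G.KA, W.sub.valuation (B.val G.eta W) = W.sub.valuation (c * gam W)
  gam_mem : ∀ W : Val K G.KA, gam W ∈ W.sub
  gam_finite : (Set.range gam).Finite
  symm : ∀ {M : Type u} [Field M] [Algebra K M] (a : S.Pt M),
    QPrin fun W : Val K M => B.val (-a) W / B.val a W
  gens : ∃ y : Finset G.KA, IntermediateField.adjoin K (y : Set G.KA) = ⊤ ∧
    ∀ z ∈ y, ∃ b : ℕ, ∀ W : Val K G.KA, z * gam W ^ b ∈ W.sub

end Fermat.Agent.AV

end
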