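import Fermat.Agent.AV.FuncField

/-!
# The degree of multiplication by `n` on the function field

Pulling back along multiplication by `n` embeds the function field into itself, with a finite
separable extension whose degree is the number of `n`-torsion points.
-/

set_option autoImplicit false

noncomputable section

universe u

open CategoryTheory CategoryTheory.Limits AlgebraicGeometry NeronModelInfra GoodReductionJacobian
open scoped TensorProduct

namespace Fermat.Agent.AV

variable {K : Type u} [Field K] {A : Scheme.{u}}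

/-- A dominant endomorphism fixes the generic point. -/
theorem map_genericPoint [IrreducibleSpace A] (h : A ⟶ A) [Surjective h] :
    h (genericPoint A) = genericPoint A := by
  apply ((genericPoint_spec A).eq _).symm
  convert! (genericPoint_spec A).image h.continuous
  rw [Set.image_univ, h.surjective.range_eq, closure_univ]

/-- The generic point lies in the preimage of a nonempty open set. -/
theorem genericPoint_mem_preimage [IrreducibleSpace A] (h : A ⟶ A) [Surjective h] (U : A.Opens)
    [Nonempty U] : genericPoint A ∈ h ⁻¹ᵁ U := by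
  show h (genericPoint A) ∈ U
  rw [map_genericPoint h]
  exact ((genericPoint_spec A).mem_open_set_iff U.isOpen).mpr (by simpa using ‹Nonempty U›)

section

variable [IsIntegral A]

instance nonempty_preimage (h : A ⟶ A) [Surjective h] (U : A.Opens) [Nonempty U] :
    Nonempty (h ⁻¹ᵁ U : A.Opens) :=
  ⟨⟨_, genericPoint_mem_preimage h U⟩⟩

/-- Pullback of rational functions. -/
def ffPullback (h : A ⟶ A) [Surjective h] : A.functionField ⟶ A.functionField :=
  A.presheaf.stalkSpecializes (specializes_of_eq (map_genericPoint h)) ≫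
    h.stalkMap (genericPoint A)

theorem germ_ffPullback (h : A ⟶ A) [Surjective h] (U : A.Opens) [Nonempty U] :
    A.germToFunctionField U ≫ ffPullback h = h.app U ≫ A.germToFunctionField (h ⁻¹ᵁ U) := by
  rw [ffPullback, TopCat.Presheaf.germ_stalkSpecializes_assoc, Scheme.Hom.germ_stalkMap]

variable {f : A ⟶ Spec (CommRingCat.of K)}

theorem constHom_ffPullback (h : A ⟶ A) [Surjective h] (hh : h ≫ f = f) :
    constHom f ≫ ffPullback h = constHom f := by
  have key : baseHom f ⊤ ≫ h.app ⊤ = baseHom f (h ⁻¹ᵁ ⊤) := by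
    conv_rhs => rw [baseHom]
    rw [baseHom, Category.assoc]
    congr 1
    rw [Scheme.Hom.app_eq_appLE h]
    refine (Scheme.Hom.appLE_comp_appLE h f ⊤ ⊤ (h ⁻¹ᵁ ⊤) le_top le_rfl).trans ?_
    simp only [hh]
  conv_rhs => rw [← baseHom_germ f (h ⁻¹ᵁ ⊤)]
  rw [constHom, Category.assoc, germ_ffPullback, ← Category.assoc, key]

/-- Pullback of rational functions, as a `K`-algebra map. -/
def ffAlgHom (h : A ⟶ A) [Surjective h] (hh : h ≫ f = f) : FuncField f →ₐ[K] FuncField f :=
  { (ffPullback h).hom with
    commutes' := fun k => congrArg (fun φ : CommRingCat.of K ⟶ A.functionField => φ.hom k)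
      (constHom_ffPullback h hh) }

theorem ffAlgHom_apply (h : A ⟶ A) [Surjective h] (hh : h ≫ f = f) (U : A.Opens) [Nonempty U]
    (s : Γ(A, U)) : ffAlgHom (f := f) h hh (A.germToFunctionField U s) =
      A.germToFunctionField (h ⁻¹ᵁ U) (h.app U s) :=
  congrArg (fun φ : Γ(A, U) ⟶ A.functionField => φ.hom s) (germ_ffPullback h U)

/-- A finite étale surjective endomorphism gives a separable extension of function fields, of the
same degree. -/
theorem finrank_ffAlgHom (h : A ⟶ A) [Surjective h] [IsFinite h] [Etale h] (hh : h ≫ f = f) :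
    Module.finrank (ffAlgHom (f := f) h hh).fieldRange (FuncField f) =
        h.finrank (genericPoint A) ∧
      Module.Finite (ffAlgHom (f := f) h hh).fieldRange (FuncField f) ∧
      Algebra.IsSeparable (ffAlgHom (f := f) h hh).fieldRange (FuncField f) := by
  obtain ⟨-, ⟨U, hU, rfl⟩, hxU, -⟩ :=
    A.isBasis_affineOpens.exists_subset_of_mem_open (Set.mem_univ (genericPoint A)) isOpen_univ
  have : Nonempty U := ⟨⟨_, hxU⟩⟩
  have hV : IsAffineOpen (h ⁻¹ᵁ U) := hU.preimage h
  let φ := ffAlgHom (f := f) h hh
  let FF := φ.fieldRange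
  let ψ : Γ(A, U) →+* FF :=
    (φ.rangeRestrict : FuncField f →+* φ.range).comp (A.germToFunctionField U).hom
  let : Algebra Γ(A, U) FF := ψ.toAlgebra
  let : Algebra Γ(A, h ⁻¹ᵁ U) (FuncField f) :=
    (A.germToFunctionField (h ⁻¹ᵁ U)).hom.toAlgebra
  let : Algebra Γ(A, U) Γ(A, h ⁻¹ᵁ U) := (h.app U).hom.toAlgebra
  let : Algebra Γ(A, U) (FuncField f) :=
    (φ.toRingHom.comp (A.germToFunctionField U).hom).toAlgebra
  have : IsScalarTower Γ(A, U) FF (FuncField f) := IsScalarTower.of_algebraMap_eq fun _ => rfl
  have : IsScalarTower Γ(A, U) Γ(A, h ⁻¹ᵁ U) (FuncField f) :=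
    IsScalarTower.of_algebraMap_eq fun s => ffAlgHom_apply h hh U s
  have : IsFractionRing Γ(A, h ⁻¹ᵁ U) (FuncField f) :=
    functionField_isFractionRing_of_isAffineOpen A _ hV
  have : IsFractionRing Γ(A, U) FF := by
    let : Algebra Γ(A, U) φ.range := ψ.toAlgebra
    have := functionField_isFractionRing_of_isAffineOpen A U hU
    let e : A.functionField ≃ₐ[Γ(A, U)] FF :=
      AlgEquiv.ofRingEquiv (f := (AlgEquiv.ofInjectiveField φ : FuncField f ≃ₐ[K] φ.range).toRingEquiv)
        fun _ => rfl
    exact IsLocalization.isLocalization_of_algEquiv _ e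
  have hfin : (h.app U).hom.Finite := IsFinite.finite_app h U hU
  have : Module.Finite Γ(A, U) Γ(A, h ⁻¹ᵁ U) := hfin
  have het : Algebra.Etale Γ(A, U) Γ(A, h ⁻¹ᵁ U) := by
    have := HasRingHomProperty.appLE (P := @Etale) h ‹_› ⟨U, hU⟩ ⟨_, hV⟩ le_rfl
    rw [← Scheme.Hom.app_eq_appLE] at this
    exact this
  have hrank : Module.finrank FF (FuncField f) = h.finrank (genericPoint A) := by
    have : IsOpenImmersion hU.fromSpec := hU.isOpenImmersion_fromSpec
    have : IsOpenImmersion hV.fromSpec := hV.isOpenImmersion_fromSpec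
    have hpb : IsPullback hV.fromSpec (Spec.map (h.app U)) h hU.fromSpec :=
      (IsOpenImmersion.isPullback (Spec.map (h.app U)) hV.fromSpec hU.fromSpec h (by
        rw [Scheme.Hom.app_eq_appLE, hU.SpecMap_appLE_fromSpec h hV])
        (by rw [hU.opensRange_fromSpec, hV.opensRange_fromSpec])).flip
    let p : PrimeSpectrum Γ(A, U) := ⟨⊥, Ideal.isPrime_bot⟩
    have hp : hU.fromSpec p = genericPoint A := by
      rw [← genericPoint_eq_of_isOpenImmersion hU.fromSpec, genericPoint_eq_bot_of_affine]
      rfl
    rw [IsFractionRing.finrank_eq Γ(A, U) FF Γ(A, h ⁻¹ᵁ U) (FuncField f), ← hp,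
      ← Scheme.Hom.finrank_of_isPullback hV.fromSpec _ h hU.fromSpec hpb p]
    refine Eq.trans ?_ (Scheme.Hom.finrank_SpecMap_algebraMap Γ(A, U) Γ(A, h ⁻¹ᵁ U) p).symm
    have : IsFractionRing Γ(A, U) (Localization.AtPrime p.asIdeal) :=
      (IsLocalization.iff_of_le_of_exists_dvd p.asIdeal.primeCompl (nonZeroDivisors Γ(A, U))
        (fun x hx => mem_nonZeroDivisors_of_ne_zero hx)
        fun x hx => ⟨x, nonZeroDivisors.ne_zero hx, dvd_rfl⟩).mp inferInstance
    rw [Module.rankAtStalk, IsFractionRing.finrank_right_eq Γ(A, U) (Localization.AtPrime p.asIdeal),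
      IsLocalizedModule.finrank_eq p.asIdeal.primeCompl (LocalizedModule.mkLinearMap _ _)
        p.asIdeal.primeCompl_le_nonZeroDivisors]
  have hpos : 0 < Module.finrank FF (FuncField f) := by
    rw [hrank, ← map_genericPoint h]
    exact h.one_le_finrank_map _
  have : Module.Finite FF (FuncField f) := Module.finite_of_finrank_pos hpos
  refine ⟨hrank, this, (Algebra.FormallyUnramified.iff_isSeparable FF (FuncField f)).mp ?_⟩
  have : Algebra.FormallyUnramified Γ(A, h ⁻¹ᵁ U) (FuncField f) :=
    Algebra.FormallyUnramified.of_isLocalization (nonZeroDivisors Γ(A, h ⁻¹ᵁ U))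
  have : Algebra.FormallyUnramified Γ(A, U) (FuncField f) :=
    Algebra.FormallyUnramified.comp Γ(A, U) Γ(A, h ⁻¹ᵁ U) (FuncField f)
  exact Algebra.FormallyUnramified.of_restrictScalars Γ(A, U) FF (FuncField f)

end

section

variable {f : A ⟶ Spec (CommRingCat.of K)} (L : RelativeGroupLaw K f) (g : ℕ)
  [SmoothOfRelativeDimension g f] [IsAlgClosed K] [IsIntegral A] (hc : L.IsCommutative)
  (hA : AbelianSchemePropertyBundle K f) {n : ℕ} (hn : (n : K) ≠ 0)

/-- Multiplication by `n` on the function field. -/
def phi : FuncField f →ₐ[K] FuncField f :=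
  have := surjective_schemeNsmul L g hc hA hn
  ffAlgHom (L.schemeNsmul n) (L.schemeNsmul_over n)

/-- **The degree of multiplication by `n` is the number of `n`-torsion points.** -/
theorem finrank_phi : Module.finrank (phi L g hc hA hn).fieldRange (FuncField f) =
    Nat.card {a : Pt f // L.IsTorsionPoint (𝟙 _) n a} := by
  have := surjective_schemeNsmul L g hc hA hn
  have := etale_schemeNsmul L g hc hn
  have := isFinite_schemeNsmul L g hc hA hn
  rw [natCard_torsion_eq_finrank L g hc hA hn (genericPoint A)]
  exact (finrank_ffAlgHom (L.schemeNsmul n) (L.schemeNsmul_over n)).1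

theorem finite_phi : Module.Finite (phi L g hc hA hn).fieldRange (FuncField f) := by
  have := surjective_schemeNsmul L g hc hA hn
  have := etale_schemeNsmul L g hc hn
  have := isFinite_schemeNsmul L g hc hA hn
  exact (finrank_ffAlgHom (L.schemeNsmul n) (L.schemeNsmul_over n)).2.1

theorem isSeparable_phi : Algebra.IsSeparable (phi L g hc hA hn).fieldRange (FuncField f) := by
  have := surjective_schemeNsmul L g hc hA hn
  have := etale_schemeNsmul L g hc hn
  have := isFinite_schemeNsmul L g hc hA hn
  exact (finrank_ffAlgHom (L.schemeNsmul n) (L.schemeNsmul_over n)).2.2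

end

end Fermat.Agent.AV

end
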