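import Fermat.Agent.AV.Unramified

/-!
# Multiplication by `n` is étale

An unramified morphism between smooth varieties of the same dimension is étale.
-/

set_option autoImplicit false

noncomputable section

universe u

open CategoryTheory CategoryTheory.Limits AlgebraicGeometry NeronModelInfra GoodReductionJacobian
open scoped TensorProduct

namespace Fermat.Agent.AV

/-- An unramified algebra map between standard smooth algebras of the same relative dimension is
étale. -/
theorem etale_of_formallyUnramified {K R B : Type u} [Field K] [CommRing R] [CommRing B]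
    [Algebra K R] [Algebra R B] [Algebra K B] [IsScalarTower K R B] (g : ℕ)
    [Algebra.IsStandardSmoothOfRelativeDimension g K R]
    [Algebra.IsStandardSmoothOfRelativeDimension g K B] [Algebra.FormallyUnramified R B] :
    Algebra.Etale R B := by
  have : Algebra.IsStandardSmooth K R :=
    Algebra.IsStandardSmoothOfRelativeDimension.isStandardSmooth g
  have : Algebra.IsStandardSmooth K B :=
    Algebra.IsStandardSmoothOfRelativeDimension.isStandardSmooth g
  have : Algebra.FinitePresentation R B :=
    Algebra.FinitePresentation.of_restrict_scalars_finitePresentation K R B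
  suffices h : Subsingleton (Algebra.H1Cotangent R B) from ⟨⟨inferInstance, h⟩, inferInstance⟩
  cases subsingleton_or_nontrivial B with
  | inl h => exact Module.subsingleton B _
  | inr hB =>
  have : Nontrivial R := (algebraMap R B).domain_nontrivial
  let m := KaehlerDifferential.mapBaseChange K R B
  have hsurj : Function.Surjective m := fun z =>
    (KaehlerDifferential.exact_mapBaseChange_map K R B z).mp (Subsingleton.elim _ _)
  have hr : Module.finrank R Ω[R⁄K] = g := Module.finrank_eq_of_rank_eq
    (Algebra.IsStandardSmoothOfRelativeDimension.rank_kaehlerDifferential g)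
  have hb : Module.finrank B Ω[B⁄K] = g := Module.finrank_eq_of_rank_eq
    (Algebra.IsStandardSmoothOfRelativeDimension.rank_kaehlerDifferential g)
  let e : Ω[B⁄K] ≃ₗ[B] B ⊗[R] Ω[R⁄K] := LinearEquiv.ofFinrankEq _ _
    (by rw [Module.finrank_baseChange, hr, hb])
  have hinj : Function.Injective m := by
    have h := OrzechProperty.injective_of_surjective_endomorphism
      (e.toLinearMap.comp m) (e.surjective.comp hsurj)
    intro a b hab
    exact h (congrArg e hab)
  refine subsingleton_of_forall_eq 0 fun ξ => ?_
  have hδ : Algebra.H1Cotangent.δ K R B ξ = 0 := hinj (by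
    rw [map_zero]
    exact (Algebra.H1Cotangent.exact_δ_mapBaseChange K R B _).mpr ⟨ξ, rfl⟩)
  obtain ⟨η, rfl⟩ := (Algebra.H1Cotangent.exact_map_δ K R B ξ).mp hδ
  rw [Subsingleton.elim η 0, map_zero]

variable {K : Type u} [Field K] {A : Scheme.{u}} (f : A ⟶ Spec (CommRingCat.of K))

/-- Around a point, a chart inside a given open which is standard smooth over the field. -/
theorem exists_chart (g : ℕ) [SmoothOfRelativeDimension g f] {x : A} {W : A.Opens} (hx : x ∈ W) :
    ∃ V : A.Opens, IsAffineOpen V ∧ x ∈ V ∧ V ≤ W ∧
      (baseHom f V).hom.IsStandardSmoothOfRelativeDimension g := by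
  obtain ⟨U, hU, V, hV, hxV, e, h⟩ :=
    SmoothOfRelativeDimension.exists_isStandardSmoothOfRelativeDimension (n := g) (f := f) x
  obtain rfl : U = ⊤ := top_le_iff.mp fun y _ => by
    rw [Subsingleton.elim y (f x)]
    exact e hxV
  obtain ⟨r, hr, hxr⟩ := hV.exists_basicOpen_le (V := W) ⟨x, hx⟩ hxV
  refine ⟨A.basicOpen r, hV.basicOpen r, hxr, hr, ?_⟩
  have := hV.isLocalization_basicOpen r
  have h1 : (A.presheaf.map (homOfLE (A.basicOpen_le r)).op).hom.IsStandardSmoothOfRelativeDimension 0 :=
    RingHom.IsStandardSmoothOfRelativeDimension.algebraMap_isLocalizationAway r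
  have h0 : (Scheme.ΓSpecIso (CommRingCat.of K)).inv.hom.IsStandardSmoothOfRelativeDimension 0 :=
    RingHom.IsStandardSmoothOfRelativeDimension.equiv
      (Scheme.ΓSpecIso (CommRingCat.of K)).symm.commRingCatIsoToRingEquiv
  have h2 := RingHom.IsStandardSmoothOfRelativeDimension.comp
    (RingHom.IsStandardSmoothOfRelativeDimension.comp h1 h) h0
  rw [baseHom, ← f.appLE_map e (homOfLE (A.basicOpen_le r)).op]
  simp only [CommRingCat.hom_comp]
  simpa using h2

variable {f} (L : RelativeGroupLaw K f)

/-- **Multiplication by `n` is étale.** -/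
theorem etale_schemeNsmul [IsAlgClosed K] (g : ℕ) [SmoothOfRelativeDimension g f]
    (hc : L.IsCommutative) {n : ℕ} (hn : (n : K) ≠ 0) : Etale (L.schemeNsmul n) := by
  have := SmoothOfRelativeDimension.smooth g f
  have := formallyUnramified_schemeNsmul L hc hn
  rw [HasRingHomProperty.iff_exists_appLE (P := @Etale)
    (fun R S T _ _ _ _ r _ f hf => RingHom.Etale.stableUnderComposition _ f
      (RingHom.etale_algebraMap.mpr (Algebra.Etale.of_isLocalizationAway r)) hf)]
  intro x
  obtain ⟨U, hU, hxU, -, hgU⟩ := exists_chart f g (x := L.schemeNsmul n x) (W := ⊤) trivial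
  obtain ⟨V, hV, hxV, e, hgV⟩ := exists_chart f g (x := x) (W := L.schemeNsmul n ⁻¹ᵁ U) hxU
  refine ⟨⟨U, hU⟩, ⟨V, hV⟩, hxV, e, ?_⟩
  set ψ := (L.schemeNsmul n).appLE U V e with hψ
  let : Algebra K Γ(A, U) := (baseHom f U).hom.toAlgebra
  let : Algebra K Γ(A, V) := (baseHom f V).hom.toAlgebra
  let : Algebra Γ(A, U) Γ(A, V) := ψ.hom.toAlgebra
  have hψb : baseHom f U ≫ ψ = baseHom f V := by
    rw [baseHom, baseHom, Category.assoc, hψ]
    congr 1
    refine (Scheme.Hom.appLE_comp_appLE (L.schemeNsmul n) f ⊤ U V (fun _ _ => trivial) e).trans ?_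
    congr 1
    exact L.schemeNsmul_over n
  have : IsScalarTower K Γ(A, U) Γ(A, V) :=
    IsScalarTower.of_algebraMap_eq' (congrArg CommRingCat.Hom.hom hψb).symm
  have : Algebra.IsStandardSmoothOfRelativeDimension g K Γ(A, U) := hgU
  have : Algebra.IsStandardSmoothOfRelativeDimension g K Γ(A, V) := hgV
  have : Algebra.FormallyUnramified Γ(A, U) Γ(A, V) :=
    (L.schemeNsmul n).formallyUnramified_appLE hU hV e
  exact etale_of_formallyUnramified (K := K) g

end Fermat.Agent.AV

end
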