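import Fermat.Agent.AV.Defs
import Fermat.Agent.AV.Etale
import Fermat.Agent.AV.Completion

/-!
# Torsion of abelian varieties: an effective divisor dominating the poles of generators

The local rings at closed points are factorial, so each generator of the function field has
locally a denominator which is unique up to units; their products give a Cartier divisor.
-/

set_option autoImplicit false
set_option linter.style.haveILetI false
set_option linter.unusedSectionVars false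

noncomputable section

universe u

open CategoryTheory CategoryTheory.Limits AlgebraicGeometry NeronModelInfra GoodReductionJacobian
open Opposite TopologicalSpace

namespace Fermat.Agent.AV

variable {K : Type u} [Field K] {S : Setting K}

namespace DivExists

variable {R R' : Type u} [CommRing R] [Algebra K R] [CommRing R'] [Algebra K R']

theorem ev_res (a : S.Pt R) {U V : S.A.Opens} (h : V ≤ U) (hU : S.Mem a U) (hV : S.Mem a V)
    (s : Γ(S.A, U)) : S.ev a hV (S.res h s) = S.ev a hU s := by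
  have e := congrArg (fun φ => φ ≫ (Scheme.ΓSpecIso (CommRingCat.of R)).hom)
    (a.1.map_appLE hV (homOfLE h).op)
  exact ConcreteCategory.congr_hom e s

theorem mem_map (φ : R →ₐ[K] R') (a : S.Pt R) {U : S.A.Opens} (hU : S.Mem a U) :
    S.Mem (S.map φ a) U := fun y _ => hU (trivial : Spec.map _ y ∈ (⊤ : Opens _))

theorem ev_map (φ : R →ₐ[K] R') (a : S.Pt R) {U : S.A.Opens} (hU : S.Mem a U)
    (s : Γ(S.A, U)) : S.ev (S.map φ a) (mem_map φ a hU) s = φ (S.ev a hU s) := by
  have e : (Spec.map (CommRingCat.ofHom φ.toRingHom) ≫ a.1).appLE U ⊤ (mem_map φ a hU) ≫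
      (Scheme.ΓSpecIso (CommRingCat.of R')).hom =
      (a.1.appLE U ⊤ hU ≫ (Scheme.ΓSpecIso (CommRingCat.of R)).hom) ≫
        CommRingCat.ofHom φ.toRingHom := by
    rw [← Scheme.Hom.appLE_comp_appLE _ _ U ⊤ ⊤ hU le_top, Category.assoc, Category.assoc,
      ← Scheme.ΓSpecIso_naturality, Scheme.Hom.appTop, Scheme.Hom.app_eq_appLE]
    rfl
  exact ConcreteCategory.congr_hom e s

variable (G : GenericData S)

theorem genIntegral (G : GenericData S) : IsIntegral S.A := G.isGeneric.1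

theorem closure_eta : closure {G.eta.1 (IsLocalRing.closedPoint G.KA)} = (⊤ : Set S.A) :=
  G.isGeneric.2

theorem eta_mem_iff {U : S.A.Opens} : S.Mem G.eta U ↔ (U : Set S.A).Nonempty := by
  constructor
  · exact fun h => ⟨G.eta.1 (IsLocalRing.closedPoint G.KA),
      h (trivial : IsLocalRing.closedPoint G.KA ∈ (⊤ : (Spec (CommRingCat.of G.KA)).Opens))⟩
  · intro h y _
    obtain ⟨x, hx⟩ := h
    have hξ : G.eta.1 (IsLocalRing.closedPoint G.KA) ∈ (U : Set S.A) := by
      have := closure_eta G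
      obtain ⟨z, hzU, hz⟩ := mem_closure_iff.1 (this.ge (Set.mem_univ x)) U U.2 hx
      rwa [Set.mem_singleton_iff.1 hz] at hzU
    rwa [show y = IsLocalRing.closedPoint G.KA from
      Subsingleton.elim (α := PrimeSpectrum G.KA) y (IsLocalRing.closedPoint G.KA)]

theorem eta_mem {U : S.A.Opens} {x : S.A} (hx : x ∈ U) : S.Mem G.eta U :=
  (eta_mem_iff G).2 ⟨x, hx⟩

/-- The point of the spectrum of the function field. -/
abbrev pt : Spec (CommRingCat.of G.KA) := IsLocalRing.closedPoint G.KA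

theorem pt_mem {U : S.A.Opens} (h : S.Mem G.eta U) : G.eta.1 (pt G) ∈ U :=
  h (x := pt G) trivial

theorem ev_congr {a b : S.Pt R} (h : a = b) {U : S.A.Opens} (ha : S.Mem a U) (hb : S.Mem b U)
    (s : Γ(S.A, U)) : S.ev a ha s = S.ev b hb s := by
  subst h; rfl

/-- Sections are determined by their values at the generic point. -/
theorem ev_injective {U : S.A.Opens} (hU : S.Mem G.eta U) :
    Function.Injective (S.ev G.eta hU) := by
  haveI := genIntegral G
  rw [injective_iff_map_eq_zero]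
  intro s hs
  by_contra h0
  have hne : S.A.basicOpen s ≠ ⊥ := fun h => h0 ((basicOpen_eq_bot_iff s).1 h)
  obtain ⟨x, hx⟩ : (S.A.basicOpen s : Set S.A).Nonempty := by
    rw [Set.nonempty_iff_ne_empty]
    exact fun h => hne (Opens.ext h)
  have hpt : pt G ∈ G.eta.1 ⁻¹ᵁ S.A.basicOpen s := pt_mem G (eta_mem G hx)
  rw [Scheme.preimage_basicOpen] at hpt
  have h1 : G.eta.1.appLE U ⊤ hU s = 0 := by
    apply (Scheme.ΓSpecIso (CommRingCat.of G.KA)).commRingCatIsoToRingEquiv.injective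
    rw [map_zero]
    exact hs
  have h2 : pt G ∈
      (Spec (CommRingCat.of G.KA)).basicOpen (G.eta.1.appLE U ⊤ hU s) := by
    show pt G ∈ (Spec (CommRingCat.of G.KA)).basicOpen ((Spec (CommRingCat.of G.KA)).presheaf.map
      (homOfLE hU).op (G.eta.1.app U s))
    rw [Scheme.basicOpen_res]
    exact ⟨trivial, hpt⟩
  rw [h1, Scheme.basicOpen_zero] at h2
  exact h2

/-- The values of sections defined near a point. -/
def InStalk (x : S.A) (v : G.KA) : Prop :=
  ∃ (W : S.A.Opens) (hW : x ∈ W) (s : Γ(S.A, W)), S.ev G.eta (eta_mem G hW) s = v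

variable {G}

theorem InStalk.mul {x : S.A} {v w : G.KA} (hv : InStalk G x v) (hw : InStalk G x w) :
    InStalk G x (v * w) := by
  obtain ⟨V, hV, s, rfl⟩ := hv
  obtain ⟨W, hW, t, rfl⟩ := hw
  exact ⟨V ⊓ W, ⟨hV, hW⟩, S.res inf_le_left s * S.res inf_le_right t, by
    rw [map_mul, ev_res, ev_res]⟩

theorem InStalk.one (x : S.A) : InStalk G x 1 := ⟨⊤, trivial, 1, map_one _⟩

theorem InStalk.prod {x : S.A} {ι : Type*} (s : Finset ι) {f : ι → G.KA}
    (h : ∀ i ∈ s, InStalk G x (f i)) : InStalk G x (∏ i ∈ s, f i) :=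
  Finset.prod_induction f (InStalk G x) (fun _ _ => InStalk.mul) (InStalk.one x) h

theorem inStalk_ev {U : S.A.Opens} {x : S.A} (hU : S.Mem G.eta U) (hx : x ∈ U) (s : Γ(S.A, U)) :
    InStalk G x (S.ev G.eta hU s) := ⟨U, hx, s, rfl⟩

theorem inStalk_inv {U : S.A.Opens} {x : S.A} (hU : S.Mem G.eta U) (t : Γ(S.A, U))
    (hx : x ∈ S.A.basicOpen t) : InStalk G x (S.ev G.eta hU t)⁻¹ := by
  obtain ⟨u, hu⟩ := (RingedSpace.isUnit_res_basicOpen
    S.A.toLocallyRingedSpace.toSheafedSpace t).exists_right_inv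
  refine ⟨S.A.basicOpen t, hx, u, eq_inv_of_mul_eq_one_right ?_⟩
  have hu' : S.res (S.A.basicOpen_le t) t * (show Γ(S.A, S.A.basicOpen t) from u) = 1 := hu
  have e := congrArg (S.ev G.eta (eta_mem G hx)) hu'
  rwa [map_mul, map_one, ev_res G.eta (S.A.basicOpen_le t) hU (eta_mem G hx) t] at e

/-- A value near a point of an affine open is a fraction of sections on it. -/
theorem InStalk.exists_frac {V : S.A.Opens} (hV : IsAffineOpen V) (hVm : S.Mem G.eta V) {x : S.A}
    (hx : x ∈ V) {v : G.KA} (hv : InStalk G x v) :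
    ∃ s t : Γ(S.A, V), x ∈ S.A.basicOpen t ∧ v * S.ev G.eta hVm t = S.ev G.eta hVm s := by
  obtain ⟨W, hW, σ, rfl⟩ := hv
  obtain ⟨r, hr, hxr⟩ := hV.exists_basicOpen_le (V := W) ⟨x, hW⟩ hx
  haveI := hV.isLocalization_basicOpen r
  obtain ⟨n, s, hs⟩ := IsLocalization.Away.surj r (S.res hr σ)
  refine ⟨s, r ^ n, ?_, ?_⟩
  · rcases Nat.eq_zero_or_pos n with rfl | hn
    · rw [pow_zero, Scheme.basicOpen_of_isUnit _ isUnit_one]
      exact hx
    · rw [S.A.basicOpen_pow r hn]
      exact hxr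
  · have e := congrArg (S.ev G.eta (eta_mem G hxr)) hs
    rw [map_mul, map_pow,
      show S.ev G.eta (eta_mem G hxr) (algebraMap Γ(S.A, V) Γ(S.A, S.A.basicOpen r) r) =
        S.ev G.eta hVm r from ev_res G.eta (S.A.basicOpen_le r) hVm (eta_mem G hxr) r,
      ev_res G.eta hr (eta_mem G hW) (eta_mem G hxr) σ] at e
    rw [map_pow, e]
    exact ev_res G.eta (S.A.basicOpen_le r) hVm (eta_mem G hxr) s

variable (G)

/-- Every element is a fraction of sections on an affine open. -/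
theorem exists_div_eq [IsAlgClosed K] {V : S.A.Opens} (hV : IsAffineOpen V) (hVm : S.Mem G.eta V) (z : G.KA) :
    ∃ s t : Γ(S.A, V), t ≠ 0 ∧ z = S.ev G.eta hVm s / S.ev G.eta hVm t := by
  haveI := genIntegral G
  obtain ⟨x, hx⟩ := (eta_mem_iff G).1 hVm
  haveI : Nonempty V := ⟨⟨x, hx⟩⟩
  letI : Algebra K Γ(S.A, V) := (baseHom S.f V).hom.toAlgebra
  let M : Type u := FractionRing Γ(S.A, V)
  have hm : Spec.map (CommRingCat.ofHom (algebraMap Γ(S.A, V) M)) ≫ hV.fromSpec ≫ S.f =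
      str K M := by
    rw [fromSpec_comp S.f hV, ← Spec.map_comp, str]
    congr 1
  let a : S.Pt M := ⟨Spec.map (CommRingCat.ofHom (algebraMap Γ(S.A, V) M)) ≫ hV.fromSpec,
    by rw [Category.assoc]; exact hm⟩
  have hcl : closure {a.1 (IsLocalRing.closedPoint M)} = (⊤ : Set S.A) := by
    have h1 : Spec.map (CommRingCat.ofHom (algebraMap Γ(S.A, V) M))
        (IsLocalRing.closedPoint M) = genericPoint (Spec Γ(S.A, V)) := by
      rw [genericPoint_eq_bot_of_affine]
      apply PrimeSpectrum.ext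
      show (IsLocalRing.maximalIdeal M).comap (algebraMap Γ(S.A, V) M) = ⊥
      rw [IsLocalRing.maximalIdeal_eq_bot, Ideal.comap_bot_of_injective _
        (IsFractionRing.injective _ _)]
    show closure {(Spec.map _ ≫ hV.fromSpec) _} = _
    erw [Scheme.Hom.comp_apply, h1]
    haveI : Nonempty (Spec Γ(S.A, V)) := inferInstance
    rw [genericPoint_eq_of_isOpenImmersion hV.fromSpec]
    exact genericPoint_closure _
  obtain ⟨j, hj⟩ := G.desc M a hcl
  have ham : S.Mem a V := fun y _ => by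
    show (Spec.map _ ≫ hV.fromSpec) y ∈ V
    rw [Scheme.Hom.comp_apply]
    exact hV.range_fromSpec.le (Set.mem_range_self _)
  have hja : ∀ s, j (S.ev G.eta hVm s) = algebraMap Γ(S.A, V) M s := by
    intro s
    rw [← ev_map, ev_congr hj _ ham]
    have e : (Spec.map (CommRingCat.ofHom (algebraMap Γ(S.A, V) M)) ≫ hV.fromSpec).appLE V ⊤ ham ≫
        (Scheme.ΓSpecIso (CommRingCat.of M)).hom =
          CommRingCat.ofHom (algebraMap Γ(S.A, V) M) := by
      have h1 : hV.fromSpec.appLE V ⊤ hV.fromSpec_preimage_self.ge =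
          (Scheme.ΓSpecIso Γ(S.A, V)).inv := by
        rw [Scheme.Hom.appLE, hV.fromSpec_app_self, Category.assoc, ← Functor.map_comp,
          show (eqToHom hV.fromSpec_preimage_self).op ≫
            (homOfLE hV.fromSpec_preimage_self.ge).op = 𝟙 _ from Subsingleton.elim _ _]
        simp
      rw [← Scheme.Hom.appLE_comp_appLE _ _ V ⊤ ⊤ hV.fromSpec_preimage_self.ge le_top,
        Category.assoc, h1]
      show _ ≫ (Spec.map _).appLE ⊤ ⊤ _ ≫ _ = _
      rw [show (Spec.map (CommRingCat.ofHom (algebraMap Γ(S.A, V) M))).appLE ⊤ ⊤ le_top =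
        (Spec.map (CommRingCat.ofHom (algebraMap Γ(S.A, V) M))).appTop by
          simp [Scheme.Hom.appTop, Scheme.Hom.app_eq_appLE], Scheme.ΓSpecIso_naturality]
      exact Iso.inv_hom_id_assoc _ _
    show ((a.1.appLE V ⊤ ham) ≫ _).hom s = _
    exact ConcreteCategory.congr_hom e s
  obtain ⟨s, t, ht, hst⟩ := IsFractionRing.div_surjective (A := Γ(S.A, V)) (j z)
  refine ⟨s, t, nonZeroDivisors.ne_zero ht, j.toRingHom.injective ?_⟩
  show j z = j _
  rw [map_div₀, hja, hja, hst]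

/-- A reduced denominator of a function near a point. -/
def Reduced (z b : G.KA) (x : S.A) : Prop :=
  InStalk G x b ∧ InStalk G x (z * b) ∧ ∀ v, InStalk G x v → InStalk G x (z * v) → InStalk G x (v / b)

variable {G}

theorem Reduced.inStalk_div {z b b' : G.KA} {x : S.A} (h : Reduced G z b x)
    (h' : Reduced G z b' x) : InStalk G x (b' / b) := h.2.2 b' h'.1 h'.2.1

/-- A reduced denominator of a function on a neighbourhood of a closed point. -/
theorem exists_reduced [IsAlgClosed K] (x₀ : S.A) (hx₀ : IsClosed {x₀}) (z : G.KA) :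
    ∃ (U : S.A.Opens), IsAffineOpen U ∧ x₀ ∈ U ∧ ∃ (hm : S.Mem G.eta U) (b : Γ(S.A, U)),
      b ≠ 0 ∧ ∀ x ∈ U, Reduced G z (S.ev G.eta hm b) x := by
  classical
  haveI := genIntegral G
  obtain ⟨V, hV, hxV, -, hVs⟩ := exists_chart S.f S.g (x := x₀) (W := ⊤) trivial
  have hVm : S.Mem G.eta V := eta_mem G hxV
  haveI : Nonempty V := ⟨⟨_, hxV⟩⟩
  letI : Algebra K Γ(S.A, V) := (baseHom S.f V).hom.toAlgebra
  haveI : Algebra.IsStandardSmoothOfRelativeDimension S.g K Γ(S.A, V) := hVs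
  haveI : Algebra.IsStandardSmooth K Γ(S.A, V) :=
    Algebra.IsStandardSmoothOfRelativeDimension.isStandardSmooth S.g
  haveI : Algebra.FiniteType K Γ(S.A, V) := inferInstance
  haveI : IsNoetherianRing Γ(S.A, V) := Algebra.FiniteType.isNoetherianRing K _
  set m := (hV.primeIdealOf ⟨x₀, hxV⟩).asIdeal with hm
  haveI hmax : m.IsMaximal := hV.primeIdealOf_isMaximal_of_isClosed ⟨x₀, hxV⟩ hx₀
  -- the rational point
  letI : Field (Γ(S.A, V) ⧸ m) := Ideal.Quotient.field m
  haveI : Module.Finite K (Γ(S.A, V) ⧸ m) := finite_of_finite_type_of_isJacobsonRing K _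
  let φ : K ≃ₐ[K] Γ(S.A, V) ⧸ m := AlgEquiv.ofBijective (Algebra.ofId K _)
    ⟨(algebraMap K _).injective, IsAlgClosed.algebraMap_bijective_of_isIntegral.2⟩
  let ev₀ : Γ(S.A, V) →ₐ[K] K := φ.symm.toAlgHom.comp (Ideal.Quotient.mkₐ K m)
  have hker : RingHom.ker ev₀.toRingHom = m := by
    ext s
    rw [RingHom.mem_ker, ← Ideal.Quotient.eq_zero_iff_mem]
    exact map_eq_zero_iff φ.symm φ.symm.injective
  haveI : (RingHom.ker ev₀.toRingHom).IsPrime := RingHom.ker_isPrime _
  -- the local ring is factorial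
  obtain ⟨h₀, hh₀⟩ :=
    Algebra.IsStandardSmoothOfRelativeDimension.exists_etale_mvPolynomial S.g K Γ(S.A, V)
  let t₀ : Fin S.g → K := fun i => ev₀ (h₀ (MvPolynomial.X i))
  let τ : MvPolynomial (Fin S.g) K ≃ₐ[K] MvPolynomial (Fin S.g) K :=
    AlgEquiv.ofAlgHom (MvPolynomial.aeval fun i => MvPolynomial.X i - MvPolynomial.C (t₀ i))
      (MvPolynomial.aeval fun i => MvPolynomial.X i + MvPolynomial.C (t₀ i))
      (by ext i; simp) (by ext i; simp)
  letI : Algebra Γ(S.A, V) (S.A.presheaf.stalk x₀) :=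
    S.A.presheaf.algebra_section_stalk (⟨x₀, hxV⟩ : V)
  haveI hlocm : IsLocalization.AtPrime (S.A.presheaf.stalk x₀) m :=
    hV.isLocalization_stalk ⟨x₀, hxV⟩
  haveI : IsLocalization.AtPrime (S.A.presheaf.stalk x₀) (RingHom.ker ev₀.toRingHom) := by
    show IsLocalization (RingHom.ker ev₀.toRingHom).primeCompl _
    rw [show (RingHom.ker ev₀.toRingHom).primeCompl = m.primeCompl from
      SetLike.ext fun t => by simp only [Ideal.primeCompl, hker]]
    exact hlocm
  obtain ⟨-, hufd⟩ := uniqueFactorizationMonoid_of_chart (h₀.comp τ.toAlgHom)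
    (RingHom.Etale.stableUnderComposition _ _
      (RingHom.Etale.of_bijective τ.toRingEquiv.bijective) hh₀)
    ev₀ (fun i => by
      show ev₀ (h₀ (τ (MvPolynomial.X i))) = 0
      rw [show τ (MvPolynomial.X i) = MvPolynomial.X i - MvPolynomial.C (t₀ i) from
        MvPolynomial.aeval_X _ i, map_sub, map_sub, ← MvPolynomial.algebraMap_eq,
        AlgHom.commutes, AlgHom.commutes]
      exact sub_self _)
    (S.A.presheaf.stalk x₀)
  haveI := hufd
  have hbasic : ∀ t, x₀ ∈ S.A.basicOpen t ↔ t ∉ m := fun t => by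
    rw [Scheme.mem_basicOpen _ t x₀ hxV]
    exact (IsLocalization.AtPrime.isUnit_to_map_iff (S.A.presheaf.stalk x₀) m t :)
  have hinj : Function.Injective (algebraMap Γ(S.A, V) (S.A.presheaf.stalk x₀)) :=
    IsLocalization.injective (S.A.presheaf.stalk x₀) (m.primeCompl_le_nonZeroDivisors)
  -- a reduced fraction
  obtain ⟨s₀, t₁, ht₁, hz⟩ := exists_div_eq G hV hVm z
  obtain ⟨β, α, c, hrel, hcb, hca⟩ := UniqueFactorizationMonoid.exists_reduced_factors
    (algebraMap _ (S.A.presheaf.stalk x₀) t₁) ((map_ne_zero_iff _ hinj).2 ht₁) (algebraMap _ (S.A.presheaf.stalk x₀) s₀)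
  obtain ⟨b₁, σ, hb₁⟩ := IsLocalization.exists_mk'_eq m.primeCompl β
  obtain ⟨a₁, σ', ha₁⟩ := IsLocalization.exists_mk'_eq m.primeCompl α
  obtain ⟨b₀, hb₀def⟩ : ∃ b₀, b₀ = b₁ * (σ' : Γ(S.A, V)) := ⟨_, rfl⟩
  obtain ⟨a₀, ha₀def⟩ : ∃ a₀, a₀ = a₁ * (σ : Γ(S.A, V)) := ⟨_, rfl⟩
  have hbβ : algebraMap _ (S.A.presheaf.stalk x₀) b₀ =
      β * algebraMap _ (S.A.presheaf.stalk x₀) ((σ : Γ(S.A, V)) * σ') := by
    rw [hb₀def, map_mul, map_mul, ← IsLocalization.mk'_spec (S.A.presheaf.stalk x₀) b₁ σ, hb₁]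
    ring
  have haα : algebraMap _ (S.A.presheaf.stalk x₀) a₀ =
      α * algebraMap _ (S.A.presheaf.stalk x₀) ((σ : Γ(S.A, V)) * σ') := by
    rw [ha₀def, map_mul, map_mul, ← IsLocalization.mk'_spec (S.A.presheaf.stalk x₀) a₁ σ', ha₁]
    ring
  have hu : IsUnit (algebraMap _ (S.A.presheaf.stalk x₀) ((σ : Γ(S.A, V)) * σ')) :=
    IsLocalization.map_units (S.A.presheaf.stalk x₀) (σ * σ')
  have hc0 : c ≠ 0 := fun e => ht₁ (hinj (by rw [map_zero, ← hcb, e, zero_mul]))
  have hb0 : b₀ ≠ 0 := fun e => by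
    rw [e, map_zero, eq_comm, hu.mul_left_eq_zero] at hbβ
    exact ht₁ (hinj (by rw [map_zero, ← hcb, hbβ, mul_zero]))
  have hzab : z * S.ev G.eta hVm b₀ = S.ev G.eta hVm a₀ := by
    have e : s₀ * b₀ = a₀ * t₁ := hinj (by
      rw [map_mul, map_mul, ← hca, ← hcb, hbβ, haα]; ring)
    have e' := congrArg (S.ev G.eta hVm) e
    rw [map_mul, map_mul] at e'
    rw [hz, div_mul_eq_mul_div, e', mul_div_assoc, div_self, mul_one]
    exact (map_ne_zero_iff _ (ev_injective G hVm)).2 ht₁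
  -- the colon ideal
  let C : Ideal Γ(S.A, V) := Submodule.comap (LinearMap.mulLeft Γ(S.A, V) a₀) (Ideal.span {b₀})
  obtain ⟨gens, hgens⟩ := IsNoetherian.noetherian C
  have hloc : ∀ s ∈ gens, ∃ h : m.primeCompl, b₀ ∣ (h : Γ(S.A, V)) * s := by
    intro s hs
    have hsC : b₀ ∣ a₀ * s := by
      have : s ∈ C := hgens ▸ Submodule.subset_span hs
      exact Ideal.mem_span_singleton.1 this
    have hd := map_dvd (algebraMap Γ(S.A, V) (S.A.presheaf.stalk x₀)) hsC
    rw [map_mul, hbβ, haα, mul_comm α, mul_assoc, hu.mul_right_dvd, hu.dvd_mul_left] at hd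
    have hd' : algebraMap _ (S.A.presheaf.stalk x₀) b₀ ∣ algebraMap _ (S.A.presheaf.stalk x₀) s := by
      rw [hbβ, hu.mul_right_dvd]
      exact hrel.dvd_of_dvd_mul_left hd
    obtain ⟨q, hq⟩ := hd'
    obtain ⟨w, η, rfl⟩ := IsLocalization.exists_mk'_eq m.primeCompl q
    refine ⟨η, w, hinj ?_⟩
    rw [map_mul, map_mul, hq, ← IsLocalization.mk'_spec (S.A.presheaf.stalk x₀) w η]
    ring
  choose! η hη using hloc
  set hprod : Γ(S.A, V) := ((∏ s ∈ gens, η s : m.primeCompl) : Γ(S.A, V))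
  have hcolon : ∀ s, b₀ ∣ a₀ * s → b₀ ∣ hprod * s := by
    intro s hs
    have hsC : s ∈ C := Ideal.mem_span_singleton.2 hs
    rw [← hgens] at hsC
    refine Submodule.span_induction (p := fun s _ => b₀ ∣ hprod * s) (fun s hs => ?_)
      (by simp) (fun a b _ _ ha hb => by rw [mul_add]; exact dvd_add ha hb)
      (fun r a _ ha => by rw [smul_eq_mul, mul_left_comm]; exact ha.mul_left r) hsC
    refine (hη s hs).trans (mul_dvd_mul_right ?_ s)
    simp only [hprod, Submonoid.coe_finsetProd]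
    exact Finset.dvd_prod_of_mem _ hs
  -- the neighbourhood
  have hxh : x₀ ∈ S.A.basicOpen hprod := (hbasic _).2 (∏ s ∈ gens, η s : m.primeCompl).2
  have hUV := S.A.basicOpen_le hprod
  refine ⟨S.A.basicOpen hprod, hV.basicOpen _, hxh, eta_mem G hxh, S.res hUV b₀, fun e => hb0
    (ev_injective G hVm (by
      rw [map_zero, ← ev_res G.eta hUV hVm (eta_mem G hxh), e, map_zero])),
    fun x hx => ?_⟩
  rw [ev_res G.eta hUV hVm]
  have hxV' : x ∈ V := hUV hx
  refine ⟨inStalk_ev hVm hxV' b₀, hzab ▸ inStalk_ev hVm hxV' a₀, fun v hv hzv => ?_⟩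
  obtain ⟨s, t, ht, hst⟩ := hv.exists_frac hV hVm hxV'
  obtain ⟨s', t', ht', hst'⟩ := hzv.exists_frac hV hVm hxV'
  have hdvd : b₀ ∣ a₀ * (s * t') := ⟨s' * t, ev_injective G hVm (by
    rw [map_mul, map_mul, map_mul, map_mul, ← hzab, ← hst, ← hst']; ring)⟩
  obtain ⟨w, hw⟩ := hcolon _ hdvd
  have htx : x ∈ S.A.basicOpen (t * t' * hprod) := by
    rw [Scheme.basicOpen_mul, Scheme.basicOpen_mul]
    exact ⟨⟨ht, ht'⟩, hx⟩
  have hne : t * t' * hprod ≠ 0 := fun e => by
    rw [e, Scheme.basicOpen_zero] at htx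
    exact htx
  have hw' := congrArg (S.ev G.eta hVm) hw
  rw [map_mul, map_mul, map_mul, ← hst] at hw'
  have e : v / S.ev G.eta hVm b₀ =
      S.ev G.eta hVm w * (S.ev G.eta hVm (t * t' * hprod))⁻¹ := by
    rw [← div_eq_mul_inv, div_eq_div_iff ((map_ne_zero_iff _ (ev_injective G hVm)).2 hb0)
      ((map_ne_zero_iff _ (ev_injective G hVm)).2 hne), map_mul, map_mul]
    linear_combination hw'
  rw [e]
  exact (inStalk_ev hVm hxV' w).mul (inStalk_inv hVm _ htx)

/-- A value near every point of an open is the value of a section. -/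
theorem exists_section {U : S.A.Opens} (hU : S.Mem G.eta U) {v : G.KA}
    (h : ∀ x ∈ U, InStalk G x v) : ∃ s : Γ(S.A, U), S.ev G.eta hU s = v := by
  choose W hW t ht using h
  let V : U → S.A.Opens := fun x => W x.1 x.2 ⊓ U
  let sf : ∀ x : U, Γ(S.A, V x) := fun x => S.res inf_le_left (t x.1 x.2)
  have hev : ∀ x : U, ∀ hm : S.Mem G.eta (V x), S.ev G.eta hm (sf x) = v := fun x hm =>
    (ev_res G.eta inf_le_left (eta_mem G (hW x.1 x.2)) hm _).trans (ht x.1 x.2)
  obtain ⟨s, hs, -⟩ := S.A.sheaf.existsUnique_gluing' V U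
    (fun x => homOfLE inf_le_right)
    (fun y hy => Opens.mem_iSup.2 ⟨⟨y, hy⟩, hW y hy, hy⟩) sf fun x y => by
      have hne : (↑(V x ⊓ V y) : Set S.A).Nonempty :=
        ⟨G.eta.1 (pt G),
          pt_mem G (eta_mem G (show x.1 ∈ V x from ⟨hW x.1 x.2, x.2⟩)),
          pt_mem G (eta_mem G (show y.1 ∈ V y from ⟨hW y.1 y.2, y.2⟩))⟩
      apply ev_injective G ((eta_mem_iff G).2 hne)
      show S.ev G.eta _ (S.res inf_le_left (sf x)) = S.ev G.eta _ (S.res inf_le_right (sf y))
      rw [ev_res _ _ (eta_mem G (show x.1 ∈ V x from ⟨hW x.1 x.2, x.2⟩)),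
        ev_res _ _ (eta_mem G (show y.1 ∈ V y from ⟨hW y.1 y.2, y.2⟩)), hev, hev]
  obtain ⟨x, hx⟩ := (eta_mem_iff G).1 hU
  refine ⟨s, ?_⟩
  have hxV : x ∈ V ⟨x, hx⟩ := ⟨hW x hx, hx⟩
  rw [← hev ⟨x, hx⟩ (eta_mem G hxV), ← hs ⟨x, hx⟩]
  exact (ev_res G.eta inf_le_right hU (eta_mem G hxV) s).symm

end DivExists

open DivExists

namespace DivExists

/-- Local equations near a closed point. -/
theorem exists_local_eq [IsAlgClosed K] (G : GenericData S) (y : Finset G.KA) (x₀ : S.A)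
    (hx₀ : IsClosed {x₀}) : ∃ (U : S.A.Opens), IsAffineOpen U ∧ x₀ ∈ U ∧
      ∃ (hm : S.Mem G.eta U) (e : Γ(S.A, U)), e ≠ 0 ∧ ∃ b : G.KA → G.KA,
        S.ev G.eta hm e = ∏ z ∈ y, b z ∧ ∀ x ∈ U, ∀ z ∈ y, Reduced G z (b z) x := by
  classical
  haveI := genIntegral G
  choose U hU hxU hm b hb0 hb using fun z : G.KA => exists_reduced (G := G) x₀ hx₀ z
  have hx : x₀ ∈ y.inf U := by
    rw [← SetLike.mem_coe, Opens.coe_finset_inf, Finset.inf_eq_iInf]
    simp [hxU]
  obtain ⟨W, hW, hxW, hle⟩ := exists_isAffineOpen_mem_and_subset hx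
  have hWU : ∀ z ∈ y, W ≤ U z := fun z hz w hw => (Finset.inf_le hz : y.inf U ≤ U z) (hle hw)
  refine ⟨W, hW, hxW, eta_mem G hxW, ∏ z ∈ y.attach, S.res (hWU z.1 z.2) (b z.1), ?_,
    fun z => S.ev G.eta (hm z) (b z), ?_, fun x hx z hz => hb z x (hWU z hz hx)⟩
  · intro e
    have := congrArg (S.ev G.eta (eta_mem G hxW)) e
    rw [map_zero, map_prod, Finset.prod_eq_zero_iff] at this
    obtain ⟨z, -, hz⟩ := this
    rw [ev_res G.eta _ (hm z.1)] at hz
    exact hb0 z.1 (ev_injective G (hm z.1) (hz.trans (map_zero _).symm))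
  · rw [map_prod, ← Finset.prod_attach y fun z => S.ev G.eta (hm z) (b z)]
    exact Finset.prod_congr rfl fun z _ => ev_res G.eta _ (hm z.1) _ _

end DivExists

set_option maxHeartbeats 800000 in
/-- **An effective divisor dominating the poles of generators.** -/
theorem exists_divData [IsAlgClosed K] (G : GenericData S) :
    ∃ D : DivData S G, ∃ y : Finset G.KA,
      IntermediateField.adjoin K (y : Set G.KA) = ⊤ ∧ ∀ z ∈ y, ∃ b : ℕ,
        ∀ i : Fin D.n, ∃ r : Γ(S.A, D.U i),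
          z * S.ev G.eta (D.eta_mem i) (D.e i) ^ b = S.ev G.eta (D.eta_mem i) r := by
  classical
  haveI := genIntegral G
  obtain ⟨y, hy⟩ := G.fg
  choose U hU hxU hm e he0 b heb hb using fun p : {x : S.A // IsClosed {x}} =>
    exists_local_eq G y p.1 p.2
  haveI : CompactSpace S.A := QuasiCompact.compactSpace_of_compactSpace S.f
  obtain ⟨t, ht⟩ := isCompact_univ.elim_finite_subcover (fun p => (U p : Set S.A))
    (fun p => (U p).2) (by
      intro x _
      by_contra hx
      have hcl : IsClosed (⋃ p, (U p : Set S.A))ᶜ := (isOpen_iUnion fun p => (U p).2).isClosed_compl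
      obtain ⟨q, hq, hqc⟩ := hcl.exists_closed_singleton ⟨x, hx⟩
      exact hq (Set.mem_iUnion.2 ⟨⟨q, hqc⟩, hxU _⟩))
  let P : Fin t.card → {x : S.A // IsClosed {x}} := fun i => (t.equivFin.symm i).1
  have hη : ∀ p, G.eta.1 (IsLocalRing.closedPoint G.KA) ∈ U p := fun p =>
    pt_mem G (hm p)
  have hme : ∀ p q, S.Mem G.eta (U p ⊓ U q) := fun p q =>
    eta_mem G (show _ ∈ U p ⊓ U q from ⟨hη p, hη q⟩)
  have he0' : ∀ p, S.ev G.eta (hm p) (e p) ≠ 0 := fun p =>
    (map_ne_zero_iff _ (ev_injective G (hm p))).2 (he0 p)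
  have hg : ∀ p q, ∃ g : Γ(S.A, U p ⊓ U q), S.ev G.eta (hme p q) g =
      S.ev G.eta (hm p) (e p) / S.ev G.eta (hm q) (e q) := by
    intro p q
    refine exists_section (hme p q) fun x hx => ?_
    rw [heb, heb, ← Finset.prod_div_distrib]
    exact InStalk.prod y fun z hz => (hb q x hx.2 z hz).inStalk_div (hb p x hx.1 z hz)
  choose g hg using hg
  refine ⟨
    { n := t.card
      U := fun i => U (P i)
      cover := fun x => by
        obtain ⟨p, hp, hx⟩ : ∃ p ∈ t, x ∈ U p := by simpa using ht (Set.mem_univ x)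
        exact ⟨t.equivFin ⟨p, hp⟩, by simpa [P] using hx⟩
      eta_mem := fun i => hm _
      e := fun i => e _
      g := fun i j => g _ _
      g_mul := fun i j => ev_injective G (hme _ _) (by
        rw [map_mul, ev_res _ _ (hm _), ev_res _ _ (hm _), hg, div_mul_cancel₀ _ (he0' _)])
      g_cocycle := fun i j k W hij hjk hik => by
        rcases Set.eq_empty_or_nonempty (W : Set S.A) with h | h
        · obtain rfl : W = ⊥ := Opens.ext h
          haveI : Subsingleton Γ(S.A, ⊥) := CommRingCat.subsingleton_of_isTerminal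
            S.A.sheaf.isTerminalOfEmpty
          exact Subsingleton.elim _ _
        apply ev_injective G ((eta_mem_iff G).2 h)
        rw [map_mul, ev_res _ _ (hme _ _), ev_res _ _ (hme _ _), ev_res _ _ (hme _ _), hg, hg, hg,
          div_mul_div_cancel₀ (he0' _)]
      g_self := fun i => ev_injective G (hme _ _) (by rw [hg, map_one, div_self (he0' _)])
      e_ne := fun i => he0' _ }, y, hy, fun z hz => ⟨1, fun i => ?_⟩⟩
  obtain ⟨r, hr⟩ := exists_section (hm (P i))
    (v := z * S.ev G.eta (hm (P i)) (e (P i)) ^ 1) fun x hx => by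
      rw [pow_one, heb, ← Finset.mul_prod_erase y (b (P i)) hz, ← mul_assoc]
      exact ((hb _ x hx z hz).2.1).mul (InStalk.prod _ fun w hw =>
        (hb _ x hx w (Finset.mem_of_mem_erase hw)).1)
  exact ⟨r, hr.symm⟩

end Fermat.Agent.AV

end
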