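import Fermat.Agent.AV.Isogeny

/-!
# The function field of an abelian variety

It has transcendence degree the dimension, is the fraction field of an algebra of finite type,
and multiplication by `n` gives an endomorphism of it.
-/

set_option autoImplicit false

noncomputable section

universe u

open CategoryTheory CategoryTheory.Limits AlgebraicGeometry NeronModelInfra GoodReductionJacobian
open scoped TensorProduct

namespace Fermat.Agent.AV

/-- The fraction field of a standard smooth algebra of relative dimension `g` has transcendence
degree `g`. -/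
theorem trdeg_of_isStandardSmooth {K R F : Type u} [Field K] [CommRing R] [Field F] [Algebra K R]
    [Algebra R F] [Algebra K F] [IsScalarTower K R F] [IsFractionRing R F] (g : ℕ)
    [Algebra.IsStandardSmoothOfRelativeDimension g K R] : Algebra.trdeg K F = g := by
  obtain ⟨h, hh⟩ :=
    Algebra.IsStandardSmoothOfRelativeDimension.exists_etale_mvPolynomial g K R
  let P := MvPolynomial (Fin g) K
  have : IsDomain R := (IsFractionRing.injective R F).isDomain _
  let : Algebra P R := h.toRingHom.toAlgebra
  have : Algebra.Etale P R := hh
  let : Algebra P F := ((algebraMap R F).comp (algebraMap P R)).toAlgebra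
  have : IsScalarTower P R F := IsScalarTower.of_algebraMap_eq' rfl
  have : IsScalarTower K P R := IsScalarTower.of_algebraMap_eq fun k => (h.commutes k).symm
  have : IsScalarTower K P F := IsScalarTower.of_algebraMap_eq fun k => by
    show _ = algebraMap R F (algebraMap P R (algebraMap K P k))
    rw [← IsScalarTower.algebraMap_apply K P R, ← IsScalarTower.algebraMap_apply K R F]
  let FP := FractionRing P
  have : FaithfulSMul P F := (faithfulSMul_iff_algebraMap_injective P F).mpr
    ((IsFractionRing.injective R F).comp (FaithfulSMul.algebraMap_injective P R))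
  let : Algebra FP F := FractionRing.liftAlgebra P F
  have : Algebra.QuasiFinite R F := .of_isLocalization (nonZeroDivisors R)
  have : Algebra.QuasiFinite P F := .trans P R F
  have : Algebra.QuasiFinite FP F := .of_restrictScalars P _ _
  have : Module.Finite FP F := .of_quasiFinite
  have : Algebra.IsAlgebraic FP F := Algebra.IsAlgebraic.of_finite FP F
  have : Algebra.IsAlgebraic P FP := IsLocalization.isAlgebraic FP (nonZeroDivisors P)
  have : Algebra.IsAlgebraic P F := Algebra.IsAlgebraic.trans P FP F
  have : FaithfulSMul K P := inferInstance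
  rw [← trdeg_add_eq K P (A := F), trdeg_eq_zero (R := P) (A := F), add_zero,
    MvPolynomial.trdeg_of_isDomain]
  simp

variable {K : Type u} [Field K] {A : Scheme.{u}}

/-- The function field, with the base field acting through the structure map. -/
def FuncField (_f : A ⟶ Spec (CommRingCat.of K)) [IsIntegral A] : Type u := A.functionField

variable (f : A ⟶ Spec (CommRingCat.of K)) [IsIntegral A]

instance : Field (FuncField f) := inferInstanceAs (Field A.functionField)

instance nonempty_top : Nonempty (⊤ : A.Opens) := ⟨⟨genericPoint A, trivial⟩⟩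

/-- The constants. -/
def constHom : CommRingCat.of K ⟶ A.functionField :=
  baseHom f ⊤ ≫ A.germToFunctionField ⊤

instance : Algebra K (FuncField f) := (constHom f).hom.toAlgebra

theorem baseHom_germ (V : A.Opens) [Nonempty V] :
    baseHom f V ≫ A.germToFunctionField V = constHom f := by
  rw [constHom, baseHom, baseHom, Category.assoc, Category.assoc]
  congr 1
  rw [← f.appLE_map (le_top : (⊤ : A.Opens) ≤ f ⁻¹ᵁ ⊤) (homOfLE (le_top : V ≤ ⊤)).op,
    Category.assoc, TopCat.Presheaf.germ_res]

/-- A smooth affine chart as a subalgebra of the function field. -/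
theorem exists_model (g : ℕ) [SmoothOfRelativeDimension g f] :
    Algebra.trdeg K (FuncField f) = g ∧
      ∃ R : Subalgebra K (FuncField f), R.FG ∧ ∀ x, ∃ a ∈ R, ∃ b ∈ R, b ≠ 0 ∧ x = a / b := by
  obtain ⟨V, hV, hxV, -, hVs⟩ := exists_chart f g (x := genericPoint A) (W := ⊤) trivial
  have : Nonempty V := ⟨⟨_, hxV⟩⟩
  let : Algebra K Γ(A, V) := (baseHom f V).hom.toAlgebra
  let : Algebra Γ(A, V) (FuncField f) := (A.germToFunctionField V).hom.toAlgebra
  have : IsScalarTower K Γ(A, V) (FuncField f) :=
    IsScalarTower.of_algebraMap_eq' (congrArg CommRingCat.Hom.hom (baseHom_germ f V)).symm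
  have : IsFractionRing Γ(A, V) (FuncField f) :=
    functionField_isFractionRing_of_isAffineOpen A V hV
  have : Algebra.IsStandardSmoothOfRelativeDimension g K Γ(A, V) := hVs
  have : Algebra.IsStandardSmooth K Γ(A, V) :=
    Algebra.IsStandardSmoothOfRelativeDimension.isStandardSmooth g
  refine ⟨trdeg_of_isStandardSmooth (R := Γ(A, V)) g,
    (IsScalarTower.toAlgHom K Γ(A, V) (FuncField f)).range, ?_, fun x => ?_⟩
  · rw [← Algebra.map_top]
    exact Subalgebra.FG.map _ Algebra.FiniteType.out
  · obtain ⟨a, b, hb, rfl⟩ := IsFractionRing.div_surjective (A := Γ(A, V)) x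
    exact ⟨_, ⟨a, rfl⟩, _, ⟨b, rfl⟩, IsFractionRing.to_map_ne_zero_of_mem_nonZeroDivisors hb, rfl⟩

end Fermat.Agent.AV

end
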