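import Fermat.Agent.AV.Places

/-!
# Field valued points of an irreducible scheme and their specialisations
-/

set_option autoImplicit false

noncomputable section

universe u

open CategoryTheory CategoryTheory.Limits AlgebraicGeometry

namespace Fermat.Agent.AV

variable {X : Scheme.{u}} [IrreducibleSpace X]

/-- A surjective map of irreducible spaces preserves the generic point. -/
theorem map_genericPoint_of_surjective {Y : Scheme.{u}} [IrreducibleSpace Y] (h : X ⟶ Y)
    [Surjective h] : h (genericPoint X) = genericPoint Y := by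
  apply ((genericPoint_spec Y).eq _).symm
  convert! (genericPoint_spec X).image h.continuous
  rw [Set.image_univ, h.surjective.range_eq, closure_univ]

/-- A point with values in a field lying over the generic point. -/
def genPt {N : Type u} [Field N] (ι : X.functionField →+* N) : Spec (CommRingCat.of N) ⟶ X :=
  Spec.map (CommRingCat.ofHom ι) ≫ X.fromSpecStalk (genericPoint X)

theorem genPt_apply [IsIntegral X] {N : Type u} [Field N] (ι : X.functionField →+* N)
    (p : Spec (CommRingCat.of N)) : genPt ι p = genericPoint X := by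
  let : Field (X.presheaf.stalk (genericPoint X)) := inferInstanceAs (Field X.functionField)
  rw [genPt, Scheme.Hom.comp_apply]
  have : Subsingleton (Spec (X.presheaf.stalk (genericPoint X))) :=
    inferInstanceAs (Subsingleton (PrimeSpectrum X.functionField))
  rw [Subsingleton.elim (Spec.map (CommRingCat.ofHom ι) p)
    (IsLocalRing.closedPoint (X.presheaf.stalk (genericPoint X)))]
  exact Scheme.fromSpecStalk_closedPoint

theorem genPt_injective {N : Type u} [Field N] :
    Function.Injective (genPt (X := X) (N := N)) := fun a b h => by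
  have := (cancel_mono (X.fromSpecStalk (genericPoint X))).mp h
  exact congrArg CommRingCat.Hom.hom (Spec.map_injective this)

/-- Field valued points over the generic point come from the function field. -/
theorem exists_eq_genPt {N : Type u} [Field N] (a : Spec (CommRingCat.of N) ⟶ X)
    (ha : a (IsLocalRing.closedPoint N) = genericPoint X) : ∃ ι, genPt ι = a := by
  refine ⟨(X.presheaf.stalkSpecializes (specializes_of_eq ha) ≫
    Scheme.stalkClosedPointTo a).hom, ?_⟩
  show Spec.map (_ ≫ _) ≫ _ = _
  rw [Spec.map_comp, Category.assoc, Scheme.SpecMap_stalkSpecializes_fromSpecStalk,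
    Scheme.Spec_stalkClosedPointTo_fromSpecStalk]

/-- Every field valued point is, after an extension, a specialisation of any generic point. -/
theorem exists_specialisation {N M : Type u} [Field N] [Field M] (ι : X.functionField →+* N)
    (b : Spec (CommRingCat.of M) ⟶ X) :
    ∃ (V : ValuationSubring N) (M' : Type u) (_ : Field M') (i : M →+* M') (h : V →+* M')
      (c : Spec (CommRingCat.of V) ⟶ X), IsLocalHom h ∧
      Spec.map (CommRingCat.ofHom V.subtype) ≫ c = genPt ι ∧
      Spec.map (CommRingCat.ofHom h) ≫ c = Spec.map (CommRingCat.ofHom i) ≫ b := by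
  let x := b (IsLocalRing.closedPoint M)
  let sp : X.presheaf.stalk x ⟶ X.functionField :=
    X.presheaf.stalkSpecializes ((genericPoint_spec X).specializes trivial)
  obtain ⟨V, hV, M', _, i, h, hloc, heq⟩ :=
    exists_place (ι.comp sp.hom) (Scheme.stalkClosedPointTo b).hom
  refine ⟨V, M', inferInstance, i, h,
    Spec.map (CommRingCat.ofHom ((ι.comp sp.hom).codRestrict V.toSubring hV)) ≫
      X.fromSpecStalk x, hloc, ?_, ?_⟩
  · rw [← Category.assoc, ← Spec.map_comp, genPt,
      ← Scheme.SpecMap_stalkSpecializes_fromSpecStalk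
        ((genericPoint_spec X).specializes trivial : genericPoint X ⤳ x), ← Category.assoc,
      ← Spec.map_comp]
    rfl
  · rw [← Category.assoc, ← Spec.map_comp]
    conv_rhs => rw [← Scheme.Spec_stalkClosedPointTo_fromSpecStalk b, ← Category.assoc,
      ← Spec.map_comp]
    congr 2
    exact CommRingCat.hom_ext (RingHom.ext heq)

omit [IrreducibleSpace X] in
/-- The rings of constants of a specialisation. -/
theorem exists_base {R₀ : Type u} [CommRing R₀] (g : X ⟶ Spec (CommRingCat.of R₀)) {N M M' : Type u}
    [Field N] [Field M] [Field M'] {V : ValuationSubring N} {i : M →+* M'} {h : V →+* M'}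
    {a : Spec (CommRingCat.of N) ⟶ X} {b : Spec (CommRingCat.of M) ⟶ X}
    {c : Spec (CommRingCat.of V) ⟶ X} (ha : Spec.map (CommRingCat.ofHom V.subtype) ≫ c = a)
    (hb : Spec.map (CommRingCat.ofHom h) ≫ c = Spec.map (CommRingCat.ofHom i) ≫ b)
    {α : R₀ →+* N} (hα : a ≫ g = Spec.map (CommRingCat.ofHom α))
    {β : R₀ →+* M} (hβ : b ≫ g = Spec.map (CommRingCat.ofHom β)) :
    ∃ γ : R₀ →+* V, (∀ r, (γ r : N) = α r) ∧ (∀ r, h (γ r) = i (β r)) ∧
      c ≫ g = Spec.map (CommRingCat.ofHom γ) := by
  refine ⟨(Spec.preimage (c ≫ g)).hom, ?_, ?_, ?_⟩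
  · intro r
    have : Spec.preimage (c ≫ g) ≫ CommRingCat.ofHom V.subtype = CommRingCat.ofHom α := by
      apply Spec.map_injective
      rw [Spec.map_comp, Spec.map_preimage, ← Category.assoc, ha, hα]
    exact congrArg (fun φ : CommRingCat.of R₀ ⟶ CommRingCat.of N => φ.hom r) this
  · intro r
    have : Spec.preimage (c ≫ g) ≫ CommRingCat.ofHom h =
        CommRingCat.ofHom β ≫ CommRingCat.ofHom i := by
      apply Spec.map_injective
      rw [Spec.map_comp, Spec.map_preimage, ← Category.assoc, hb, Spec.map_comp, Category.assoc, hβ]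
    exact congrArg (fun φ : CommRingCat.of R₀ ⟶ CommRingCat.of M' => φ.hom r) this
  · exact (Spec.map_preimage _).symm

end Fermat.Agent.AV

end
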