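import Fermat.Agent.AV.Defs
import Fermat.Agent.AV.Degree
import Fermat.Agent.AV.Points

/-!
# The generic point and multiplication by `n` on it

`exists_genericData`: the function field with its generic point.  `exists_phi`: multiplication by
`n` embeds the function field with degree the number of `n`-torsion points.
`card_torsion_of_g_eq_zero`: the case of dimension zero.
-/

set_option autoImplicit false
set_option linter.unusedSectionVars false

noncomputable section

universe u

open CategoryTheory CategoryTheory.Limits AlgebraicGeometry NeronModelInfra GoodReductionJacobian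

namespace Fermat.Agent.AV

variable {K : Type u} [Field K]

/-- A valuation subring containing the constants. -/
def valOf {N : Type u} [Field N] [Algebra K N] (V : ValuationSubring N)
    (hmem : ∀ k, algebraMap K N k ∈ V) : Val K N :=
  ⟨V, hmem⟩

/-- A valuation subring with a local map to a field, as a place. -/
def placeOf {N M : Type u} [Field N] [Algebra K N] [Field M] [Algebra K M] (V : ValuationSubring N)
    (hmem : ∀ k, algebraMap K N k ∈ V) (h : V →+* M)
    (hk : ∀ k, h ⟨algebraMap K N k, hmem k⟩ = algebraMap K M k) (hloc : IsLocalHom h) :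
    Place K N M :=
  ⟨valOf V hmem, { (h : (valOf V hmem).sub →+* M) with commutes' := hk }, hloc⟩

section

variable [IsAlgClosed K] (S : Setting K) [IsIntegral S.A]

theorem maps_placeOf {N M : Type u} [Field N] [Algebra K N] [Field M] [Algebra K M]
    {V : ValuationSubring N} {hmem : ∀ k, algebraMap K N k ∈ V} {h : V →+* M}
    {hk : ∀ k, h ⟨algebraMap K N k, hmem k⟩ = algebraMap K M k} {hloc : IsLocalHom h}
    {a : S.Pt N} {b : S.Pt M} {γ : K →+* V} (c : Spec (CommRingCat.of V) ⟶ S.A)
    (hγ : c ≫ S.f = Spec.map (CommRingCat.ofHom γ)) (hγ₁ : ∀ k, (γ k : N) = algebraMap K N k)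
    (ha : Spec.map (CommRingCat.ofHom V.subtype) ≫ c = a.1)
    (hb : Spec.map (CommRingCat.ofHom h) ≫ c = b.1) : (placeOf V hmem h hk hloc).Maps S a b :=
  ⟨⟨c, hγ.trans (congrArg (fun r : K →+* V => Spec.map (CommRingCat.ofHom r))
    (RingHom.ext fun k => Subtype.ext (hγ₁ k)))⟩, Subtype.ext ha, Subtype.ext hb⟩

theorem spec_constHom :
    Spec.map (constHom S.f) = S.A.fromSpecStalk (genericPoint S.A) ≫ S.f := by
  obtain ⟨_, ⟨V, hV, rfl⟩, hxV, -⟩ :=
    S.A.isBasis_affineOpens.exists_subset_of_mem_open (Set.mem_univ (genericPoint S.A)) isOpen_univ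
  have : Nonempty V := ⟨⟨_, hxV⟩⟩
  rw [← hV.fromSpecStalk_eq_fromSpecStalk hxV]
  delta IsAffineOpen.fromSpecStalk
  rw [Category.assoc, fromSpec_comp S.f hV, ← Spec.map_comp, ← baseHom_germ S.f V]

theorem genPt_id : genPt (X := S.A) (N := FuncField S.f) (RingHom.id _) =
    S.A.fromSpecStalk (genericPoint S.A) := by
  show Spec.map (𝟙 S.A.functionField) ≫ S.A.fromSpecStalk (genericPoint S.A) = _
  rw [Spec.map_id]
  exact Category.id_comp _

theorem genPt_constHom :
    genPt (X := S.A) (N := FuncField S.f) (RingHom.id _) ≫ S.f = str K (FuncField S.f) :=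
  (congrArg (· ≫ S.f) (genPt_id S)).trans (spec_constHom S).symm

/-- The generic point over the function field. -/
def etaFF : S.Pt (FuncField S.f) := ⟨genPt (RingHom.id _), genPt_constHom S⟩

theorem etaFF_generic :
    (etaFF S).1 (IsLocalRing.closedPoint (FuncField S.f)) = genericPoint S.A :=
  genPt_apply _ _

variable {M : Type u} [Field M] [Algebra K M]

theorem map_etaFF_val (j : FuncField S.f →ₐ[K] M) :
    (S.map j (etaFF S)).1 = genPt (X := S.A) j.toRingHom :=
  congrArg (Spec.map (CommRingCat.ofHom j.toRingHom) ≫ ·) (genPt_id S)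

theorem etaFF_ext {j₁ j₂ : FuncField S.f →ₐ[K] M} (h : S.map j₁ (etaFF S) = S.map j₂ (etaFF S)) :
    j₁ = j₂ := by
  have h' := congrArg Subtype.val h
  rw [map_etaFF_val, map_etaFF_val] at h'
  exact AlgHom.ext fun x => RingHom.congr_fun (genPt_injective h') x

theorem etaFF_desc (a : S.Pt M)
    (ha : closure {a.1 (IsLocalRing.closedPoint M)} = (⊤ : Set S.A)) :
    ∃ j : FuncField S.f →ₐ[K] M, S.map j (etaFF S) = a := by
  have hgen : a.1 (IsLocalRing.closedPoint M) = genericPoint S.A :=
    IsGenericPoint.eq (show IsGenericPoint _ (⊤ : Set S.A) from ha) (genericPoint_spec S.A)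
  obtain ⟨ι, hι⟩ := exists_eq_genPt a.1 hgen
  let ι' : FuncField S.f →+* M := ι
  have hk : CommRingCat.ofHom (algebraMap K (FuncField S.f)) ≫ CommRingCat.ofHom ι' =
      CommRingCat.ofHom (algebraMap K M) := by
    apply Spec.map_injective
    rw [Spec.map_comp]
    refine Eq.trans ?_ a.2
    refine (congrArg (Spec.map (CommRingCat.ofHom ι') ≫ ·) (spec_constHom S)).trans ?_
    rw [← hι]
    exact (Category.assoc _ _ _).symm
  let j : FuncField S.f →ₐ[K] M :=
    { ι' with commutes' := fun k => congrArg (fun φ : CommRingCat.of K ⟶ CommRingCat.of M =>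
        φ.hom k) hk }
  exact ⟨j, Subtype.ext ((map_etaFF_val S j).trans hι)⟩

theorem etaFF_spec (b : S.Pt M) :
    ∃ (M' : Type u) (_ : Field M') (_ : Algebra K M') (i : M →ₐ[K] M')
      (P : Place K (FuncField S.f) M'), P.Maps S (etaFF S) (S.map i b) := by
  obtain ⟨V, M', _, i, h, c, hloc, hc₁, hc₂⟩ :=
    exists_specialisation (X := S.A) (N := FuncField S.f) (RingHom.id _) b.1
  obtain ⟨γ, hγ₁, hγ₂, hγ₃⟩ := exists_base S.f hc₁ hc₂ (genPt_constHom S) b.2
  let : Algebra K M' := (i.comp (algebraMap K M)).toAlgebra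
  have hmem : ∀ k, algebraMap K (FuncField S.f) k ∈ V := fun k => hγ₁ k ▸ (γ k).2
  exact ⟨M', inferInstance, inferInstance, { i with commutes' := fun _ => rfl },
    placeOf V hmem h (fun k => (congrArg h (Subtype.ext (hγ₁ k).symm)).trans (hγ₂ k)) hloc,
    maps_placeOf S c hγ₃ hγ₁ hc₁ hc₂⟩

end

variable [IsAlgClosed K] (S : Setting K)

theorem isIntegral_setting : IsIntegral S.A := isIntegral_of_bundle S.law S.bundle

/-- The function field with its generic point. -/
theorem exists_genericData (_hg : 0 < S.g) : Nonempty (GenericData S) := by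
  have := isIntegral_setting S
  obtain ⟨htr, R, hR, hfrac⟩ := exists_model S.f S.g
  refine ⟨{
    KA := FuncField S.f
    eta := etaFF S
    isGeneric := ⟨inferInstance, by
      show closure {_} = _
      rw [etaFF_generic]
      exact genericPoint_spec S.A⟩
    desc := fun M _ _ a ha => etaFF_desc S a ha
    trdeg := ?_
    fg := ?_
    spec := fun M _ _ b => etaFF_spec S b }⟩
  · obtain ⟨s, hs⟩ := exists_isTranscendenceBasis K (FuncField S.f)
    have hcard := hs.cardinalMk_eq_trdeg.trans htr
    have : Finite s := Cardinal.lt_aleph0_iff_finite.mp (hcard ▸ Cardinal.natCast_lt_aleph0)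
    let e : Fin S.g ≃ s := (Finite.equivFinOfCardEq (by rw [Nat.card, hcard]; simp)).symm
    exact ⟨fun i => (e i : FuncField S.f), (hs.comp_equiv e).1,
      (hs.comp_equiv e).isAlgebraic_field⟩
  · obtain ⟨t, ht⟩ := hR
    refine ⟨t, top_le_iff.mp fun x _ => ?_⟩
    obtain ⟨a, ha, b, hb, -, rfl⟩ := hfrac x
    rw [← ht] at ha hb
    exact div_mem (IntermediateField.algebra_adjoin_le_adjoin _ _ ha)
      (IntermediateField.algebra_adjoin_le_adjoin _ _ hb)

theorem nsmul_val {R : Type u} [CommRing R] [Algebra K R] (n : ℕ) (a : S.Pt R) :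
    (n • a).1 = a.1 ≫ S.law.schemeNsmul n :=
  nsmul_comp S.law _ n a

theorem str_self : str K K = 𝟙 (Spec (CommRingCat.of K)) := by
  show Spec.map (𝟙 (CommRingCat.of K)) = _
  rw [Spec.map_id]

/-- Rational points. -/
def ptEquiv : S.Pt K ≃ Pt S.f :=
  Equiv.subtypeEquivRight fun φ => by rw [str_self]

theorem card_nsmul_eq_zero (n : ℕ) :
    Nat.card {x : S.Pt K // n • x = 0} =
      Nat.card {a : Pt S.f // S.law.IsTorsionPoint (𝟙 _) n a} := by
  refine Nat.card_congr ((ptEquiv S).subtypeEquiv fun x => ?_)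
  have key : ∀ (t : Spec (CommRingCat.of K) ⟶ Spec (CommRingCat.of K))
      (hx : x.1 ≫ S.f = t), S.law.IsTorsionPoint t n ⟨x.1, hx⟩ ↔
        S.law.IsTorsionPoint (str K K) n x := by
    intro t hx
    obtain rfl : str K K = t := x.2.symm.trans hx
    exact Iff.rfl
  exact (key _ (x.2.trans str_self)).symm

/-- Multiplication by `n` on the function field and the number of torsion points. -/
theorem exists_phi (G : GenericData S) {n : ℕ} (hn : (n : K) ≠ 0) :
    ∃ φ : G.KA →ₐ[K] G.KA, S.map φ G.eta = n • G.eta ∧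
      Module.Finite φ.fieldRange G.KA ∧ Algebra.IsSeparable φ.fieldRange G.KA ∧
        Nat.card {x : S.Pt K // n • x = 0} = Module.finrank φ.fieldRange G.KA := by
  have := isIntegral_setting S
  have hgen : ∀ {M : Type u} [Field M] [Algebra K M] (a : S.Pt M),
      a.1 (IsLocalRing.closedPoint M) = genericPoint S.A →
      closure {a.1 (IsLocalRing.closedPoint M)} = (⊤ : Set S.A) := fun a h => by
    rw [h]; exact genericPoint_spec S.A
  obtain ⟨j, hj⟩ := etaFF_desc S G.eta G.isGeneric.2
  obtain ⟨k, hk⟩ := G.desc _ (etaFF S) (hgen _ (etaFF_generic S))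
  have hkj : k.comp j = AlgHom.id K _ := by
    refine etaFF_ext S ?_
    rw [← Setting.map_map, hj, hk, Setting.map_id]
  have hkbij : Function.Bijective k :=
    ⟨k.injective, fun x => ⟨j x, AlgHom.congr_fun hkj x⟩⟩
  let e : G.KA ≃ₐ[K] FuncField S.f := AlgEquiv.ofBijective k hkbij
  have hje : ∀ x, e.symm x = j x := fun x => by
    rw [AlgEquiv.symm_apply_eq]; exact (AlgHom.congr_fun hkj x).symm
  have := surjective_schemeNsmul S.law S.g S.comm S.bundle hn
  let Φ := phi S.law S.g S.comm S.bundle hn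
  have hΦ : S.map Φ (etaFF S) = n • etaFF S := by
    refine Subtype.ext ?_
    rw [map_etaFF_val, nsmul_val]
    show Spec.map (ffPullback (S.law.schemeNsmul n)) ≫ S.A.fromSpecStalk _ =
      (Spec.map (𝟙 _) ≫ _) ≫ _
    rw [Spec.map_id, Category.id_comp, ffPullback, Spec.map_comp, Category.assoc,
      Scheme.SpecMap_stalkSpecializes_fromSpecStalk, Scheme.SpecMap_stalkMap_fromSpecStalk]
  refine ⟨(j.comp Φ).comp k, ?_, ?_⟩
  · rw [← Setting.map_map, hk, ← Setting.map_map, hΦ, map_nsmul, hj]
  · let ψ := (j.comp Φ).comp k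
    let e₁ : Φ.fieldRange ≃+* ψ.fieldRange :=
      ((AlgEquiv.ofInjectiveField Φ).symm.trans
        (e.symm.trans (AlgEquiv.ofInjectiveField ψ))).toRingEquiv
    have he : RingHom.comp (algebraMap ψ.fieldRange G.KA) (e₁ : Φ.fieldRange →+* ψ.fieldRange) =
        RingHom.comp ↑(e.symm.toRingEquiv) (algebraMap Φ.fieldRange (FuncField S.f)) := by
      refine RingHom.ext fun x => ?_
      obtain ⟨y, rfl⟩ := (AlgEquiv.ofInjectiveField Φ).surjective x
      show j (Φ (k (e.symm ((AlgEquiv.ofInjectiveField Φ).symm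
        (AlgEquiv.ofInjectiveField Φ y))))) = e.symm (Φ y)
      rw [AlgEquiv.symm_apply_apply, hje (Φ y), show k (e.symm y) = y from e.apply_symm_apply y]
    have := finite_phi S.law S.g S.comm S.bundle hn
    have := isSeparable_phi S.law S.g S.comm S.bundle hn
    refine ⟨Module.Finite.of_equiv_equiv e₁ e.symm.toRingEquiv he,
      Algebra.IsSeparable.of_equiv_equiv e₁ e.symm.toRingEquiv he, ?_⟩
    rw [card_nsmul_eq_zero, ← finrank_phi S.law S.g S.comm S.bundle hn]
    exact Algebra.finrank_eq_of_equiv_equiv e₁ e.symm.toRingEquiv he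

/-- A variety of dimension zero is a point. -/
theorem card_torsion_of_g_eq_zero (hg : S.g = 0) (n : ℕ) :
    Nat.card {x : S.Pt K // n • x = 0} = 1 := by
  have := isIntegral_setting S
  have : SmoothOfRelativeDimension 0 S.f := hg ▸ S.smooth
  obtain ⟨V, hV, hxV, -, hVs⟩ := exists_chart S.f 0 (x := genericPoint S.A) (W := ⊤) trivial
  have : Nonempty V := ⟨⟨_, hxV⟩⟩
  let : Algebra K Γ(S.A, V) := (baseHom S.f V).hom.toAlgebra
  have : Algebra.IsStandardSmoothOfRelativeDimension 0 K Γ(S.A, V) := hVs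
  have : Algebra.Etale K Γ(S.A, V) := Algebra.Etale.iff_isStandardSmoothOfRelativeDimension_zero.mpr ‹_›
  have : Module.Finite K Γ(S.A, V) := Algebra.FormallyUnramified.finite_of_free K Γ(S.A, V)
  have : IsArtinianRing Γ(S.A, V) := IsArtinianRing.of_finite K Γ(S.A, V)
  have hsub : ∀ y ∈ V, y = genericPoint S.A := by
    intro y hy
    have : Subsingleton (PrimeSpectrum Γ(S.A, V)) := ⟨fun p q => by
      have h0 : (⊥ : Ideal Γ(S.A, V)).IsMaximal := IsArtinianRing.isMaximal_of_isPrime _
      exact PrimeSpectrum.ext ((h0.eq_of_le p.isPrime.ne_top bot_le).symm.trans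
        (h0.eq_of_le q.isPrime.ne_top bot_le))⟩
    have : Subsingleton (Spec Γ(S.A, V)) := this
    have : Subsingleton V.toScheme := hV.isoSpec.hom.homeomorph.injective.subsingleton
    exact congrArg Subtype.val (@Subsingleton.elim V.toScheme this ⟨y, hy⟩ ⟨_, hxV⟩)
  have := LocallyOfFiniteType.jacobsonSpace S.f
  obtain ⟨y, hy, hyc⟩ := nonempty_inter_closedPoints (Z := (V : Set S.A)) ⟨_, hxV⟩
    V.isOpen.isLocallyClosed
  rw [hsub y hy] at hyc
  have hA : Subsingleton S.A := ⟨fun a b => by
    have : ∀ z : S.A, z = genericPoint S.A := fun z => by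
      have := (genericPoint_spec S.A).symm ▸ (Set.mem_univ z)
      rwa [(mem_closedPoints_iff.mp hyc).closure_eq, Set.mem_singleton_iff] at this
    rw [this a, this b]⟩
  rw [Nat.card_eq_one_iff_unique]
  refine ⟨⟨fun a b => Subtype.ext (Subtype.ext ?_)⟩, ⟨⟨0, nsmul_zero n⟩⟩⟩
  exact ext_of_apply_closedPoint_eq S.f (a.1.2.trans str_self) (b.1.2.trans str_self)
    (Subsingleton.elim _ _)

end Fermat.Agent.AV

end
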