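import Mathlib

/-!
# Comparison of two polynomial growths

If a function of growth `m ^ g` is multiplied by `d ^ k` when its argument is multiplied by
`N ^ k`, up to bounded shifts and constant factors, then `d = N ^ g`.
-/

set_option autoImplicit false

namespace Fermat.Agent.AV.Growth

/-- A geometric sequence outgrows any multiple of a smaller one. -/
theorem exists_mul_pow_lt {a b : ℕ} (h : a < b) (C : ℕ) : ∃ k, C * a ^ k < b ^ k := by
  rcases Nat.eq_zero_or_pos a with rfl | ha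
  · exact ⟨1, by simpa using h⟩
  have ha' : (0 : ℝ) < a := by exact_mod_cast ha
  obtain ⟨k, hk⟩ := pow_unbounded_of_one_lt (C : ℝ)
    ((one_lt_div ha').mpr (by exact_mod_cast h : (a : ℝ) < b))
  rw [div_pow, lt_div_iff₀ (by positivity)] at hk
  exact ⟨k, by exact_mod_cast hk⟩

theorem eq_of_forall_pow_le {a b C : ℕ} (h₁ : ∀ k, a ^ k ≤ C * b ^ k)
    (h₂ : ∀ k, b ^ k ≤ C * a ^ k) : a = b := by
  rcases lt_trichotomy a b with h | h | h
  · obtain ⟨k, hk⟩ := exists_mul_pow_lt h C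
    exact absurd (h₂ k) (not_le.mpr hk)
  · exact h
  · obtain ⟨k, hk⟩ := exists_mul_pow_lt h C
    exact absurd (h₁ k) (not_le.mpr hk)

/-- **The degree from the growth.** -/
theorem eq_pow_of_growth {d N g s : ℕ} (hN : 0 < N) {L : ℕ → ℕ}
    (hb : ∃ C m₀, ∀ m, m₀ ≤ m → m ^ g ≤ C * L m ∧ L m ≤ C * m ^ g) (hs : 0 < s)
    (hle : ∀ k, ∃ a m₀, ∀ m, m₀ ≤ m → d ^ k * L m ≤ L (s * N ^ k * m + a))
    (hge : ∀ k, ∃ a m₀, ∀ m, m₀ ≤ m → L (N ^ k * m) ≤ d ^ k * L (s * m + a)) :
    d = N ^ g := by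
  obtain ⟨C, m₀, hC⟩ := hb
  refine eq_of_forall_pow_le (C := C * C * (s + 1) ^ g) (fun k => ?_) (fun k => ?_)
  · obtain ⟨a, m₁, h⟩ := hle k
    set m := m₀ + m₁ + a + 1 with hm
    have hNk : 0 < N ^ k := pow_pos hN k
    have hpos : 0 < m ^ g := pow_pos (by omega) g
    have hM : m ≤ s * N ^ k * m + a := le_trans (Nat.le_mul_of_pos_left m (Nat.mul_pos hs hNk))
      (Nat.le_add_right _ _)
    have hM' : s * N ^ k * m + a ≤ (s + 1) * N ^ k * m := by
      have : a ≤ N ^ k * m := le_trans (by omega) (Nat.le_mul_of_pos_left m hNk)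
      calc s * N ^ k * m + a ≤ s * N ^ k * m + N ^ k * m := Nat.add_le_add_left this _
        _ = _ := by ring
    refine Nat.le_of_mul_le_mul_right ?_ hpos
    calc d ^ k * m ^ g ≤ d ^ k * (C * L m) := Nat.mul_le_mul_left _ (hC m (by omega)).1
      _ = C * (d ^ k * L m) := by ring
      _ ≤ C * L (s * N ^ k * m + a) := Nat.mul_le_mul_left _ (h m (by omega))
      _ ≤ C * (C * (s * N ^ k * m + a) ^ g) :=
          Nat.mul_le_mul_left _ (hC _ (le_trans (by omega) hM)).2
      _ ≤ C * (C * ((s + 1) * N ^ k * m) ^ g) :=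
          Nat.mul_le_mul_left _ (Nat.mul_le_mul_left _ (Nat.pow_le_pow_left hM' g))
      _ = _ := by rw [mul_pow, mul_pow, ← pow_mul, ← pow_mul, mul_comm k g]; ring
  · obtain ⟨a, m₁, h⟩ := hge k
    set m := m₀ + m₁ + a + 1 with hm
    have hpos : 0 < m ^ g := pow_pos (by omega) g
    have hM : m ≤ N ^ k * m := Nat.le_mul_of_pos_left m (pow_pos hN k)
    have hM' : s * m + a ≤ (s + 1) * m := by rw [add_mul, one_mul]; omega
    have hm1 : m ≤ s * m + a := le_trans (Nat.le_mul_of_pos_left m hs) (Nat.le_add_right _ _)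
    refine Nat.le_of_mul_le_mul_right ?_ hpos
    calc (N ^ g) ^ k * m ^ g = (N ^ k * m) ^ g := by rw [mul_pow, ← pow_mul, ← pow_mul, mul_comm k g]
      _ ≤ C * L (N ^ k * m) := (hC _ (le_trans (by omega) hM)).1
      _ ≤ C * (d ^ k * L (s * m + a)) := Nat.mul_le_mul_left _ (h m (by omega))
      _ ≤ C * (d ^ k * (C * (s * m + a) ^ g)) :=
          Nat.mul_le_mul_left _ (Nat.mul_le_mul_left _ (hC _ (le_trans (by omega) hm1)).2)
      _ ≤ C * (d ^ k * (C * ((s + 1) * m) ^ g)) :=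
          Nat.mul_le_mul_left _ (Nat.mul_le_mul_left _
            (Nat.mul_le_mul_left _ (Nat.pow_le_pow_left hM' g)))
      _ = _ := by rw [mul_pow]; ring

end Fermat.Agent.AV.Growth
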