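import Fermat.Agent.AV.GrowthUpper
import Fermat.Agent.AV.GrowthArith

/-!
# Two-sided bounds for spaces of functions with bounded poles

A multiplicative filtration `L` containing generators of a finitely generated field extension `F`
of a perfect field, with poles bounded by fixed functions at every place, grows like
`m ^ trdeg F`.
-/

set_option autoImplicit false
set_option linter.style.haveILetI false

noncomputable section

namespace Fermat.Agent.AV.Growth

variable {k : Type*} [Field k] {F : Type*} [Field F] [Algebra k F]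

/-- A transcendence basis inside a finite set, indexed by `Fin g`. -/
theorem exists_fin_isTranscendenceBasis {g : ℕ} (hg : Algebra.trdeg k F = g) {t : Set F}
    (ht : IsTranscendenceBasis k ((↑) : t → F)) :
    ∃ u : Fin g → F, IsTranscendenceBasis k u ∧ Set.range u = t := by
  have hc := ht.lift_cardinalMk_eq_trdeg
  rw [hg, Cardinal.lift_id, Cardinal.lift_natCast] at hc
  obtain ⟨e⟩ := Cardinal.mk_eq_nat_iff.1 hc
  refine ⟨fun i => (e.symm i : F), ht.comp_equiv e.symm, ?_⟩
  exact (e.symm.surjective.range_comp ((↑) : t → F)).trans Subtype.range_coe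

/-- **Two-sided bounds.** -/
theorem exists_bounds [PerfectField k] {g : ℕ} (hg : Algebra.trdeg k F = g) (y : Finset F)
    (hy : IntermediateField.adjoin k (y : Set F) = ⊤)
    (L : ℕ → Submodule k F) (hone : (1 : F) ∈ L 1)
    (hmul : ∀ a b x z, x ∈ L a → z ∈ L b → x * z ∈ L (a + b))
    (hexh : ∀ z ∈ y, ∃ b, z ∈ L b)
    {ι : Type*} [Fintype ι] (e : ι → F) (he0 : ∀ a, e a ≠ 0)
    (he : ∀ W : ValuationSubring F, (∀ c : k, algebraMap k F c ∈ W) →
      ∃ a, e a ∈ W ∧ ∀ m, ∀ f ∈ L m, f * e a ^ m ∈ W) :
    ∃ C m₀, ∀ m, m₀ ≤ m → Module.Finite k (L m) ∧ m ^ g ≤ C * Module.finrank k (L m) ∧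
      Module.finrank k (L m) ≤ C * m ^ g := by
  classical
  haveI hess : Algebra.EssFiniteType k F := IntermediateField.fg_top_iff.1 ⟨y, hy⟩
  -- the upper bound, over a separating transcendence basis
  obtain ⟨C, hC⟩ : ∃ C : ℕ, ∀ m, Module.Finite k (L m) ∧
      Module.finrank k (L m) ≤ C * (m + 1) ^ g := by
    obtain ⟨s, hs, hsep⟩ := exists_isTranscendenceBasis_and_isSeparable_of_perfectField k F
    obtain ⟨u, hu, hur⟩ := exists_fin_isTranscendenceBasis hg (t := (s : Set F)) hs
    haveI : Algebra.IsSeparable (IntermediateField.adjoin k (Set.range u)) F := hur.symm ▸ hsep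
    set K₀ := IntermediateField.adjoin k (Set.range u)
    let φ : MvPolynomial (Fin g) k →ₐ[k] F := MvPolynomial.aeval u
    let ε := hu.1.aevalEquivField
    letI : Algebra (MvPolynomial (Fin g) k) F := φ.toRingHom.toAlgebra
    haveI : IsScalarTower k (MvPolynomial (Fin g) k) F :=
      IsScalarTower.of_algebraMap_eq fun c => (φ.commutes c).symm
    haveI : FaithfulSMul (MvPolynomial (Fin g) k) F := (faithfulSMul_iff_algebraMap_injective _ _).2
      (algebraicIndependent_iff_injective_aeval.1 hu.1)
    letI : Algebra (MvPolynomial (Fin g) k) K₀ := (ε.toRingEquiv.toRingHom.comp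
      (algebraMap _ (FractionRing (MvPolynomial (Fin g) k)))).toAlgebra
    haveI : IsFractionRing (MvPolynomial (Fin g) k) K₀ :=
      IsLocalization.isLocalization_of_algEquiv (nonZeroDivisors _)
        (AlgEquiv.ofRingEquiv (f := ε.toRingEquiv) fun x => rfl :
          FractionRing (MvPolynomial (Fin g) k) ≃ₐ[MvPolynomial (Fin g) k] K₀)
    haveI : IsScalarTower (MvPolynomial (Fin g) k) K₀ F :=
      IsScalarTower.of_algebraMap_eq fun x => (hu.1.aevalEquivField_algebraMap_apply_coe x).symm
    haveI : Algebra.EssFiniteType K₀ F := Algebra.EssFiniteType.of_comp k K₀ F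
    haveI : FiniteDimensional K₀ F := Algebra.finite_of_essFiniteType_of_isAlgebraic
    exact exists_finrank_le (K₀ := K₀) L e he0 he
  -- parameters for the lower bound
  obtain ⟨u, hu, huy⟩ : ∃ u : Fin g → F, AlgebraicIndependent k u ∧ ∀ i, u i ∈ y := by
    haveI : Algebra.IsAlgebraic (Algebra.adjoin k (y : Set F)) F := by
      rw [← IntermediateField.isAlgebraic_adjoin_iff_top, hy,
        Algebra.isAlgebraic_iff_isIntegral]
      exact Algebra.isIntegral_of_surjective IntermediateField.topEquiv.surjective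
    obtain ⟨t, hty, ht⟩ := exists_isTranscendenceBasis_subset (R := k) (y : Set F)
    obtain ⟨u, hu, hur⟩ := exists_fin_isTranscendenceBasis hg ht
    exact ⟨u, hu.1, fun i => hty (hur ▸ Set.mem_range_self i)⟩
  set φ : MvPolynomial (Fin g) k →ₐ[k] F := MvPolynomial.aeval u with hφdef
  have hφ : Function.Injective φ := algebraicIndependent_iff_injective_aeval.1 hu
  -- monotone
  have hmono : ∀ a a', a ≤ a' → L a ≤ L a' := fun a a' h => by
    induction h with
    | refl => exact le_rfl
    | step _ ih => exact ih.trans fun x hx => by simpa using hmul _ _ _ _ hx hone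
  choose deg hdeg using fun i : Fin g => hexh _ (huy i)
  set b₀ := Finset.univ.sup deg
  have hX : ∀ i, φ (MvPolynomial.X i) ∈ L b₀ := fun i =>
    hmono _ _ (Finset.le_sup (Finset.mem_univ i)) (by simpa [hφdef] using hdeg i)
  have hpow : ∀ i j, φ (MvPolynomial.X i) ^ j ∈ L (b₀ * j + 1) := fun i j => by
    induction j with
    | zero => simpa using hone
    | succ j ih =>
      rw [pow_succ, show b₀ * (j + 1) + 1 = b₀ * j + 1 + b₀ by ring]
      exact hmul _ _ _ _ ih (hX i)
  have hprod : ∀ (j : ℕ) (α : Fin g → ℕ), (∀ i, α i ≤ j) → ∀ S : Finset (Fin g),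
      ∏ i ∈ S, φ (MvPolynomial.X i) ^ α i ∈ L (S.card * (b₀ * j + 1) + 1) := by
    intro j α hα S
    induction S using Finset.induction_on with
    | empty => simpa using hone
    | insert i S hi ih =>
      rw [Finset.prod_insert hi, Finset.card_insert_of_notMem hi,
        show (S.card + 1) * (b₀ * j + 1) + 1 = (b₀ * j + 1) + (S.card * (b₀ * j + 1) + 1) by ring]
      exact hmul _ _ _ _ (hmono _ _ (by gcongr; exact hα i) (hpow i (α i))) ih
  set B := g * (b₀ + 1) + 1
  refine ⟨C * 2 ^ g + B ^ g, B, fun m hm => ?_⟩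
  obtain ⟨hfin, hle⟩ := hC m
  haveI := hfin
  refine ⟨hfin, ?_, ?_⟩
  · set j := m / B
    have hj : 0 < j := Nat.div_pos hm (Nat.succ_pos _)
    have hjB : g * (b₀ * j + 1) + 1 ≤ m := by
      refine le_trans ?_ (Nat.div_mul_le_self m B)
      show g * (b₀ * j + 1) + 1 ≤ j * B
      simp only [B]
      nlinarith
    let v : (Fin g → Fin (j + 1)) → L m := fun α =>
      ⟨∏ i, φ (MvPolynomial.X i) ^ (α i : ℕ),
        hmono _ _ (by simpa using hjB) (hprod j (fun i => α i) (fun i => Fin.is_le (α i)) _)⟩
    have hv : LinearIndependent k v := by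
      refine LinearIndependent.of_comp (L m).subtype ?_
      let exp : (Fin g → Fin (j + 1)) → (Fin g →₀ ℕ) := fun α =>
        Finsupp.equivFunOnFinite.symm fun i => (α i : ℕ)
      have hexp : Function.Injective exp := fun α β h => funext fun i => Fin.ext (by
        simpa [exp] using DFunLike.congr_fun h i)
      have hb' := ((MvPolynomial.basisMonomials (Fin g) k).linearIndependent.map'
        φ.toLinearMap (LinearMap.ker_eq_bot.2 hφ)).comp exp hexp
      have hval : (L m).subtype ∘ v =
          (φ.toLinearMap ∘ MvPolynomial.basisMonomials (Fin g) k) ∘ exp := funext fun α => by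
        simp [v, exp, MvPolynomial.monomial_eq, Finsupp.prod_fintype]
      rw [hval]
      exact hb'
    have hcard := hv.fintype_card_le_finrank
    rw [Fintype.card_fun, Fintype.card_fin, Fintype.card_fin] at hcard
    calc m ^ g ≤ (B * (j + 1)) ^ g :=
          Nat.pow_le_pow_left (Nat.lt_mul_div_succ m (Nat.succ_pos _)).le g
      _ = B ^ g * (j + 1) ^ g := mul_pow _ _ _
      _ ≤ B ^ g * Module.finrank k (L m) := Nat.mul_le_mul_left _ hcard
      _ ≤ _ := Nat.mul_le_mul_right _ (Nat.le_add_left _ _)
  · calc Module.finrank k (L m) ≤ C * (m + 1) ^ g := hle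
      _ ≤ C * (2 * m) ^ g := Nat.mul_le_mul_left _ (Nat.pow_le_pow_left (by omega) g)
      _ = C * 2 ^ g * m ^ g := by rw [mul_pow]; ring
      _ ≤ _ := Nat.mul_le_mul_right _ (Nat.le_add_right _ _)

end Fermat.Agent.AV.Growth

end
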