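import Mathlib

/-!
# The degree valuation on a rational function field

The total degree of polynomials extends to a valuation of the field of rational functions; an
element of an extension field which is integral over its valuation ring is detected by the
valuation subrings containing that ring, and its trace is then in that ring.
-/

set_option autoImplicit false
set_option linter.unusedSectionVars false

noncomputable section

namespace Fermat.Agent.AV.Growth

open MvPolynomial

variable (k : Type*) [Field k] (g : ℕ)

/-- The valuation `exp (deg p)` of polynomials. -/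
def degVal : Valuation (MvPolynomial (Fin g) k) (WithZero (Multiplicative ℤ)) := by
  classical
  exact {
    toFun := fun p => if p = 0 then 0 else WithZero.exp (p.totalDegree : ℤ)
    map_zero' := if_pos rfl
    map_one' := by rw [if_neg one_ne_zero, totalDegree_one]; rfl
    map_mul' := fun p q => by
      by_cases hp : p = 0
      · simp [hp]
      by_cases hq : q = 0
      · simp [hq]
      rw [if_neg hp, if_neg hq, if_neg (mul_ne_zero hp hq), totalDegree_mul_of_isDomain hp hq,
        Nat.cast_add, WithZero.exp_add]
    map_add_le_max' := fun p q => by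
      by_cases hp : p = 0
      · simp [hp]
      by_cases hq : q = 0
      · simp [hq]
      by_cases hpq : p + q = 0
      · simp [hpq]
      rw [if_neg hp, if_neg hq, if_neg hpq, le_max_iff]
      rcases le_total q.totalDegree p.totalDegree with h | h
      · left
        rw [WithZero.exp_le_exp]
        exact_mod_cast (totalDegree_add p q).trans (max_le le_rfl h)
      · right
        rw [WithZero.exp_le_exp]
        exact_mod_cast (totalDegree_add p q).trans (max_le h le_rfl) }

theorem degVal_apply {p : MvPolynomial (Fin g) k} (hp : p ≠ 0) :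
    degVal k g p = WithZero.exp (p.totalDegree : ℤ) := by
  classical
  exact if_neg hp

theorem nonZeroDivisors_le_primeCompl_supp :
    nonZeroDivisors (MvPolynomial (Fin g) k) ≤ (degVal k g).supp.primeCompl := by
  intro p hp hmem
  have h0 : p ≠ 0 := nonZeroDivisors.ne_zero hp
  change degVal k g p = 0 at hmem
  rw [degVal_apply k g h0] at hmem
  exact WithZero.exp_ne_zero hmem

variable {k g}
variable (K₀ : Type*) [Field K₀] [Algebra (MvPolynomial (Fin g) k) K₀]
  [IsFractionRing (MvPolynomial (Fin g) k) K₀]

/-- The degree valuation of rational functions. -/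
def degValFrac : Valuation K₀ (WithZero (Multiplicative ℤ)) :=
  (degVal k g).extendToLocalization (nonZeroDivisors_le_primeCompl_supp k g) K₀

variable {K₀}

theorem degValFrac_algebraMap (p : MvPolynomial (Fin g) k) :
    degValFrac (k := k) (g := g) K₀ (algebraMap (MvPolynomial (Fin g) k) K₀ p) = degVal k g p :=
  Valuation.extendToLocalization_apply_map_apply _ _ _ _

theorem degValFrac_le_one {p : MvPolynomial (Fin g) k} {q : MvPolynomial (Fin g) k}
    (hq : q ≠ 0) (h : p.totalDegree ≤ q.totalDegree) :
    algebraMap _ K₀ p / algebraMap _ K₀ q ∈ (degValFrac (k := k) (g := g) K₀).integer := by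
  rw [Valuation.mem_integer_iff, map_div₀, degValFrac_algebraMap, degValFrac_algebraMap,
    degVal_apply k g hq]
  by_cases hp : p = 0
  · simp [hp]
  rw [degVal_apply k g hp, div_le_one₀ (WithZero.exp_pos), WithZero.exp_le_exp]
  exact_mod_cast h

theorem totalDegree_le_of_mem_integer {p q : MvPolynomial (Fin g) k} (hp : p ≠ 0) (hq : q ≠ 0)
    (h : algebraMap _ K₀ p / algebraMap _ K₀ q ∈ (degValFrac (k := k) (g := g) K₀).integer) :
    p.totalDegree ≤ q.totalDegree := by
  rw [Valuation.mem_integer_iff, map_div₀, degValFrac_algebraMap, degValFrac_algebraMap,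
    degVal_apply k g hq, degVal_apply k g hp, div_le_one₀ (WithZero.exp_pos),
    WithZero.exp_le_exp] at h
  exact_mod_cast h

section Norm

variable {F : Type*} [Field F] [Algebra K₀ F]

/-- An element of `F` lying in every valuation subring above the degree ring is integral over
it. -/
theorem isIntegral_of_forall {x : F}
    (h : ∀ W : ValuationSubring F, (∀ c ∈ (degValFrac (k := k) (g := g) K₀).integer,
      algebraMap K₀ F c ∈ W) → x ∈ W) :
    IsIntegral (degValFrac (k := k) (g := g) K₀).integer x := by
  set O := (degValFrac (k := k) (g := g) K₀).integer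
  set s : Set F := (algebraMap K₀ F) '' O with hs
  have hx : x ∈ (⨅ V : {V : ValuationSubring F // s ⊆ V.toSubring}, V.1.toSubring) :=
    Subring.mem_iInf.2 fun V => h V.1 fun c hc => V.2 ⟨c, hc, rfl⟩
  rw [iInf_valuationSubring_superset] at hx
  obtain ⟨p, hp, hpx⟩ := hx
  -- the subring generated by the image is the image
  have hcl : Subring.closure s = O.map (algebraMap K₀ F) := by
    rw [hs, ← Subring.coe_map, Subring.closure_eq]
  have hpO : ∀ n, ∃ c : O, algebraMap K₀ F c = (p.coeff n : F) := fun n => by
    have hm : (p.coeff n : F) ∈ O.map (algebraMap K₀ F) := hcl ▸ (p.coeff n).2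
    obtain ⟨c, hc, e⟩ := hm
    exact ⟨⟨c, hc⟩, e⟩
  have hinj : Function.Injective ((algebraMap K₀ F).comp O.subtype) :=
    (algebraMap K₀ F).injective.comp Subtype.val_injective
  obtain ⟨q, hq, hqdeg, hqm⟩ := Polynomial.lifts_and_degree_eq_and_monic
    (f := (algebraMap K₀ F).comp O.subtype)
    (p := p.map (Subring.closure s).subtype)
    ((Polynomial.lifts_iff_coeff_lifts _).2 fun n => by
      obtain ⟨c, hc⟩ := hpO n
      exact ⟨c, by rw [Polynomial.coeff_map]; exact hc⟩)
    (hp.map _)
  refine ⟨q, hqm, ?_⟩
  rw [Polynomial.eval₂_eq_eval_map] at hpx ⊢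
  rw [show algebraMap O F = (algebraMap K₀ F).comp O.subtype from rfl, hq]
  exact hpx

/-- Its trace is then in that ring. -/
theorem trace_mem_integer [FiniteDimensional K₀ F] {x : F}
    (h : ∀ W : ValuationSubring F, (∀ c ∈ (degValFrac (k := k) (g := g) K₀).integer,
      algebraMap K₀ F c ∈ W) → x ∈ W) :
    Algebra.trace K₀ F x ∈ (degValFrac (k := k) (g := g) K₀).integer := by
  obtain ⟨c, hc⟩ := IsIntegrallyClosed.isIntegral_iff.1
    (Algebra.isIntegral_trace (L := K₀) (F := F) (isIntegral_of_forall h))
  rw [← hc]
  exact c.2

end Norm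

end Fermat.Agent.AV.Growth

end
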