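import Mathlib

/-!
# Functions with bounded poles along a finite separable extension

For a finite separable extension `F / F₀` and pole divisors related by a fixed function and a
fixed exponent at every place, the spaces of functions with bounded poles multiply by the degree,
up to bounded shifts.
-/

set_option autoImplicit false
set_option linter.style.haveILetI false
set_option linter.unusedSectionVars false

noncomputable section

namespace Fermat.Agent.AV.Growth

section Space

variable (k : Type*) {F : Type*} [Field k] [Field F] [Algebra k F]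

/-- The functions whose poles are bounded by `m` times `γ`. -/
def poleSpace (γ : ValuationSubring F → F) (m : ℕ) : Submodule k F where
  carrier := {f | ∀ W : ValuationSubring F, (∀ c : k, algebraMap k F c ∈ W) → f * γ W ^ m ∈ W}
  zero_mem' W _ := by rw [zero_mul]; exact W.zero_mem
  add_mem' ha hb W hW := by rw [add_mul]; exact add_mem (ha W hW) (hb W hW)
  smul_mem' c f hf W hW := by
    rw [Algebra.smul_def, mul_assoc]
    exact mul_mem (hW c) (hf W hW)

variable {k} {γ : ValuationSubring F → F}
  (hγ : ∀ W : ValuationSubring F, (∀ c : k, algebraMap k F c ∈ W) → γ W ∈ W)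

theorem one_mem_poleSpace (hγ : ∀ W : ValuationSubring F, (∀ c : k, algebraMap k F c ∈ W) →
    γ W ∈ W) (m : ℕ) : (1 : F) ∈ poleSpace k γ m := fun W hW => by
  rw [one_mul]; exact pow_mem (hγ W hW) m

theorem mul_mem_poleSpace {a b : ℕ} {x y : F} (hx : x ∈ poleSpace k γ a)
    (hy : y ∈ poleSpace k γ b) : x * y ∈ poleSpace k γ (a + b) := fun W hW => by
  rw [pow_add, mul_mul_mul_comm]
  exact mul_mem (hx W hW) (hy W hW)

include hγ in
theorem poleSpace_mono {a b : ℕ} (h : a ≤ b) : poleSpace k γ a ≤ poleSpace k γ b := fun f hf =>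
  fun W hW => by
    rw [← Nat.add_sub_of_le h, pow_add, ← mul_assoc]
    exact mul_mem (hf W hW) (pow_mem (hγ W hW) _)

theorem algebraMap_mem_poleSpace (hγ : ∀ W : ValuationSubring F,
    (∀ c : k, algebraMap k F c ∈ W) → γ W ∈ W) (c : k) (m : ℕ) :
    algebraMap k F c ∈ poleSpace k γ m := by
  rw [Algebra.algebraMap_eq_smul_one]
  exact Submodule.smul_mem _ c (one_mem_poleSpace hγ m)

end Space

section Dominating

variable {F₀ F : Type*} [Field F₀] [Field F] [Algebra F₀ F]

set_option backward.isDefEq.respectTransparency.types false in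
/-- An element which is not integral over a valuation ring below lies outside a valuation ring
lying above it. -/
theorem exists_comap_eq_of_not_isIntegral (W₀ : ValuationSubring F₀) {x : F}
    (hx : ¬ IsIntegral W₀ x) :
    ∃ V : ValuationSubring F, V.comap (algebraMap F₀ F) = W₀ ∧ x ∉ V := by
  open IsLocalRing Algebra in
  set ψ : W₀ →+* F := (algebraMap F₀ F).comp W₀.subtype
  have hψ : Function.Injective ψ := (algebraMap F₀ F).injective.comp Subtype.val_injective
  obtain rfl | hx0 := eq_or_ne x 0
  · exact absurd isIntegral_zero hx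
  let := invertibleOfNonzero hx0
  let B := Algebra.adjoin W₀ ({x⁻¹} : Set F)
  let xinv : B := ⟨x⁻¹, Algebra.subset_adjoin rfl⟩
  have hne : (IsLocalRing.maximalIdeal W₀).map (algebraMap W₀ B) + Ideal.span {xinv} ≠ ⊤ := by
    intro eq
    refine hx ?_
    obtain ⟨p, hp, hpx⟩ := exists_aeval_invOf_eq_zero_of_idealMap_adjoin_sup_span_eq_top
      x⁻¹ _ (IsLocalRing.maximalIdeal.isMaximal W₀).ne_top eq
    have H : IsUnit p.leadingCoeff := of_not_not fun h => by simpa using sub_mem h hp
    exact ⟨.C H.unit⁻¹.1 * p, by simp [Polynomial.Monic], by simpa using .inr hpx⟩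
  obtain ⟨V, hV⟩ := Ideal.image_subset_nonunits_valuationSubring (A := B.toSubring) _ hne
  have hle : ∀ c : W₀, ψ c ∈ V := fun c => hV.1 (B.algebraMap_mem c)
  refine ⟨V, ?_, (V.inv_mem_nonunits_iff.mp <|
    hV.2 ⟨_, le_add_self (α := Ideal B) (Ideal.subset_span rfl), rfl⟩).resolve_left hx0⟩
  refine SetLike.ext fun y => ⟨fun hy => ?_, fun hy => hle ⟨y, hy⟩⟩
  rw [ValuationSubring.mem_comap] at hy
  by_contra hyW
  have hy0 : y ≠ 0 := fun e => hyW (e ▸ W₀.zero_mem)
  have hyi : y⁻¹ ∈ W₀ := (W₀.mem_or_inv_mem y).resolve_left hyW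
  have hm : (⟨y⁻¹, hyi⟩ : W₀) ∈ IsLocalRing.maximalIdeal W₀ := by
    intro hu
    obtain ⟨⟨z, hz⟩, e⟩ := isUnit_iff_exists_inv.1 hu
    have e' : y⁻¹ * z = 1 := congrArg Subtype.val e
    rw [inv_mul_eq_iff_eq_mul₀ hy0, mul_one] at e'
    exact hyW (e' ▸ hz)
  have hnu : algebraMap F₀ F y⁻¹ ∈ V.nonunits :=
    hV.2 ⟨_, le_self_add (α := Ideal B) (Ideal.mem_map_of_mem _ hm), rfl⟩
  rw [map_inv₀] at hnu
  exact ((V.inv_mem_nonunits_iff.1 hnu).resolve_left fun e => hy0 ((map_eq_zero _).1 e)) hy

/-- The trace of an element bounded at all places above lies in the place below. -/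
theorem trace_mem (W₀ : ValuationSubring F₀) [FiniteDimensional F₀ F] {x : F}
    (h : ∀ V : ValuationSubring F, V.comap (algebraMap F₀ F) = W₀ → x ∈ V) :
    Algebra.trace F₀ F x ∈ W₀ := by
  have hint : IsIntegral W₀ x := by
    by_contra hx
    obtain ⟨V, hV, hxV⟩ := exists_comap_eq_of_not_isIntegral W₀ hx
    exact hxV (h V hV)
  obtain ⟨c, hc⟩ := IsIntegrallyClosed.isIntegral_iff.1
    (Algebra.isIntegral_trace (L := F₀) (F := F) hint)
  exact hc ▸ c.2

end Dominating

section Main

variable {k F₀ F : Type*} [Field k] [Field F₀] [Field F] [Algebra k F₀] [Algebra k F]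
  [Algebra F₀ F] [IsScalarTower k F₀ F] [FiniteDimensional F₀ F]
  {γ₀ : ValuationSubring F₀ → F₀} {γ : ValuationSubring F → F}
  {e N : ℕ} {c : F}

theorem comap_contains {W : ValuationSubring F} (hW : ∀ a : k, algebraMap k F a ∈ W) (a : k) :
    algebraMap k F₀ a ∈ W.comap (algebraMap F₀ F) := by
  rw [ValuationSubring.mem_comap, ← IsScalarTower.algebraMap_apply]
  exact hW a

/-- The relation of the pole divisors. -/
structure IsPullback (k : Type*) [Field k] [Algebra k F] (γ₀ : ValuationSubring F₀ → F₀)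
    (γ : ValuationSubring F → F) (e N : ℕ) (c : F) : Prop where
  ne_zero : c ≠ 0
  rel : ∀ W : ValuationSubring F, (∀ a : k, algebraMap k F a ∈ W) →
    ∃ u : F, u ≠ 0 ∧ u ∈ W ∧ u⁻¹ ∈ W ∧
      algebraMap F₀ F (γ₀ (W.comap (algebraMap F₀ F))) ^ e = u * c * γ W ^ (e * N)

/-- **Pullback.** The degree times the dimension below is at most the dimension above. -/
theorem mul_finrank_le (hrel : IsPullback k γ₀ γ e N c)
    {d a : ℕ} (B : Module.Basis (Fin d) F₀ F) (hB : ∀ j, B j ∈ poleSpace k γ a) (m : ℕ)
    [Module.Finite k (poleSpace k γ (e * N * m + a))] :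
    Module.Finite k (poleSpace k γ₀ (e * m)) →
      d * Module.finrank k (poleSpace k γ₀ (e * m)) ≤
        Module.finrank k (poleSpace k γ (e * N * m + a)) := by
  intro hfin
  have hmem : ∀ (f : poleSpace k γ₀ (e * m)),
      c ^ m * algebraMap F₀ F f ∈ poleSpace k γ (e * N * m) := by
    intro f W hW
    obtain ⟨u, hu0, hu, hui, heq⟩ := hrel.rel W hW
    have h1 := f.2 _ (comap_contains hW)
    rw [ValuationSubring.mem_comap, map_mul, map_pow, pow_mul, heq, mul_pow, mul_pow,
      ← pow_mul (γ W)] at h1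
    have h2 := mul_mem h1 (pow_mem hui m)
    convert h2 using 1
    rw [inv_pow]
    field_simp
  let Φ : (Fin d → poleSpace k γ₀ (e * m)) →ₗ[k] poleSpace k γ (e * N * m + a) :=
    { toFun := fun f => ⟨∑ j, (c ^ m * algebraMap F₀ F (f j)) * B j,
        sum_mem fun j _ => mul_mem_poleSpace (hmem (f j)) (hB j)⟩
      map_add' := fun f f' => Subtype.ext (by
        simp only [Pi.add_apply, Submodule.coe_add, map_add, mul_add, add_mul,
          Finset.sum_add_distrib])
      map_smul' := fun r f => Subtype.ext (by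
        simp only [Pi.smul_apply, Submodule.coe_smul, RingHom.id_apply, Finset.smul_sum]
        refine Finset.sum_congr rfl fun j _ => ?_
        rw [Algebra.smul_def r (f j : F₀), map_mul, ← IsScalarTower.algebraMap_apply,
          Algebra.smul_def]
        ring) }
  have hΦ : Function.Injective Φ := by
    rw [injective_iff_map_eq_zero]
    intro f hf
    have h1 : c ^ m * ∑ j, (f j : F₀) • B j = 0 := by
      refine Eq.trans ?_ (congrArg Subtype.val hf : (Φ f : F) = 0)
      show _ = ∑ j, (c ^ m * algebraMap F₀ F (f j)) * B j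
      rw [Finset.mul_sum]
      refine Finset.sum_congr rfl fun j _ => ?_
      rw [Algebra.smul_def]; ring
    have h2 := Fintype.linearIndependent_iff.1 B.linearIndependent _
      ((mul_eq_zero.1 h1).resolve_left (pow_ne_zero _ hrel.ne_zero))
    exact funext fun j => Subtype.ext (h2 j)
  have := LinearMap.finrank_le_finrank_of_injective hΦ
  rwa [Module.finrank_pi_fintype, Finset.sum_const, Finset.card_univ, Fintype.card_fin,
    smul_eq_mul] at this

/-- **Trace.** The dimension above is at most the degree times the dimension below. -/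
theorem finrank_le_mul [Algebra.IsSeparable F₀ F] (hrel : IsPullback k γ₀ γ e N c)
    (hγ : ∀ W : ValuationSubring F, (∀ a : k, algebraMap k F a ∈ W) → γ W ∈ W)
    (hN : 0 < N) (he : 0 < e)
    {d a : ℕ} (B : Module.Basis (Fin d) F₀ F) (hB : ∀ j, B j ∈ poleSpace k γ a) (m : ℕ)
    [Module.Finite k (poleSpace k γ₀ (e * (m + a)))] :
    Module.Finite k (poleSpace k γ (e * N * m)) ∧
      Module.finrank k (poleSpace k γ (e * N * m)) ≤
        d * Module.finrank k (poleSpace k γ₀ (e * (m + a))) := by
  have hmem : ∀ (f : poleSpace k γ (e * N * m)) (j : Fin d),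
      Algebra.trace F₀ F ((c ^ (m + a))⁻¹ * f * B j) ∈ poleSpace k γ₀ (e * (m + a)) := by
    intro f j W₀ hW₀
    set t := γ₀ W₀ ^ (e * (m + a))
    rw [mul_comm, ← smul_eq_mul, ← map_smul]
    refine trace_mem W₀ fun V hV => ?_
    have hVk : ∀ r : k, algebraMap k F r ∈ V := fun r => by
      rw [IsScalarTower.algebraMap_apply k F₀ F, ← ValuationSubring.mem_comap, hV]
      exact hW₀ r
    obtain ⟨u, hu0, hu, hui, heq⟩ := hrel.rel V hVk
    rw [hV] at heq
    rw [Algebra.smul_def, map_pow, pow_mul, heq]
    have hBj : (B j : F) * γ V ^ (e * N * a) ∈ V :=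
      poleSpace_mono hγ (Nat.le_mul_of_pos_left a (Nat.mul_pos he hN)) (hB j) V hVk
    have := mul_mem (mul_mem (f.2 V hVk) hBj) (pow_mem hu (m + a))
    convert this using 1
    rw [mul_pow, mul_pow, ← pow_mul, mul_add (e * N), pow_add (γ V)]
    field_simp [pow_ne_zero _ hrel.ne_zero]
  let Φ : poleSpace k γ (e * N * m) →ₗ[k] (Fin d → poleSpace k γ₀ (e * (m + a))) :=
    { toFun := fun f j => ⟨_, hmem f j⟩
      map_add' := fun f f' => funext fun j => Subtype.ext (by
        simp only [Submodule.coe_add, mul_add, add_mul, map_add, Pi.add_apply])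
      map_smul' := fun r f => funext fun j => Subtype.ext (by
        simp only [Submodule.coe_smul, RingHom.id_apply, Pi.smul_apply, mul_smul_comm,
          smul_mul_assoc, LinearMap.map_smul_of_tower]) }
  have hΦ : Function.Injective Φ := by
    rw [injective_iff_map_eq_zero]
    intro f hf
    have h1 : ∀ y : F, Algebra.trace F₀ F ((c ^ (m + a))⁻¹ * f * y) = 0 := fun y => by
      rw [← B.sum_repr y, Finset.mul_sum, map_sum]
      refine Finset.sum_eq_zero fun j _ => ?_
      have h2 : Algebra.trace F₀ F ((c ^ (m + a))⁻¹ * f * B j) = 0 :=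
        congrArg Subtype.val (congrFun hf j)
      rw [mul_smul_comm, map_smul, h2, smul_zero]
    have h3 := (traceForm_nondegenerate F₀ F).1 ((c ^ (m + a))⁻¹ * f) fun y => h1 y
    exact Subtype.ext ((mul_eq_zero.1 h3).resolve_left (inv_ne_zero (pow_ne_zero _ hrel.ne_zero)))
  refine ⟨Module.Finite.of_injective Φ hΦ, ?_⟩
  have := LinearMap.finrank_le_finrank_of_injective hΦ
  rwa [Module.finrank_pi_fintype, Finset.sum_const, Finset.card_univ, Fintype.card_fin,
    smul_eq_mul] at this

end Main

end Fermat.Agent.AV.Growth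

end
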