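import Fermat.Agent.AV.GrowthBounds
import Fermat.Agent.AV.GrowthTrace

/-!
# The degree of an endomorphism which multiplies the pole divisor

If an endomorphism `φ` of a function field multiplies an effective pole divisor by `N`, up to a
fixed function and a fixed positive multiple, then its degree is `N ^ trdeg`.
-/

set_option autoImplicit false
set_option linter.style.haveILetI false
set_option linter.unusedSectionVars false

noncomputable section

namespace Fermat.Agent.AV.Growth

variable {k F : Type*} [Field k] [Field F] [Algebra k F]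

/-- A basis over a subfield inside a bounded space. -/
theorem exists_basis_mem (F₀ : IntermediateField k F) [FiniteDimensional F₀ F] (R : Subalgebra k F)
    (hfrac : ∀ x : F, ∃ r ∈ R, ∃ s ∈ R, s ≠ 0 ∧ x = r / s)
    {γ : ValuationSubring F → F}
    (hγ : ∀ W : ValuationSubring F, (∀ a : k, algebraMap k F a ∈ W) → γ W ∈ W)
    (hexh : ∀ r ∈ R, ∃ b, r ∈ poleSpace k γ b) :
    ∃ (a : ℕ) (B : Module.Basis (Fin (Module.finrank F₀ F)) F₀ F),
      ∀ j, B j ∈ poleSpace k γ a := by
  classical
  set T := Submodule.span F₀ (R : Set F) with hT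
  have hTmul : ∀ x ∈ T, ∀ y ∈ T, x * y ∈ T := fun x hx y hy => by
    refine Submodule.span_induction₂ (p := fun x y _ _ => x * y ∈ T)
      (fun x y hx hy => Submodule.subset_span (R.mul_mem hx hy)) (fun _ _ => by simp)
      (fun _ _ => by simp) (fun x y z _ _ _ h1 h2 => by rw [add_mul]; exact add_mem h1 h2)
      (fun x y z _ _ _ h1 h2 => by rw [mul_add]; exact add_mem h1 h2)
      (fun c x y _ _ h => by rw [smul_mul_assoc]; exact T.smul_mem c h)
      (fun c x y _ _ h => by rw [mul_smul_comm]; exact T.smul_mem c h) hx hy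
  have htop : T = ⊤ := by
    refine eq_top_iff.2 fun x _ => ?_
    obtain ⟨r, hr, s, hs, hs0, rfl⟩ := hfrac x
    have hsT : s ∈ T := Submodule.subset_span hs
    let μ : T →ₗ[F₀] T := ((LinearMap.mulLeft F₀ s).domRestrict T).codRestrict T
      fun y => hTmul s hsT y y.2
    have hinj : Function.Injective μ := fun y z e => Subtype.ext
      (mul_left_cancel₀ hs0 (congrArg Subtype.val e))
    obtain ⟨y, hy⟩ := (LinearMap.injective_iff_surjective.1 hinj) ⟨r, Submodule.subset_span hr⟩
    have e : s * (y : F) = r := congrArg Subtype.val hy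
    rw [← e, mul_div_cancel_left₀ _ hs0]
    exact y.2
  obtain ⟨κ, ι, -, hsp, hli⟩ := exists_linearIndependent' F₀ (fun r : R => (r : F))
  have hr : Set.range (fun r : R => (r : F)) = (R : Set F) := Subtype.range_coe
  rw [hr, ← hT, htop] at hsp
  let B := Module.Basis.mk hli hsp.ge
  haveI : Finite κ := Module.Finite.finite_basis B
  haveI : Fintype κ := Fintype.ofFinite κ
  let B' := B.reindex (Fintype.equivFinOfCardEq (Module.finrank_eq_card_basis B).symm)
  have hB' : ∀ j, B' j ∈ R := fun j => by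
    rw [Module.Basis.reindex_apply, Module.Basis.mk_apply]
    exact (ι _).2
  choose deg hdeg using fun j => hexh _ (hB' j)
  exact ⟨Finset.univ.sup deg, B',
    fun j => poleSpace_mono hγ (Finset.le_sup (Finset.mem_univ j)) (hdeg j)⟩

/-- **The degree formula.** -/
theorem finrank_eq_pow [PerfectField k] {g : ℕ} (hg : Algebra.trdeg k F = g) (y : Finset F)
    (hy : IntermediateField.adjoin k (y : Set F) = ⊤)
    (γ : ValuationSubring F → F) {ι : Type*} [Fintype ι] (vals : ι → F) (hv0 : ∀ a, vals a ≠ 0)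
    (hval : ∀ W : ValuationSubring F, (∀ a : k, algebraMap k F a ∈ W) →
      γ W ∈ W ∧ ∃ a, γ W = vals a)
    (hexh : ∀ z ∈ y, ∃ b, z ∈ poleSpace k γ b)
    (φ : F →ₐ[k] F) [FiniteDimensional φ.fieldRange F] [Algebra.IsSeparable φ.fieldRange F]
    {e N : ℕ} (he : 0 < e) (hN : 0 < N) {c : F} (hc : c ≠ 0)
    (hrel : ∀ W : ValuationSubring F, (∀ a : k, algebraMap k F a ∈ W) →
      ∃ u : F, u ≠ 0 ∧ u ∈ W ∧ u⁻¹ ∈ W ∧
        φ (γ (W.comap φ.toRingHom)) ^ e = u * c * γ W ^ (e * N)) :
    Module.finrank φ.fieldRange F = N ^ g := by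
  classical
  -- replace the divisor by its multiple
  set δ : ValuationSubring F → F := fun W => γ W ^ e with hδ
  have hδmem : ∀ W : ValuationSubring F, (∀ a : k, algebraMap k F a ∈ W) → δ W ∈ W :=
    fun W hW => pow_mem (hval W hW).1 e
  have hδy : ∀ z ∈ y, ∃ b, z ∈ poleSpace k δ b := fun z hz => by
    obtain ⟨b, hb⟩ := hexh z hz
    refine ⟨b, fun W hW => ?_⟩
    show z * (γ W ^ e) ^ b ∈ W
    rw [← Nat.sub_add_cancel (Nat.one_le_iff_ne_zero.2 he.ne'), pow_succ, mul_pow,
      mul_left_comm]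
    exact mul_mem (pow_mem (pow_mem (hval W hW).1 _) b) (hb W hW)
  set R := Algebra.adjoin k (y : Set F)
  have hfrac : ∀ x : F, ∃ r ∈ R, ∃ s ∈ R, s ≠ 0 ∧ x = r / s := fun x => by
    obtain ⟨r, hr, s, hs, hx⟩ := (IntermediateField.mem_adjoin_iff_div (F := k)).1
      (hy.ge (IntermediateField.mem_top (x := x)))
    rcases eq_or_ne s 0 with h0 | h0
    · exact ⟨0, R.zero_mem, 1, R.one_mem, one_ne_zero, by rw [hx, h0, div_zero, zero_div]⟩
    · exact ⟨r, hr, s, hs, h0, hx⟩
  have hδexh : ∀ r ∈ R, ∃ b, r ∈ poleSpace k δ b := fun r hr => by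
    induction hr using Algebra.adjoin_induction with
    | mem z hz => exact hδy z hz
    | algebraMap a => exact ⟨0, algebraMap_mem_poleSpace hδmem a 0⟩
    | add u v _ _ h1 h2 =>
      obtain ⟨⟨a, ha⟩, ⟨b, hb⟩⟩ := And.intro h1 h2
      exact ⟨a + b, add_mem (poleSpace_mono hδmem (Nat.le_add_right a b) ha)
        (poleSpace_mono hδmem (Nat.le_add_left b a) hb)⟩
    | mul u v _ _ h1 h2 =>
      obtain ⟨⟨a, ha⟩, ⟨b, hb⟩⟩ := And.intro h1 h2
      exact ⟨a + b, mul_mem_poleSpace ha hb⟩
  obtain ⟨C, m₀, hC⟩ := exists_bounds hg y hy (poleSpace k δ)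
    (one_mem_poleSpace hδmem 1) (fun a b x z hx hz => mul_mem_poleSpace hx hz) hδy
    (fun a => vals a ^ e) (fun a => pow_ne_zero e (hv0 a)) fun W hW => by
      obtain ⟨hm, a, ha⟩ := hval W hW
      refine ⟨a, ha ▸ pow_mem hm e, fun m f hf => ?_⟩
      show f * (vals a ^ e) ^ m ∈ W
      rw [← ha]
      exact hf W hW
  haveI hfin : ∀ m, Module.Finite k (poleSpace k δ m) := fun m => by
    haveI := (hC (m + m₀) (Nat.le_add_left _ _)).1
    exact Submodule.finiteDimensional_of_le (poleSpace_mono hδmem (Nat.le_add_right m m₀))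
  -- transport below
  set F₀ := φ.fieldRange
  let σ : F ≃ₐ[k] F₀ := AlgEquiv.ofInjectiveField φ
  let δ₀ : ValuationSubring F₀ → F₀ := fun W => σ (δ (W.comap σ.toRingEquiv.toRingHom))
  have hkσ : ∀ a : k, σ (algebraMap k F a) = algebraMap k F₀ a := σ.commutes
  have hσ : ∀ f : F, algebraMap F₀ F (σ f) = φ f := fun f => rfl
  have hL₀ : ∀ m, Module.Finite k (poleSpace k δ₀ m) ∧
      Module.finrank k (poleSpace k δ₀ m) = Module.finrank k (poleSpace k δ m) := by
    intro m
    have hmap : (poleSpace k δ m).map σ.toLinearMap = poleSpace k δ₀ m := by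
      apply le_antisymm
      · rintro _ ⟨f, hf, rfl⟩ W hW
        show σ f * σ (δ (W.comap σ.toRingEquiv.toRingHom)) ^ m ∈ W
        rw [← map_pow, ← map_mul]
        exact hf (W.comap σ.toRingEquiv.toRingHom) fun a => by
          rw [ValuationSubring.mem_comap]
          exact (hkσ a).symm ▸ hW a
      · intro y hy
        refine ⟨σ.symm y, fun W hW => ?_, σ.apply_symm_apply y⟩
        have h1 := hy (W.comap σ.symm.toRingEquiv.toRingHom) fun a => by
          rw [ValuationSubring.mem_comap]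
          show σ.symm (algebraMap k F₀ a) ∈ W
          rw [σ.symm.commutes]
          exact hW a
        have h2 : (W.comap σ.symm.toRingEquiv.toRingHom).comap σ.toRingEquiv.toRingHom = W := by
          ext x
          show σ.symm (σ x) ∈ W ↔ x ∈ W
          rw [σ.symm_apply_apply]
        rw [ValuationSubring.mem_comap] at h1
        have h3 : σ.symm (y * δ₀ (W.comap σ.symm.toRingEquiv.toRingHom) ^ m) =
            σ.symm y * δ W ^ m := by
          rw [map_mul, map_pow]
          show σ.symm y * σ.symm (σ (δ _)) ^ m = _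
          rw [h2, σ.symm_apply_apply]
        exact h3 ▸ h1
    rw [← hmap]
    exact ⟨Module.Finite.map _ _, LinearEquiv.finrank_map_eq σ.toLinearEquiv _⟩
  have hpb : IsPullback k δ₀ δ 1 N c :=
    ⟨hc, fun W hW => by
      obtain ⟨u, hu0, hu, hui, heq⟩ := hrel W hW
      refine ⟨u, hu0, hu, hui, ?_⟩
      show algebraMap F₀ F (σ (γ _ ^ e)) ^ 1 = u * c * (γ W ^ e) ^ (1 * N)
      rw [pow_one, one_mul, hσ, map_pow, ← pow_mul, ← heq]
      rfl⟩
  obtain ⟨a, B, hB⟩ := exists_basis_mem F₀ R hfrac hδmem hδexh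
  let d := Module.finrank F₀ F
  set L : ℕ → ℕ := fun m => Module.finrank k (poleSpace k δ m)
  have hLmono : ∀ {x y}, x ≤ y → L x ≤ L y := fun h =>
    Submodule.finrank_mono (poleSpace_mono hδmem h)
  have hlo : ∀ m, d * L m ≤ L (N * m + a) := fun m => by
    haveI := (hL₀ (1 * m)).1
    have h := mul_finrank_le hpb B hB m this
    rwa [(hL₀ (1 * m)).2, one_mul, one_mul] at h
  have hup : ∀ m, L (N * m) ≤ d * L (m + a) := fun m => by
    haveI := (hL₀ (1 * (m + a))).1
    have h := (finrank_le_mul hpb hδmem hN one_pos B hB m).2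
    rwa [(hL₀ (1 * (m + a))).2, one_mul, one_mul] at h
  refine eq_pow_of_growth (s := 1) hN ⟨C, m₀, fun m hm => (hC m hm).2⟩ one_pos (fun j => ?_)
    (fun j => ?_)
  · induction j with
    | zero => exact ⟨0, 0, fun m _ => le_of_eq ((one_mul (L m)).trans
        (congrArg L (show m = 1 * N ^ 0 * m + 0 by simp)))⟩
    | succ j ih =>
      obtain ⟨a', m', h⟩ := ih
      refine ⟨N * a' + a, m', fun m hm => ?_⟩
      calc d ^ (j + 1) * L m = d * (d ^ j * L m) := by ring
        _ ≤ d * L (1 * N ^ j * m + a') := Nat.mul_le_mul_left _ (h m hm)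
        _ ≤ L (N * (1 * N ^ j * m + a') + a) := hlo _
        _ = _ := by congr 1; ring
  · induction j with
    | zero => exact ⟨0, 0, fun m _ => le_of_eq ((congrArg L (show N ^ 0 * m = 1 * m + 0 by simp)).trans
        (one_mul (L (1 * m + 0))).symm)⟩
    | succ j ih =>
      obtain ⟨a', m', h⟩ := ih
      refine ⟨a + a', m', fun m hm => ?_⟩
      calc L (N ^ (j + 1) * m) = L (N * (N ^ j * m)) := by congr 1; ring
        _ ≤ d * L (N ^ j * m + a) := hup _
        _ ≤ d * L (N ^ j * (m + a)) := Nat.mul_le_mul_left _ (hLmono (by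
            rw [mul_add]; exact Nat.add_le_add_left (Nat.le_mul_of_pos_left a (pow_pos hN j)) _))
        _ ≤ d * (d ^ j * L (1 * (m + a) + a')) := Nat.mul_le_mul_left _ (h _ (by omega))
        _ = _ := by rw [one_mul, one_mul, add_assoc]; ring

end Fermat.Agent.AV.Growth

end
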