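import Fermat.Agent.AV.Defs
import Fermat.Agent.AV.GrowthFormula

/-!
# Torsion of abelian varieties: the degree of multiplication by `n`

Quadraticity of a polarisation turns multiplication by `n` into an endomorphism of the function
field which multiplies a pole divisor by `n ^ 2`; the growth of the spaces of functions with
bounded poles then gives its degree `n ^ (2 g)`.
-/

set_option autoImplicit false
set_option linter.style.haveILetI false

noncomputable section

universe u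

open CategoryTheory CategoryTheory.Limits AlgebraicGeometry NeronModelInfra GoodReductionJacobian

namespace Fermat.Agent.AV

variable {K : Type u} [Field K]

namespace Val

variable {M N : Type u} [Field M] [Algebra K M] [Field N] [Algebra K N]

theorem valuation_eq_one_iff (W : Val K M) {x : M} (hx : x ≠ 0) :
    W.sub.valuation x = 1 ↔ x ∈ W.sub ∧ x⁻¹ ∈ W.sub := by
  rw [← W.sub.valuation_le_one_iff, ← W.sub.valuation_le_one_iff, map_inv₀,
    inv_le_one₀ (zero_lt_iff.2 ((Valuation.ne_zero_iff _).2 hx))]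
  exact ⟨fun h => ⟨h.le, h.ge⟩, fun h => le_antisymm h.1 h.2⟩

theorem valuation_algebraMap (W : Val K M) {k : K} (hk : k ≠ 0) :
    W.sub.valuation (algebraMap K M k) = 1 :=
  (W.valuation_eq_one_iff ((map_ne_zero _).2 hk)).2
    ⟨W.algebraMap_mem k, by rw [← map_inv₀]; exact W.algebraMap_mem k⁻¹⟩

/-- Equal valuations stay equal along an embedding. -/
theorem valuation_eq_of_comap (W : Val K N) (φ : M →ₐ[K] N) {x y : M} (hx : x ≠ 0)
    (h : (W.comap φ).sub.valuation x = (W.comap φ).sub.valuation y) :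
    W.sub.valuation (φ x) = W.sub.valuation (φ y) := by
  have hy : y ≠ 0 := fun e => by simp [e, hx] at h
  have h1 : (W.comap φ).sub.valuation (x / y) = 1 := by
    rw [map_div₀, h, div_self ((Valuation.ne_zero_iff _).2 hy)]
  rw [(W.comap φ).valuation_eq_one_iff (div_ne_zero hx hy)] at h1
  have h2 : W.sub.valuation (φ (x / y)) = 1 :=
    (W.valuation_eq_one_iff ((map_ne_zero φ).2 (div_ne_zero hx hy))).2
      ⟨h1.1, by rw [← map_inv₀]; exact h1.2⟩
  rw [map_div₀, map_div₀, div_eq_one_iff_eq] at h2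
  · exact h2
  · exact (Valuation.ne_zero_iff _).2 ((map_ne_zero φ).2 hy)

end Val

variable (S : Setting K) [IsAlgClosed K]

omit [IsAlgClosed K] in
/-- The transcendence degree of the function field. -/
theorem GenericData.trdeg_eq (G : GenericData S) : Algebra.trdeg K G.KA = S.g := by
  obtain ⟨x, hx, halg⟩ := G.trdeg
  haveI : Algebra.IsAlgebraic (Algebra.adjoin K (Set.range x)) G.KA :=
    IntermediateField.isAlgebraic_adjoin_iff_top.1 halg
  have h := (hx.isTranscendenceBasis_iff_isAlgebraic.2 inferInstance).lift_cardinalMk_eq_trdeg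
  rw [Cardinal.mk_fin, Cardinal.lift_natCast, Cardinal.lift_id'] at h
  exact h.symm

/-- **Growth.** Quadraticity gives the degree of multiplication by `n`. -/
theorem finrank_eq_pow_of_quadratic (G : GenericData S) (P : Polarisation S G)
    (hquad : ∀ m : ℕ, QPrin fun W : Val K G.KA =>
      P.B.val (m • G.eta) W * P.B.val 0 W ^ (m ^ 2) / (P.B.val G.eta W ^ (m ^ 2) * P.B.val 0 W))
    {n : ℕ} (hn : (n : K) ≠ 0) (φ : G.KA →ₐ[K] G.KA) (hφ : S.map φ G.eta = n • G.eta)
    [FiniteDimensional φ.fieldRange G.KA] [Algebra.IsSeparable φ.fieldRange G.KA] :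
    Module.finrank φ.fieldRange G.KA = n ^ (2 * S.g) := by
  classical
  have hn0 : 0 < n := Nat.pos_of_ne_zero fun h => hn (by rw [h, Nat.cast_zero])
  obtain ⟨c, hc, hgam⟩ := P.gam_eta
  have hgam0 : ∀ W, P.gam W ≠ 0 := fun W e => by
    have := hgam W
    rw [e, mul_zero, map_zero, map_eq_zero] at this
    exact P.B.ne_zero _ _ this
  -- the value at the origin is a constant
  obtain ⟨c₀, hc₀, h0⟩ := P.B.natural (Algebra.ofId K G.KA) (0 : S.Pt K)
  rw [map_zero] at h0
  have hzero : ∀ W : Val K G.KA, W.sub.valuation (P.B.val (0 : S.Pt G.KA) W) =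
      W.sub.valuation c₀ := fun W => by
    rw [h0 W, map_mul, Algebra.ofId_apply, W.valuation_algebraMap (P.B.ne_zero _ _), mul_one]
  obtain ⟨c₂, hc₂, hnat⟩ := P.B.natural φ G.eta
  rw [hφ] at hnat
  obtain ⟨d, hd, c₁, hc₁, hq⟩ := hquad n
  set N := n ^ 2
  have hrelv : ∀ W : Val K G.KA, W.sub.valuation (φ (P.gam (W.comap φ)) ^ d) =
      W.sub.valuation
        (c₁ * (c ^ N * c₀) ^ d / (c₂ * φ c * c₀ ^ N) ^ d * P.gam W ^ (d * N)) := fun W => by
    have e1 := hq W
    have e2 := Val.valuation_eq_of_comap W φ (P.B.ne_zero _ _) (hgam (W.comap φ))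
    simp only [map_pow, map_div₀, map_mul, hnat W, e2, hgam W, hzero W] at e1 ⊢
    rw [← e1]
    have := (Valuation.ne_zero_iff W.sub.valuation).2 hc
    have := (Valuation.ne_zero_iff W.sub.valuation).2 hc₀
    have := (Valuation.ne_zero_iff W.sub.valuation).2 hc₂
    have := (Valuation.ne_zero_iff W.sub.valuation).2 ((map_ne_zero φ).2 hc)
    have := (Valuation.ne_zero_iff W.sub.valuation).2 (hgam0 W)
    rw [pow_mul', ← mul_pow, ← div_pow, ← mul_pow]
    congr 1
    rw [mul_pow]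
    field_simp
  -- total functions on valuation rings
  let γ : ValuationSubring G.KA → G.KA := fun W =>
    if h : ∀ a : K, algebraMap K G.KA a ∈ W then P.gam ⟨W, h⟩ else 0
  have hγ : ∀ W : Val K G.KA, γ W.sub = P.gam W := fun W => dif_pos W.algebraMap_mem
  haveI : Fintype (Set.range P.gam) := P.gam_finite.fintype
  obtain ⟨y, hy, hgens⟩ := P.gens
  rw [pow_mul]
  refine Growth.finrank_eq_pow (k := K) (G.trdeg_eq S) y hy γ
    (fun a : Set.range P.gam => (a : G.KA)) ?_ ?_ ?_ φ (e := d) (N := N)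
    (c := c₁ * (c ^ N * c₀) ^ d / (c₂ * φ c * c₀ ^ N) ^ d) hd (pow_pos hn0 2) ?_ ?_
  · rintro ⟨_, W, rfl⟩
    exact hgam0 W
  · intro W hW
    rw [show γ W = P.gam ⟨W, hW⟩ from hγ ⟨W, hW⟩]
    exact ⟨P.gam_mem ⟨W, hW⟩, ⟨_, Set.mem_range_self _⟩, rfl⟩
  · intro z hz
    obtain ⟨b, hb⟩ := hgens z hz
    refine ⟨b, fun W hW => ?_⟩
    rw [show γ W = P.gam ⟨W, hW⟩ from hγ ⟨W, hW⟩]
    exact hb ⟨W, hW⟩
  · refine div_ne_zero (mul_ne_zero hc₁ ?_) (pow_ne_zero _ ?_)
    · exact pow_ne_zero _ (mul_ne_zero (pow_ne_zero _ hc) hc₀)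
    · exact mul_ne_zero (mul_ne_zero hc₂ ((map_ne_zero φ).2 hc)) (pow_ne_zero _ hc₀)
  · intro W hW
    have h := hrelv ⟨W, hW⟩
    rw [show γ W = P.gam ⟨W, hW⟩ from hγ ⟨W, hW⟩,
      show γ (W.comap φ.toRingHom) = P.gam ((⟨W, hW⟩ : Val K G.KA).comap φ) from
        hγ ((⟨W, hW⟩ : Val K G.KA).comap φ)]
    set x := φ (P.gam ((⟨W, hW⟩ : Val K G.KA).comap φ)) ^ d
    set z := c₁ * (c ^ N * c₀) ^ d / (c₂ * φ c * c₀ ^ N) ^ d * P.gam ⟨W, hW⟩ ^ (d * N)
    have hx0 : x ≠ 0 := pow_ne_zero _ ((map_ne_zero φ).2 (hgam0 _))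
    have hz0 : z ≠ 0 := fun e => by
      rw [e, map_zero, map_eq_zero] at h
      exact hx0 h
    have h1 : W.valuation (x / z) = 1 := by
      rw [map_div₀, h, div_self ((Valuation.ne_zero_iff _).2 hz0)]
    obtain ⟨hm, hm'⟩ :=
      ((⟨W, hW⟩ : Val K G.KA).valuation_eq_one_iff (div_ne_zero hx0 hz0)).1 h1
    refine ⟨x / z, div_ne_zero hx0 hz0, hm, hm', ?_⟩
    rw [mul_assoc]
    exact (div_mul_cancel₀ x hz0).symm

end Fermat.Agent.AV

end
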