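import Fermat.Agent.AV.GrowthDegree

/-!
# Polynomial upper bound for spaces of functions with bounded poles

A family `L m` of functions on a finite separable extension of a rational function field in `g`
variables, whose members have poles bounded by `m` times fixed functions at every place, has
dimension `O(m ^ g)`: the traces against a basis of integral elements are polynomials of bounded
degree.
-/

set_option autoImplicit false
set_option linter.style.haveILetI false
set_option linter.unusedSectionVars false

noncomputable section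

namespace Fermat.Agent.AV.Growth

open MvPolynomial

section

variable {k : Type*} [Field k] {g : ℕ} {F : Type*} [Field F]
  [Algebra (MvPolynomial (Fin g) k) F] [FaithfulSMul (MvPolynomial (Fin g) k) F]
  {K₀ : Type*} [Field K₀] [Algebra (MvPolynomial (Fin g) k) K₀]
  [IsFractionRing (MvPolynomial (Fin g) k) K₀] [Algebra K₀ F]
  [IsScalarTower (MvPolynomial (Fin g) k) K₀ F]

local notation "P" => MvPolynomial (Fin g) k

/-- The reciprocal of a polynomial of positive degree. -/
abbrev pole (k : Type*) [Field k] (g : ℕ) : MvPolynomial (Fin g) k := ∏ i, MvPolynomial.X i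

theorem pole_ne_zero : pole k g ≠ 0 := Finset.prod_ne_zero_iff.2 fun i _ => X_ne_zero i

theorem totalDegree_pole : (pole k g).totalDegree = g := by
  suffices h : ∀ s : Finset (Fin g), (∏ i ∈ s, (MvPolynomial.X i : P)).totalDegree = s.card by
    rw [pole, h, Finset.card_univ, Fintype.card_fin]
  intro s
  induction s using Finset.induction_on with
  | empty => simp
  | insert a s ha ih =>
    rw [Finset.prod_insert ha, totalDegree_mul_of_isDomain (X_ne_zero a)
      (Finset.prod_ne_zero_iff.2 fun i _ => X_ne_zero i), ih, totalDegree_X,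
      Finset.card_insert_of_notMem ha, add_comm]

theorem totalDegree_pow' {p : P} (hp : p ≠ 0) (n : ℕ) :
    (p ^ n).totalDegree = n * p.totalDegree := by
  induction n with
  | zero => simp
  | succ n ih =>
    rw [pow_succ, totalDegree_mul_of_isDomain (pow_ne_zero _ hp) hp, ih, add_mul, one_mul]

theorem totalDegree_le_mul {p : P} : p.totalDegree ≤ p.totalDegree * g := by
  rcases Nat.eq_zero_or_pos g with rfl | hg
  · rw [eq_C_of_isEmpty p, totalDegree_C]
  · exact Nat.le_mul_of_pos_right _ hg

/-- Bound for the inverse of a function at the places above infinity. -/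
theorem exists_pole_bound [FiniteDimensional K₀ F] {e : F} (he : e ≠ 0) :
    ∃ M : ℕ, ∀ W : ValuationSubring F,
      (∀ c ∈ (degValFrac (k := k) (g := g) K₀).integer, algebraMap K₀ F c ∈ W) → e ∈ W →
        ∀ M' : ℕ, M ≤ M' → (algebraMap K₀ F (algebraMap P K₀ (pole k g)))⁻¹ ^ M' / e ∈ W := by
  classical
  set q := minpoly K₀ e
  have hint : IsIntegral K₀ e := IsIntegral.of_finite K₀ e
  have hq0 : q.coeff 0 ≠ 0 := minpoly.coeff_zero_ne_zero hint he
  obtain ⟨den, hden⟩ := IsLocalization.exist_integer_multiples (nonZeroDivisors P)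
    (Finset.range (q.natDegree + 1)) q.coeff
  have hden' : ∀ i, ∃ p : P, algebraMap P K₀ p = algebraMap P K₀ den * q.coeff i := by
    intro i
    by_cases hi : i ∈ Finset.range (q.natDegree + 1)
    · obtain ⟨p, hp⟩ := hden i hi
      exact ⟨p, hp.trans (Algebra.smul_def _ _)⟩
    · refine ⟨0, ?_⟩
      rw [Finset.mem_range, not_lt] at hi
      rw [q.coeff_eq_zero_of_natDegree_lt hi, map_zero, mul_zero]
  choose p hp using hden'
  set ι := algebraMap K₀ F
  set T := algebraMap P K₀ (pole k g) with hT
  have hT0 : T ≠ 0 := IsFractionRing.to_map_ne_zero_of_mem_nonZeroDivisors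
    (mem_nonZeroDivisors_of_ne_zero pole_ne_zero)
  have hden0 : algebraMap P K₀ den ≠ 0 := IsFractionRing.to_map_ne_zero_of_mem_nonZeroDivisors den.2
  have hp0 : algebraMap P K₀ (p 0) ≠ 0 := by rw [hp]; exact mul_ne_zero hden0 hq0
  refine ⟨(Finset.range (q.natDegree + 1)).sup fun i => (p i).totalDegree,
    fun W hW heW M hM => ?_⟩
  -- the cofactor of `e`
  set u : F := ∑ i ∈ Finset.range q.natDegree, ι (algebraMap P K₀ (p (i + 1)) * T⁻¹ ^ M) * e ^ i
    with hu
  have huW : u ∈ W := by
    refine sum_mem fun i hi => mul_mem (hW _ ?_) (pow_mem heW i)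
    rw [inv_pow, ← div_eq_mul_inv, hT, ← map_pow]
    refine degValFrac_le_one (pow_ne_zero _ pole_ne_zero) ?_
    rw [totalDegree_pow' pole_ne_zero, totalDegree_pole]
    refine totalDegree_le_mul.trans (Nat.mul_le_mul_right g (le_trans ?_ hM))
    exact Finset.le_sup (f := fun i => (p i).totalDegree)
      (Finset.mem_range.2 (Nat.succ_lt_succ (Finset.mem_range.1 hi)))
  have key : e * u = -(ι (algebraMap P K₀ (p 0) * T⁻¹ ^ M)) := by
    have h0 := minpoly.aeval K₀ e
    rw [Polynomial.aeval_eq_sum_range] at h0
    have h1 := congrArg (fun z => ι (algebraMap P K₀ den * T⁻¹ ^ M) * z) h0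
    simp only [mul_zero, Finset.mul_sum, Algebra.smul_def] at h1
    have h2 : ∀ i, ι (algebraMap P K₀ den * T⁻¹ ^ M) * (ι (q.coeff i) * e ^ i) =
        ι (algebraMap P K₀ (p i) * T⁻¹ ^ M) * e ^ i := fun i => by
      rw [hp, map_mul, map_mul, map_mul]; ring
    simp only [q] at h2
    rw [Finset.sum_congr rfl fun i _ => h2 i, Finset.sum_range_succ', pow_zero, mul_one] at h1
    rw [hu, Finset.mul_sum, eq_neg_iff_add_eq_zero, ← h1]
    congr 1
    exact Finset.sum_congr rfl fun i _ => by ring
  have hu0 : u ≠ 0 := fun h => by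
    rw [h, mul_zero, zero_eq_neg] at key
    exact mul_ne_zero hp0 (pow_ne_zero _ (inv_ne_zero hT0)) ((map_eq_zero ι).1 key)
  have hinv : (ι (algebraMap P K₀ (p 0)))⁻¹ ∈ W := by
    rw [← map_inv₀]
    refine hW _ ?_
    rw [inv_eq_one_div, ← map_one (algebraMap P K₀)]
    exact degValFrac_le_one (fun h => hp0 (by rw [h, map_zero])) (by simp)
  have hfin : (ι T)⁻¹ ^ M / e = -u * (ι (algebraMap P K₀ (p 0)))⁻¹ := by
    rw [map_mul, map_pow, map_inv₀] at key
    rw [div_eq_iff he]
    field_simp [(map_ne_zero ι).2 hp0] at key ⊢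
    linear_combination key
  rw [hfin]
  exact mul_mem (neg_mem huW) hinv

/-- A polynomial multiple bounds the inverse of a function over the affine part. -/
theorem exists_const_bound [FiniteDimensional K₀ F] {e : F} (he : e ≠ 0) :
    ∃ p : P, p ≠ 0 ∧ ∀ W : ValuationSubring F, (∀ q : P, algebraMap P F q ∈ W) → e ∈ W →
      algebraMap P F p / e ∈ W := by
  classical
  set q := minpoly K₀ e
  have hint : IsIntegral K₀ e := IsIntegral.of_finite K₀ e
  obtain ⟨den, hden⟩ := IsLocalization.exist_integer_multiples (nonZeroDivisors P)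
    (Finset.range (q.natDegree + 1)) q.coeff
  choose p hp using hden
  have h0mem : 0 ∈ Finset.range (q.natDegree + 1) := Finset.mem_range.2 (Nat.succ_pos _)
  let p' : ℕ → P := fun i => if h : i ∈ Finset.range (q.natDegree + 1) then p i h else 0
  have hp' : ∀ i ∈ Finset.range (q.natDegree + 1), algebraMap P F (p' i) =
      algebraMap P F den * algebraMap K₀ F (q.coeff i) := fun i hi => by
    simp only [p', dif_pos hi]
    rw [IsScalarTower.algebraMap_apply P K₀ F, hp i hi, Algebra.smul_def, map_mul,
      ← IsScalarTower.algebraMap_apply]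
  refine ⟨p' 0, fun h => ?_, fun W hW heW => ?_⟩
  · have h1 := hp 0 h0mem
    rw [show p 0 h0mem = p' 0 by simp only [p', dif_pos h0mem], h, map_zero, Algebra.smul_def,
      eq_comm, mul_eq_zero] at h1
    exact h1.elim (IsFractionRing.to_map_ne_zero_of_mem_nonZeroDivisors den.2)
      (minpoly.coeff_zero_ne_zero hint he)
  · set u : F := ∑ i ∈ Finset.range q.natDegree, algebraMap P F (p' (i + 1)) * e ^ i
    have huW : u ∈ W := sum_mem fun i _ => mul_mem (hW _) (pow_mem heW i)
    have key : e * u + algebraMap P F (p' 0) = 0 := by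
      have h0 := minpoly.aeval K₀ e
      rw [Polynomial.aeval_eq_sum_range] at h0
      have h1 := congrArg (fun z => algebraMap P F den * z) h0
      simp only [mul_zero, Finset.mul_sum, Algebra.smul_def, ← mul_assoc] at h1
      rw [Finset.sum_congr rfl fun i hi => congrArg (· * e ^ i) (hp' i hi).symm,
        Finset.sum_range_succ', pow_zero, mul_one] at h1
      rw [Finset.mul_sum, ← h1]
      congr 1
      exact Finset.sum_congr rfl fun i _ => by ring
    rw [show algebraMap P F (p' 0) / e = -u by
      rw [div_eq_iff he]; linear_combination key]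
    exact neg_mem huW

/-- Bound at infinity of a single function. -/
theorem exists_pole_bound' [FiniteDimensional K₀ F] (z : F) :
    ∃ M : ℕ, ∀ W : ValuationSubring F,
      (∀ c ∈ (degValFrac (k := k) (g := g) K₀).integer, algebraMap K₀ F c ∈ W) →
        z * (algebraMap K₀ F (algebraMap P K₀ (pole k g)))⁻¹ ^ M ∈ W := by
  rcases eq_or_ne z 0 with rfl | hz
  · exact ⟨0, fun W _ => by simp⟩
  obtain ⟨M, hM⟩ := exists_pole_bound (k := k) (g := g) (K₀ := K₀) (inv_ne_zero hz)
  refine ⟨M, fun W hW => ?_⟩
  have hpole : (algebraMap K₀ F (algebraMap P K₀ (pole k g)))⁻¹ ∈ W := by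
    rw [← map_inv₀]
    refine hW _ ?_
    rw [inv_eq_one_div, ← map_one (algebraMap P K₀)]
    exact degValFrac_le_one pole_ne_zero (by simp)
  rcases W.mem_or_inv_mem z with h | h
  · exact mul_mem h (pow_mem hpole M)
  · have := hM W hW h M le_rfl
    rwa [div_inv_eq_mul, mul_comm] at this

/-- **Upper bound.** -/
theorem exists_finrank_le [Algebra k F] [IsScalarTower k P F] [FiniteDimensional K₀ F]
    [Algebra.IsSeparable K₀ F] (L : ℕ → Submodule k F)
    {ι : Type*} [Fintype ι] (e : ι → F) (he0 : ∀ a, e a ≠ 0)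
    (he : ∀ W : ValuationSubring F, (∀ c : k, algebraMap k F c ∈ W) →
      ∃ a, e a ∈ W ∧ ∀ m, ∀ f ∈ L m, f * e a ^ m ∈ W) :
    ∃ C : ℕ, ∀ m, Module.Finite k (L m) ∧ Module.finrank k (L m) ≤ C * (m + 1) ^ g := by
  classical
  letI : Algebra k K₀ := ((algebraMap P K₀).comp (algebraMap k P)).toAlgebra
  haveI : IsScalarTower k P K₀ := IsScalarTower.of_algebraMap_eq' rfl
  haveI : IsScalarTower k K₀ F := IsScalarTower.of_algebraMap_eq fun c => by
    rw [IsScalarTower.algebraMap_apply k P F, IsScalarTower.algebraMap_apply P K₀ F]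
    rfl
  have hkP : ∀ c : k, algebraMap k F c = algebraMap P F (algebraMap k P c) := fun c =>
    IsScalarTower.algebraMap_apply k P F c
  -- constants
  choose M hM using fun a => exists_pole_bound (k := k) (g := g) (K₀ := K₀) (he0 a)
  choose p0 hp00 hp0 using fun a => exists_const_bound (k := k) (g := g) (K₀ := K₀) (he0 a)
  set C₁ := Finset.univ.sup M
  set Q₀ := ∏ a, p0 a with hQ₀
  have hQne : Q₀ ≠ 0 := Finset.prod_ne_zero_iff.2 fun a _ => hp00 a
  set δ := Q₀.totalDegree
  set d := Module.finrank K₀ F
  let B₀ : Module.Basis (Fin d) K₀ F := Module.finBasis K₀ F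
  have hscale : ∀ l, ∃ s : nonZeroDivisors P, IsIntegral P ((s : P) • B₀ l) := fun l => by
    obtain ⟨⟨s, hs⟩, hs'⟩ := IsIntegral.exists_multiple_integral_of_isLocalization
      (R := P) (Rₘ := K₀) (nonZeroDivisors P) (B₀ l) (IsIntegral.of_finite K₀ _)
    exact ⟨⟨s, hs⟩, hs'⟩
  choose sc hsc using hscale
  choose M' hM' using fun l : Fin d =>
    exists_pole_bound' (k := k) (g := g) (K₀ := K₀) ((sc l : P) • B₀ l)
  set C₂ := Finset.univ.sup M'
  set C' := C₁ * g + δ * g + C₂ * g + 1
  refine ⟨d * C' ^ g, fun m => ?_⟩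
  set J := C₁ * m + δ * m + C₂ with hJ
  set s := J * g + 1 with hs
  have hsle : s ≤ C' * (m + 1) :=
    Nat.le.intro (k := C₁ * g + δ * g + C₂ * g * m + m) (by simp only [C', hs, hJ]; ring)
  set T := algebraMap P K₀ (pole k g) with hT
  -- the traces are polynomials of bounded degree
  have hTr : ∀ (f : L m) (l : Fin d), ∃ D : P, D.totalDegree < s ∧ algebraMap P K₀ D =
      Algebra.trace K₀ F ((f : F) * algebraMap P F Q₀ ^ m * ((sc l : P) • B₀ l)) := by
    intro f l
    set z := (f : F) * algebraMap P F Q₀ ^ m with hz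
    have hz' : IsIntegral P z := by
      have hx : z ∈ (⨅ V : {V : ValuationSubring F //
          Set.range (algebraMap P F) ⊆ V.toSubring}, V.1.toSubring) :=
        Subring.mem_iInf.2 fun ⟨V, hV⟩ => by
          have hVP : ∀ q : P, algebraMap P F q ∈ V := fun q => hV ⟨q, rfl⟩
          obtain ⟨a, ha, hLa⟩ := he V fun c => hkP c ▸ hVP _
          have hq : algebraMap P F Q₀ / e a ∈ V := by
            rw [hQ₀, ← Finset.mul_prod_erase _ _ (Finset.mem_univ a), map_mul, mul_comm,
              mul_div_assoc]
            exact mul_mem (hVP _) (hp0 a V hVP ha)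
          have := mul_mem (hLa m f f.2) (pow_mem hq m)
          rwa [div_pow, mul_assoc, mul_div_cancel₀ _ (pow_ne_zero _ (he0 a))] at this
      rw [iInf_valuationSubring_superset] at hx
      obtain ⟨q, hq, hqx⟩ := hx
      have hcl : Subring.closure (Set.range (algebraMap P F)) = (algebraMap P F).range := by
        rw [← RingHom.coe_range, Subring.closure_eq]
      obtain ⟨q', hq', -, hqm⟩ := Polynomial.lifts_and_degree_eq_and_monic
        (f := algebraMap P F) (p := q.map (Subring.closure (Set.range (algebraMap P F))).subtype)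
        ((Polynomial.lifts_iff_coeff_lifts _).2 fun n => by
          rw [Polynomial.coeff_map]
          exact (hcl ▸ (q.coeff n).2 : ((q.coeff n : F)) ∈ (algebraMap P F).range))
        (hq.map _)
      refine ⟨q', hqm, ?_⟩
      rw [Polynomial.eval₂_eq_eval_map] at hqx ⊢
      rw [hq']
      exact hqx
    obtain ⟨D, hD⟩ := IsIntegrallyClosed.isIntegral_iff.1
      (Algebra.isIntegral_trace (L := K₀) (F := F) (hz'.mul (hsc l)))
    refine ⟨D, ?_, hD⟩
    have hint := trace_mem_integer (k := k) (g := g) (K₀ := K₀)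
      (x := T⁻¹ ^ J • (z * ((sc l : P) • B₀ l))) fun W hW => by
        have hk : ∀ c : k, algebraMap k F c ∈ W := fun c => by
          have := hW _ (degValFrac_le_one (K₀ := K₀) (p := C c) (q := (1 : P)) one_ne_zero
            (by simp))
          rwa [map_one, div_one, ← IsScalarTower.algebraMap_apply P K₀ F,
            ← MvPolynomial.algebraMap_eq, ← IsScalarTower.algebraMap_apply k P F] at this
        obtain ⟨a, ha, hLa⟩ := he W hk
        have h1 := mul_mem (hLa m f f.2)
          (pow_mem (hM a W hW ha C₁ (Finset.le_sup (f := M) (Finset.mem_univ a))) m)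
        rw [div_pow, ← pow_mul, mul_assoc, mul_div_cancel₀ _ (pow_ne_zero _ (he0 a))] at h1
        have h2 : algebraMap K₀ F (algebraMap P K₀ Q₀ / algebraMap P K₀ (pole k g ^ δ)) ^ m ∈ W := by
          refine pow_mem (hW _ (degValFrac_le_one (pow_ne_zero _ pole_ne_zero) ?_)) m
          rw [totalDegree_pow' pole_ne_zero, totalDegree_pole]
          exact totalDegree_le_mul
        have hpole : (algebraMap K₀ F T)⁻¹ ∈ W := by
          rw [← map_inv₀]
          refine hW _ ?_
          rw [inv_eq_one_div, ← map_one (algebraMap P K₀), hT]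
          exact degValFrac_le_one pole_ne_zero (by simp)
        have h3 := mul_mem (mul_mem (mul_mem h1 h2) (hM' l W hW))
          (pow_mem hpole (C₂ - M' l))
        convert h3 using 1
        have hM'le : M' l ≤ C₂ := Finset.le_sup (f := M') (Finset.mem_univ l)
        obtain ⟨r, hr⟩ := Nat.le.dest hM'le
        rw [Algebra.smul_def, map_pow, map_inv₀, map_div₀, map_pow, map_pow, ← hT,
          ← IsScalarTower.algebraMap_apply P K₀ F Q₀, hJ, ← hr, Nat.add_sub_cancel_left, hz,
          pow_add, pow_add, pow_add, div_eq_mul_inv, mul_pow, ← inv_pow, ← pow_mul]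
        ring
    rw [map_smul, smul_eq_mul, ← hD, inv_pow, ← div_eq_inv_mul, hT, ← map_pow] at hint
    rcases eq_or_ne D 0 with h0 | h0
    · rw [h0, totalDegree_zero]; exact Nat.succ_pos _
    have := totalDegree_le_of_mem_integer h0 (pow_ne_zero _ pole_ne_zero) hint
    rw [totalDegree_pow' pole_ne_zero, totalDegree_pole] at this
    omega
  choose Dt hDdeg hDeq using hTr
  have hinj : Function.Injective (algebraMap P K₀) := IsFractionRing.injective P K₀
  let toPoly : L m →ₗ[k] (Fin d → P) :=
    { toFun := Dt
      map_add' := fun f f' => funext fun l => hinj (by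
        rw [Pi.add_apply, map_add, hDeq, hDeq, hDeq, Submodule.coe_add, ← map_add, add_mul,
          add_mul])
      map_smul' := fun c f => funext fun l => hinj (by
        rw [Pi.smul_apply, RingHom.id_apply, hDeq, Algebra.smul_def c (Dt f l), RingHom.map_mul, hDeq,
          ← IsScalarTower.algebraMap_apply k P K₀, Submodule.coe_smul, ← Algebra.smul_def c,
          smul_mul_assoc, smul_mul_assoc, LinearMap.map_smul_of_tower]) }
  let Φ : L m →ₗ[k] (Fin d × (Fin g → Fin s) → k) :=
    { toFun := fun f z => coeff (Finsupp.equivFunOnFinite.symm fun i => (z.2 i : ℕ)) (toPoly f z.1)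
      map_add' := fun f f' => funext fun z => by simp [coeff_add]
      map_smul' := fun c f => funext fun z => by simp [coeff_smul] }
  have hΦ : Function.Injective Φ := by
    rw [injective_iff_map_eq_zero]
    intro f hf
    have hD0 : ∀ l, Dt f l = 0 := fun l => by
      by_contra hne
      obtain ⟨x, hx⟩ := Finset.nonempty_iff_ne_empty.2 (mt MvPolynomial.support_eq_empty.1 hne)
      have hxi : ∀ i, x i < s := fun i =>
        lt_of_le_of_lt ((Finsupp.le_degree i x).trans (by
          rw [Finsupp.degree_apply]; exact le_totalDegree hx)) (hDdeg f l)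
      have h0 := congrFun hf (l, fun i => ⟨x i, hxi i⟩)
      rw [mem_support_iff] at hx
      exact hx (by simpa [Φ, toPoly] using h0)
    set z := (f : F) * algebraMap P F Q₀ ^ m with hz
    have h1 : ∀ y : F, Algebra.trace K₀ F (z * y) = 0 := fun y => by
      rw [← B₀.sum_repr y, Finset.mul_sum, map_sum]
      refine Finset.sum_eq_zero fun l _ => ?_
      have h2 := hDeq f l
      rw [hD0, map_zero, ← hz, Algebra.smul_def, IsScalarTower.algebraMap_apply P K₀ F,
        ← Algebra.smul_def, mul_smul_comm, map_smul, smul_eq_mul, eq_comm, mul_eq_zero] at h2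
      rw [mul_smul_comm, map_smul, h2.resolve_left
        (IsFractionRing.to_map_ne_zero_of_mem_nonZeroDivisors (sc l).2), smul_zero]
    have h3 := (traceForm_nondegenerate K₀ F).1 z h1
    rw [hz, mul_eq_zero] at h3
    refine Subtype.ext (h3.resolve_right (pow_ne_zero _ ?_))
    exact (map_ne_zero_iff _ (FaithfulSMul.algebraMap_injective P F)).2 hQne
  refine ⟨Module.Finite.of_injective Φ hΦ, (LinearMap.finrank_le_finrank_of_injective hΦ).trans ?_⟩
  rw [Module.finrank_fintype_fun_eq_card, Fintype.card_prod, Fintype.card_fun, Fintype.card_fin,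
    Fintype.card_fin, Fintype.card_fin, mul_assoc, ← mul_pow]
  exact Nat.mul_le_mul_left _ (Nat.pow_le_pow_left hsle g)

end

end Fermat.Agent.AV.Growth

end
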