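import Fermat.Agent.AV.Translate

/-!
# An abelian variety over an algebraically closed field is integral

It is reduced as it is smooth, and irreducible as it is connected and homogeneous.
-/

set_option autoImplicit false

noncomputable section

universe u

open CategoryTheory CategoryTheory.Limits AlgebraicGeometry NeronModelInfra GoodReductionJacobian
open TopologicalSpace

namespace Fermat.Agent.AV

/-- A standard smooth algebra over a field is reduced. -/
theorem isReduced_of_isStandardSmooth {R B : Type u} [CommRing R] [CommRing B] (hR : IsField R)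
    {φ : R →+* B} (hφ : φ.IsStandardSmooth) : _root_.IsReduced B := by
  obtain ⟨n, g, -, hg⟩ := hφ.exists_etale_mvPolynomial
  let := hR.toField
  let P := MvPolynomial (Fin n) R
  algebraize [g]
  have : Module.Flat P B := inferInstance
  let F := FractionRing P
  have : _root_.IsReduced (TensorProduct P F B) :=
    Algebra.FormallyUnramified.isReduced_of_field F (TensorProduct P F B)
  exact isReduced_of_injective
    (Algebra.TensorProduct.includeRight (R := P) (A := F) (B := B))
    (Algebra.TensorProduct.includeRight_injective (IsFractionRing.injective P F))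

variable {K : Type u} [Field K] {A : Scheme.{u}} (f : A ⟶ Spec (CommRingCat.of K))

theorem isReduced_of_smooth [Smooth f] : IsReduced A := by
  have (x : A) : _root_.IsReduced (A.presheaf.stalk x) := by
    obtain ⟨U, hU, V, hV, hx, e, h⟩ := Smooth.exists_isStandardSmooth f x
    obtain rfl : U = ⊤ := top_le_iff.mp fun y _ => by
      rw [Subsingleton.elim y (f x)]
      exact e hx
    have hK : IsField Γ(Spec (CommRingCat.of K), ⊤) :=
      MulEquiv.isField (Field.toIsField K)
        (Scheme.ΓSpecIso (CommRingCat.of K)).commRingCatIsoToRingEquiv.toMulEquiv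
    have hred := isReduced_of_isStandardSmooth hK h
    let := A.presheaf.algebra_section_stalk (⟨x, hx⟩ : V)
    have := hV.isLocalization_stalk ⟨x, hx⟩
    exact isReduced_localizationPreserves (hV.primeIdealOf ⟨x, hx⟩).asIdeal.primeCompl
      (A.presheaf.stalk x) hred
  exact isReduced_of_isReduced_stalk _

variable {f}

section

variable [IsAlgClosed K] [LocallyOfFiniteType f]

/-- The closed point of a rational point. -/
def ptPoint (a : Pt f) : A := a.1 (IsLocalRing.closedPoint K)

theorem exists_pt {x : A} (hx : IsClosed {x}) : ∃ a : Pt f, ptPoint a = x :=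
  ⟨(pointEquivClosedPoint f).symm ⟨x, hx⟩, congrArg Subtype.val
    ((pointEquivClosedPoint f).apply_symm_apply ⟨x, hx⟩)⟩

omit [IsAlgClosed K] [LocallyOfFiniteType f] in
theorem trans_ptPoint (L : RelativeGroupLaw K f) (x a : Pt f) :
    trans L a (ptPoint x) = ptPoint (L.mul (𝟙 _) x a) := by
  show trans L a (x.1 _) = (L.mul (𝟙 _) x a).1 _
  rw [← pt_comp_trans L x a]; exact (Scheme.Hom.comp_apply _ _ _).symm

/-- Translations are transitive on the closed points. -/
theorem exists_trans_eq (L : RelativeGroupLaw K f) {x y : A} (hx : IsClosed {x})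
    (hy : IsClosed {y}) : ∃ a : Pt f, trans L a x = y := by
  obtain ⟨a, rfl⟩ := exists_pt (f := f) hx
  obtain ⟨b, rfl⟩ := exists_pt (f := f) hy
  refine ⟨L.mul (𝟙 _) (L.inv (𝟙 _) a) b, ?_⟩
  rw [trans_ptPoint, ← L.mul_assoc, L.mul_inv_cancel, L.one_mul]

end

/-- A homogeneous connected space of finite type over a field is irreducible. -/
theorem irreducibleSpace_of_group [IsAlgClosed K] [LocallyOfFiniteType f] [QuasiCompact f]
    (L : RelativeGroupLaw K f) (hconn : _root_.IsConnected (Set.univ : Set A)) :
    IrreducibleSpace A := by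
  classical
  have : IsLocallyNoetherian A := LocallyOfFiniteType.isLocallyNoetherian f
  have : CompactSpace A := QuasiCompact.compactSpace_of_compactSpace f
  have : IsNoetherian A := ⟨⟩
  have : JacobsonSpace A := LocallyOfFiniteType.jacobsonSpace f
  have hfin : (irreducibleComponents A).Finite := finite_irreducibleComponents_of_isNoetherian
  obtain ⟨z, -⟩ := hconn.nonempty
  let C := irreducibleComponent z
  have hC : C ∈ irreducibleComponents A := irreducibleComponent_mem_irreducibleComponents z
  let U : Set A := (⋃ D ∈ irreducibleComponents A \ {C}, D)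
  have hUc : IsClosed U := (hfin.sdiff).isClosed_biUnion
    fun D hD => isClosed_of_mem_irreducibleComponents D hD.1
  have hne : (C ∩ Uᶜ).Nonempty := by
    rw [Set.nonempty_iff_ne_empty]
    intro h
    have hsub : C ⊆ ⋃₀ (irreducibleComponents A \ {C}) := fun w hw => by
      have hw' : w ∈ U := by_contra fun h' => (h ▸ (⟨hw, h'⟩ : w ∈ C ∩ Uᶜ) : w ∈ (∅ : Set A))
      simpa [U, Set.sUnion_eq_biUnion] using hw'
    obtain ⟨D, hD, hCD⟩ := (isIrreducible_iff_sUnion_isClosed.mp hC.1) (hfin.sdiff).toFinset
      (fun D hD => isClosed_of_mem_irreducibleComponents D ((Set.Finite.mem_toFinset _).mp hD).1)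
      (by rwa [Set.Finite.coe_toFinset])
    rw [Set.Finite.mem_toFinset] at hD
    exact hD.2 (Set.Subset.antisymm (hC.2 hD.1.1 hCD) hCD)
  obtain ⟨x, ⟨hxC, hxU⟩, hx⟩ := nonempty_inter_closedPoints hne
    ((isClosed_of_mem_irreducibleComponents C hC).isLocallyClosed.inter
      hUc.isOpen_compl.isLocallyClosed)
  have huniq : ∀ D ∈ irreducibleComponents A, ∀ E ∈ irreducibleComponents A, D ≠ E →
      Disjoint D E := by
    intro D hD E hE hne'
    rw [Set.disjoint_iff_inter_eq_empty, ← Set.not_nonempty_iff_eq_empty]
    intro h
    obtain ⟨y, ⟨hyD, hyE⟩, hy⟩ := nonempty_inter_closedPoints h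
      ((isClosed_of_mem_irreducibleComponents D hD).inter
        (isClosed_of_mem_irreducibleComponents E hE)).isLocallyClosed
    obtain ⟨a, ha⟩ := exists_trans_eq L hx hy
    let e := (trans L a).homeomorph
    have key : ∀ F ∈ irreducibleComponents A, y ∈ F → e ⁻¹' F = C := by
      intro F hF hyF
      have hF' : e ⁻¹' F ∈ irreducibleComponents A :=
        preimage_mem_irreducibleComponents hF e.isOpenEmbedding ⟨y, hyF, x, ha⟩
      by_contra hFC
      exact hxU (Set.mem_biUnion ⟨hF', hFC⟩ (show e x ∈ F by
        rw [show e x = y from ha]; exact hyF))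
    exact hne' (e.surjective.preimage_injective ((key D hD hyD).trans (key E hE hyE).symm))
  have hopen : IsOpen C := by
    have : C = Uᶜ := Set.Subset.antisymm
      (fun w hw hwU => by
        obtain ⟨D, hD, hwD⟩ := Set.mem_iUnion₂.mp hwU
        exact Set.disjoint_left.mp (huniq D hD.1 C hC hD.2) hwD hw)
      (fun w hw => by
        by_contra hwC
        exact hw (Set.mem_biUnion ⟨irreducibleComponent_mem_irreducibleComponents w,
          fun h => hwC ((Set.mem_singleton_iff.mp h) ▸ mem_irreducibleComponent)⟩
          mem_irreducibleComponent))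
    rw [this]; exact hUc.isOpen_compl
  have huniv : C = Set.univ := by
    refine Set.eq_univ_of_univ_subset ?_
    exact hconn.isPreconnected.subset_isClopen
      ⟨isClosed_of_mem_irreducibleComponents C hC, hopen⟩ ⟨z, trivial, mem_irreducibleComponent⟩
  refine (irreducibleSpace_def A).mpr ?_
  rw [show (⊤ : Set A) = C from huniv.symm]
  exact hC.1

/-- **Integrality.** -/
theorem isIntegral_of_bundle [IsAlgClosed K] (L : RelativeGroupLaw K f)
    (hA : AbelianSchemePropertyBundle K f) : IsIntegral A := by
  have := hA.smooth
  have := hA.proper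
  have := isReduced_of_smooth f
  have : IrreducibleSpace A := irreducibleSpace_of_group L (by
    have h := hA.connectedFibres (IsLocalRing.closedPoint K)
    convert h
    exact (Set.eq_univ_of_forall fun x => Subsingleton.elim (f x) _).symm)
  exact isIntegral_of_irreducibleSpace_of_isReduced A

end Fermat.Agent.AV

end
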