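import Fermat.Agent.AV.Etale
import Fermat.Agent.AV.Integral

/-!
# Multiplication by `n` is an isogeny

It is finite étale and surjective, of constant rank, equal to the number of its torsion points.
-/

set_option autoImplicit false

noncomputable section

universe u

open CategoryTheory CategoryTheory.Limits AlgebraicGeometry NeronModelInfra GoodReductionJacobian

namespace Fermat.Agent.AV

variable {K : Type u} [Field K] {A : Scheme.{u}} {f : A ⟶ Spec (CommRingCat.of K)}
  (L : RelativeGroupLaw K f) (g : ℕ) [SmoothOfRelativeDimension g f] [IsAlgClosed K]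

section

variable (hc : L.IsCommutative) (hA : AbelianSchemePropertyBundle K f) {n : ℕ} (hn : (n : K) ≠ 0)

omit [IsAlgClosed K] in
include hA in
theorem isProper_schemeNsmul : IsProper (L.schemeNsmul n) := by
  have := hA.proper
  have : IsProper (L.schemeNsmul n ≫ f) := by
    rw [RelativeGroupLaw.schemeNsmul_over]; infer_instance
  exact IsProper.of_comp _ f

include g hc hA hn

/-- It is finite. -/
theorem isFinite_schemeNsmul : IsFinite (L.schemeNsmul n) := by
  have := isProper_schemeNsmul L hA (n := n)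
  have := etale_schemeNsmul L g hc hn
  have : LocallyQuasiFinite (L.schemeNsmul n) := by
    rw [HasRingHomProperty.iff_appLE (P := @LocallyQuasiFinite)]
    intro U V e
    have h1 := (L.schemeNsmul n).formallyUnramified_appLE U.2 V.2 e
    have h2 := (L.schemeNsmul n).finiteType_appLE U.2 V.2 e
    let := ((L.schemeNsmul n).appLE U.1 V.1 e).hom.toAlgebra
    have : Algebra.FormallyUnramified Γ(A, U.1) Γ(A, V.1) := h1
    have : Algebra.FiniteType Γ(A, U.1) Γ(A, V.1) := h2
    show Algebra.QuasiFinite Γ(A, U.1) Γ(A, V.1)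
    infer_instance
  exact IsFinite.of_isProper_of_locallyQuasiFinite _

/-- It is surjective. -/
theorem surjective_schemeNsmul : Surjective (L.schemeNsmul n) := by
  have := isIntegral_of_bundle L hA
  have := isProper_schemeNsmul L hA (n := n)
  have := etale_schemeNsmul L g hc hn
  refine ⟨Set.range_eq_univ.mp ?_⟩
  refine IsClopen.eq_univ ⟨(L.schemeNsmul n).isClosedMap.isClosed_range,
    (L.schemeNsmul n).isOpenMap.isOpen_range⟩ (Set.range_nonempty _)

/-- The degree is constant. -/
theorem finrank_schemeNsmul (x y : A) :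
    (L.schemeNsmul n).finrank x = (L.schemeNsmul n).finrank y := by
  have := isIntegral_of_bundle L hA
  have := etale_schemeNsmul L g hc hn
  have := isFinite_schemeNsmul L g hc hA hn
  exact (L.schemeNsmul n).isLocallyConstant_finrank.apply_eq_of_preconnectedSpace x y

end

/-- The sections of a finite étale scheme over an algebraically closed field are as many as its
rank. -/
theorem natCard_sections {P : Scheme.{u}} (φ : P ⟶ Spec (CommRingCat.of K)) [IsFinite φ] [Etale φ]
    (s : Spec (CommRingCat.of K)) :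
    Nat.card {p : Spec (CommRingCat.of K) ⟶ P // p ≫ φ = 𝟙 _} = φ.finrank s := by
  classical
  have : IsAffine P := isAffine_of_isAffineHom φ
  obtain ⟨ψ, hψ⟩ := Spec.map_surjective (P.isoSpec.inv ≫ φ)
  have hφ : φ = P.isoSpec.hom ≫ Spec.map ψ := by rw [hψ, Iso.hom_inv_id_assoc]
  have h1 : IsFinite (Spec.map ψ) := hψ ▸ inferInstance
  have h2 : Etale (Spec.map ψ) := hψ ▸ inferInstance
  rw [IsFinite.SpecMap_iff] at h1
  rw [HasRingHomProperty.Spec_iff (P := @Etale)] at h2
  let : Algebra K Γ(P, ⊤) := ψ.hom.toAlgebra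
  have : Module.Finite K Γ(P, ⊤) := h1
  have : Algebra.Etale K Γ(P, ⊤) := h2
  have : _root_.IsReduced Γ(P, ⊤) :=
    Algebra.FormallyUnramified.isReduced_of_field K Γ(P, ⊤)
  have : IsArtinianRing Γ(P, ⊤) := IsArtinianRing.of_finite K Γ(P, ⊤)
  have hrank : φ.finrank s = Module.finrank K Γ(P, ⊤) := by
    have hflat : Module.Flat K Γ(P, ⊤) := inferInstance
    have : IsFinite (Spec.map ψ) := hψ ▸ inferInstance
    have : Flat (Spec.map ψ) := hψ ▸ inferInstance
    rw [hφ, Scheme.Hom.finrank_comp_left_of_isIso]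
    exact (Scheme.Hom.finrank_SpecMap_algebraMap K Γ(P, ⊤) s).trans
      (by rw [Module.rankAtStalk_eq_finrank_of_free]; rfl)
  have hk : ∀ m : MaximalSpectrum Γ(P, ⊤), Module.finrank K (Γ(P, ⊤) ⧸ m.asIdeal) = 1 := by
    intro m
    let : Field (Γ(P, ⊤) ⧸ m.asIdeal) := Ideal.Quotient.field m.asIdeal
    rw [← Module.finrank_self K]
    exact ((AlgEquiv.ofBijective (Algebra.ofId K (Γ(P, ⊤) ⧸ m.asIdeal))
      IsAlgClosed.algebraMap_bijective_of_isIntegral).toLinearEquiv.finrank_eq).symm
  have : Fintype (MaximalSpectrum Γ(P, ⊤)) := Fintype.ofFinite _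
  have hpi : Module.finrank K Γ(P, ⊤) = Nat.card (MaximalSpectrum Γ(P, ⊤)) := by
    let e : Γ(P, ⊤) ≃ₐ[K] Π m : MaximalSpectrum Γ(P, ⊤), Γ(P, ⊤) ⧸ m.asIdeal :=
      AlgEquiv.ofBijective (AlgHom.pi fun m => Ideal.Quotient.mkₐ K m.asIdeal)
        (IsArtinianRing.equivPi Γ(P, ⊤)).bijective
    rw [e.toLinearEquiv.finrank_eq, Module.finrank_pi_fintype]
    simp [hk, Nat.card_eq_fintype_card]
  rw [hrank, hpi]
  have hclosed : closedPoints P = Set.univ := by
    refine Set.eq_univ_of_forall fun x => ?_
    have hx : (P.isoSpec.hom x : PrimeSpectrum Γ(P, ⊤)).asIdeal.IsMaximal :=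
      IsArtinianRing.isMaximal_of_isPrime _
    have h := ((PrimeSpectrum.isClosed_singleton_iff_isMaximal _).mpr hx).preimage
      P.isoSpec.hom.homeomorph.continuous
    rw [mem_closedPoints_iff]
    convert h using 1
    exact Set.ext fun y => (P.isoSpec.hom.homeomorph.injective.eq_iff (a := y) (b := x)).symm
  exact Nat.card_congr ((pointEquivClosedPoint φ).trans ((Equiv.setCongr hclosed).trans
    ((Equiv.Set.univ P).trans (P.isoSpec.hom.homeomorph.toEquiv.trans
      IsArtinianRing.primeSpectrumEquivMaximalSpectrum))))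

variable (hc : L.IsCommutative) (hA : AbelianSchemePropertyBundle K f) {n : ℕ} (hn : (n : K) ≠ 0)

include g hc hA hn

/-- **The torsion points count the degree.** -/
theorem natCard_torsion_eq_finrank (x : A) :
    Nat.card {a : Pt f // L.IsTorsionPoint (𝟙 _) n a} = (L.schemeNsmul n).finrank x := by
  have := etale_schemeNsmul L g hc hn
  have := isFinite_schemeNsmul L g hc hA hn
  let o := L.one (𝟙 (Spec (CommRingCat.of K)))
  let φ := pullback.snd (L.schemeNsmul n) o.1
  rw [← finrank_schemeNsmul L g hc hA hn (o.1 (IsLocalRing.closedPoint K)) x,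
    ← Scheme.Hom.finrank_pullback_snd (L.schemeNsmul n) o.1 (IsLocalRing.closedPoint K),
    ← natCard_sections φ (IsLocalRing.closedPoint K)]
  refine Nat.card_congr
    { toFun := fun a => ⟨pullback.lift a.1.1 (𝟙 _) (by
          rw [Category.id_comp, ← nsmul_comp L]; exact congrArg Subtype.val a.2),
        pullback.lift_snd _ _ _⟩
      invFun := fun p => ⟨⟨p.1 ≫ pullback.fst _ _, by
          calc (p.1 ≫ pullback.fst _ _) ≫ f
              = p.1 ≫ pullback.fst _ _ ≫ L.schemeNsmul n ≫ f := by
                rw [Category.assoc, L.schemeNsmul_over]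
            _ = p.1 ≫ φ ≫ o.1 ≫ f := by rw [pullback.condition_assoc]
            _ = 𝟙 _ := by rw [o.2, Category.comp_id]; exact p.2⟩, Subtype.ext (by
          rw [nsmul_comp, Category.assoc, pullback.condition, ← Category.assoc]
          show (p.1 ≫ φ) ≫ o.1 = o.1
          rw [p.2, Category.id_comp])⟩
      left_inv := fun a => Subtype.ext (Subtype.ext (pullback.lift_fst _ _ _))
      right_inv := fun p => Subtype.ext (pullback.hom_ext (pullback.lift_fst _ _ _)
        ((pullback.lift_snd _ _ _).trans p.2.symm)) }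

end Fermat.Agent.AV

end
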