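import Fermat.Agent.AV.Calculus

/-!
# The values of the bundle of a divisor at points

Evaluation of sections at points, points over valuation rings, and the line bundle of a divisor.
-/

set_option autoImplicit false
set_option linter.unusedSectionVars false

noncomputable section

universe u

open CategoryTheory CategoryTheory.Limits AlgebraicGeometry NeronModelInfra GoodReductionJacobian

namespace Fermat.Agent.AV

variable {K : Type u} [Field K]

namespace Setting

variable (S : Setting K) {R R' : Type u} [CommRing R] [Algebra K R] [CommRing R'] [Algebra K R']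

theorem map_coe (φ : R →ₐ[K] R') (a : S.Pt R) :
    (S.map φ a).1 = Spec.map (CommRingCat.ofHom φ.toRingHom) ≫ a.1 := rfl

theorem Mem.map {a : S.Pt R} {U : S.A.Opens} (h : S.Mem a U) (φ : R →ₐ[K] R') :
    S.Mem (S.map φ a) U := fun x _ => h (show (Spec.map (CommRingCat.ofHom φ.toRingHom)) x ∈ ⊤ from trivial)

theorem Mem.inf {a : S.Pt R} {U V : S.A.Opens} (h : S.Mem a U) (h' : S.Mem a V) :
    S.Mem a (U ⊓ V) := fun _ hx => ⟨h hx, h' hx⟩

theorem mem_iff [IsLocalRing R] (a : S.Pt R) (U : S.A.Opens) :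
    S.Mem a U ↔ a.1 (IsLocalRing.closedPoint R) ∈ U :=
  ⟨fun h => h trivial, fun h x _ => ((IsLocalRing.specializes_closedPoint x).map
    a.1.continuous).mem_open U.2 h⟩

theorem Mem.of_map [IsLocalRing R] [IsLocalRing R'] {φ : R →ₐ[K] R'} [IsLocalHom φ.toRingHom]
    {a : S.Pt R} {U : S.A.Opens} (h : S.Mem (S.map φ a) U) : S.Mem a U := by
  rw [mem_iff] at h ⊢
  have : IsLocalHom (CommRingCat.ofHom φ.toRingHom).hom := ‹_›
  rwa [map_coe, Scheme.Hom.comp_apply, Spec_closedPoint] at h

theorem exists_mem [IsLocalRing R] {n : ℕ} (U : Fin n → S.A.Opens) (hU : ∀ x : S.A, ∃ i, x ∈ U i)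
    (a : S.Pt R) : ∃ i, S.Mem a (U i) :=
  (hU (a.1 (IsLocalRing.closedPoint R))).imp fun _ h => (S.mem_iff a _).mpr h

theorem ev_res (a : S.Pt R) {U V : S.A.Opens} (hle : V ≤ U) (hV : S.Mem a V) (x : Γ(S.A, U)) :
    S.ev a hV (S.res hle x) = S.ev a (hV.trans (fun _ h => hle h)) x := by
  show ((S.A.presheaf.map (homOfLE hle).op) ≫ a.1.appLE V ⊤ hV ≫ (Scheme.ΓSpecIso _).hom).hom x = _
  rw [Scheme.Hom.map_appLE_assoc]
  rfl

theorem ev_map (φ : R →ₐ[K] R') (a : S.Pt R) {U : S.A.Opens} (h : S.Mem a U)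
    (h' : S.Mem (S.map φ a) U) (x : Γ(S.A, U)) :
    S.ev (S.map φ a) h' x = φ (S.ev a h x) := by
  show (((Spec.map (CommRingCat.ofHom φ.toRingHom)) ≫ a.1).appLE U ⊤ h' ≫
      (Scheme.ΓSpecIso _).hom).hom x =
    ((a.1.appLE U ⊤ h ≫ (Scheme.ΓSpecIso _).hom) ≫ CommRingCat.ofHom φ.toRingHom).hom x
  congr 2
  rw [Category.assoc, ← Scheme.ΓSpecIso_naturality,
    ← Scheme.Hom.appLE_comp_appLE _ _ U ⊤ ⊤ h (by simp), Category.assoc]
  congr 2

variable {M : Type u} [Field M] [Algebra K M]

instance valCommSq_fractionRing (W : Val K M) : IsFractionRing W.sub M :=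
  inferInstanceAs (IsFractionRing W.sub M)

/-- Points extend to valuation rings. -/
theorem exists_lift (W : Val K M) (a : S.Pt M) : ∃ c : S.Pt W.sub, S.map W.incl c = a := by
  have w : a.1 ≫ S.f = Spec.map (CommRingCat.ofHom (algebraMap W.sub M)) ≫ str K W.sub := by
    rw [a.2, ← Spec.map_comp]
    rfl
  have hex : ValuativeCriterion.Existence S.f := by
    have h : UniversallyClosed S.f := inferInstance
    rw [UniversallyClosed.eq_valuativeCriterion] at h
    exact h.1
  obtain ⟨l, h1, h2⟩ := (hex { R := W.sub, K := M, i₁ := a.1, i₂ := str K W.sub, commSq := ⟨w⟩ }).exists_lift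
  exact ⟨⟨l, h2⟩, Subtype.ext h1⟩

/-- Points over valuation rings are determined by their generic values. -/
theorem lift_unique {W : Val K M} {c c' : S.Pt W.sub} (h : S.map W.incl c = S.map W.incl c') :
    c = c' := by
  have w : (S.map W.incl c).1 ≫ S.f = Spec.map (CommRingCat.ofHom (algebraMap W.sub M)) ≫ str K W.sub := by
    rw [(S.map W.incl c).2, ← Spec.map_comp]
    rfl
  let Q : ValuativeCommSq S.f :=
    { R := W.sub, K := M, i₁ := (S.map W.incl c).1, i₂ := str K W.sub, commSq := ⟨w⟩ }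
  have := IsSeparated.valuativeCriterion S.f Q
  have e := Subsingleton.elim (α := Q.commSq.LiftStruct) ⟨c.1, rfl, c.2⟩
    ⟨c'.1, congrArg Subtype.val h.symm, c'.2⟩
  exact Subtype.ext (congrArg CommSq.LiftStruct.l e)

/-- The point over a valuation ring. -/
def liftPt (a : S.Pt M) (W : Val K M) : S.Pt W.sub := (S.exists_lift W a).choose

theorem map_liftPt (a : S.Pt M) (W : Val K M) : S.map W.incl (S.liftPt a W) = a :=
  (S.exists_lift W a).choose_spec

end Setting

namespace Val

variable {M N : Type u} [Field M] [Algebra K M] [Field N] [Algebra K N]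

/-- The map between restricted valuation rings. -/
def comapHom (W : Val K N) (φ : M →ₐ[K] N) : (W.comap φ).sub →ₐ[K] W.sub where
  toFun x := ⟨φ x, x.2⟩
  map_one' := Subtype.ext (map_one φ)
  map_mul' x y := Subtype.ext (map_mul φ (x : M) y)
  map_zero' := Subtype.ext (map_zero φ)
  map_add' x y := Subtype.ext (map_add φ (x : M) y)
  commutes' k := Subtype.ext (φ.commutes k)

theorem incl_comapHom (W : Val K N) (φ : M →ₐ[K] N) :
    W.incl.comp (W.comapHom φ) = φ.comp (W.comap φ).incl := rfl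

end Val

namespace Place

variable {M N L : Type u} [Field M] [Algebra K M] [Field N] [Algebra K N] [Field L] [Algebra K L]
variable (P : Place K M N)

/-- The inclusion of a composed valuation ring. -/
def compIncl (W : Val K N) : (P.compVal W).sub →ₐ[K] P.val.sub where
  toFun x := ⟨x, P.compVal_le W x.2⟩
  map_one' := rfl
  map_mul' _ _ := rfl
  map_zero' := rfl
  map_add' _ _ := rfl
  commutes' _ := rfl

theorem hom_compIncl_mem (W : Val K N) (x : (P.compVal W).sub) :
    P.hom (P.compIncl W x) ∈ W.sub :=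
  (P.coe_mem_compVal_iff W).mp x.2

/-- The reduction of a composed valuation ring. -/
def compRed (W : Val K N) : (P.compVal W).sub →ₐ[K] W.sub where
  toFun x := ⟨P.hom (P.compIncl W x), P.hom_compIncl_mem W x⟩
  map_one' := Subtype.ext (by simp [map_one])
  map_mul' x y := Subtype.ext (by simp [map_mul])
  map_zero' := Subtype.ext (by simp [map_zero])
  map_add' x y := Subtype.ext (by simp [map_add])
  commutes' k := Subtype.ext (P.hom.commutes k)

theorem isLocalHom_compRed (W : Val K N) : IsLocalHom (P.compRed W).toRingHom := ⟨fun x hx => by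
  obtain ⟨y, hy⟩ := isUnit_iff_exists_inv.mp hx
  have e : P.hom (P.compIncl W x) * (y : N) = 1 := congrArg Subtype.val hy
  obtain ⟨u, hu⟩ := (P.hom_ne_zero_iff _).mp (left_ne_zero_of_mul_eq_one e)
  have hu' : P.hom (↑u⁻¹ : P.val.sub) = y := by
    have e' : P.hom (↑u⁻¹ : P.val.sub) * P.hom (P.compIncl W x) = 1 := by
      rw [← hu, ← map_mul, u.inv_mul, map_one]
    calc P.hom (↑u⁻¹ : P.val.sub)
        = P.hom (↑u⁻¹ : P.val.sub) * (P.hom (P.compIncl W x) * (y : N)) := by rw [e, mul_one]
      _ = y := by rw [← mul_assoc, e', one_mul]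
  refine isUnit_iff_exists_inv.mpr ⟨⟨((↑u⁻¹ : P.val.sub) : M),
    (P.coe_mem_compVal_iff W).mpr (hu' ▸ y.2)⟩, Subtype.ext ?_⟩
  show (x : M) * ((↑u⁻¹ : P.val.sub) : M) = 1
  rw [show (x : M) = ((u : P.val.sub) : M) from congrArg (fun z : P.val.sub => (z : M)) hu.symm]
  exact congrArg (fun z : P.val.sub => (z : M)) u.mul_inv⟩

/-- Composition: first `P`, then `Q`. -/
def comp (Q : Place K N L) (P : Place K M N) : Place K M L where
  val := P.compVal Q.val
  hom := Q.hom.comp (P.compRed Q.val)
  isLocalHom := by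
    have := P.isLocalHom_compRed Q.val
    have := Q.isLocalHom
    exact RingHom.isLocalHom_comp Q.hom.toRingHom (P.compRed Q.val).toRingHom

/-- The reduction of a composed valuation ring determines the point. -/
theorem lift_compRed (S : Setting K) {a : S.Pt M} {b : S.Pt N} (h : P.Maps S a b) (W : Val K N)
    {c : S.Pt (P.compVal W).sub} {d : S.Pt W.sub} (hc : S.map (P.compVal W).incl c = a)
    (hd : S.map W.incl d = b) : S.map (P.compRed W) c = d := by
  obtain ⟨cP, hcP, hcPb⟩ := h
  have e : S.map (P.compIncl W) c = cP := S.lift_unique (by rw [hcP, Setting.map_map]; exact hc)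
  refine S.lift_unique ?_
  rw [hd, Setting.map_map, ← hcPb, ← e, Setting.map_map]
  rfl

theorem Maps.comp {S : Setting K} {Q : Place K N L} {P : Place K M N} {a : S.Pt M} {b : S.Pt N}
    {c : S.Pt L} (h : P.Maps S a b) (h' : Q.Maps S b c) : (Place.comp Q P).Maps S a c := by
  obtain ⟨x, hx⟩ := S.exists_lift (P.compVal Q.val) a
  obtain ⟨y, hy, hyc⟩ := h'
  refine ⟨x, hx, ?_⟩
  show S.map (Q.hom.comp (P.compRed Q.val)) x = c
  rw [← Setting.map_map, P.lift_compRed S h Q.val hx hy, hyc]

end Place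

/-! ### The bundle of a divisor -/

namespace DivData

variable {S : Setting K} {G : GenericData S} (D : DivData S G)
variable {M N : Type u} [Field M] [Algebra K M] [Field N] [Algebra K N]

/-- The chart of a point. -/
def idx {R : Type u} [CommRing R] [Algebra K R] [IsLocalRing R] (a : S.Pt R) : Fin D.n :=
  (S.exists_mem D.U D.cover a).choose

theorem idx_mem {R : Type u} [CommRing R] [Algebra K R] [IsLocalRing R] (a : S.Pt R) :
    S.Mem a (D.U (D.idx a)) :=
  (S.exists_mem D.U D.cover a).choose_spec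

/-- The transition function at a point. -/
def tr {R : Type u} [CommRing R] [Algebra K R] (a : S.Pt R) {i j : Fin D.n}
    (hi : S.Mem a (D.U i)) (hj : S.Mem a (D.U j)) : R :=
  S.ev a (hi.inf S hj) (D.g i j)

theorem tr_mul {R : Type u} [CommRing R] [Algebra K R] (a : S.Pt R) {i j k : Fin D.n}
    (hi : S.Mem a (D.U i)) (hj : S.Mem a (D.U j)) (hk : S.Mem a (D.U k)) :
    D.tr a hi hj * D.tr a hj hk = D.tr a hi hk := by
  have h := congrArg (S.ev a ((hi.inf S hj).inf S hk))
    (D.g_cocycle i j k ((D.U i ⊓ D.U j) ⊓ D.U k) (fun _ h => h.1) (fun _ h => ⟨h.1.2, h.2⟩)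
      (fun _ h => ⟨h.1.1, h.2⟩))
  rw [map_mul, S.ev_res, S.ev_res, S.ev_res] at h
  exact h.symm

theorem tr_self {R : Type u} [CommRing R] [Algebra K R] (a : S.Pt R) {i : Fin D.n}
    (hi : S.Mem a (D.U i)) : D.tr a hi hi = 1 := by
  rw [tr, D.g_self, map_one]

theorem tr_map {R R' : Type u} [CommRing R] [Algebra K R] [CommRing R'] [Algebra K R']
    (φ : R →ₐ[K] R') (a : S.Pt R) {i j : Fin D.n} (hi : S.Mem a (D.U i)) (hj : S.Mem a (D.U j)) :
    D.tr (S.map φ a) (hi.map S φ) (hj.map S φ) = φ (D.tr a hi hj) :=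
  S.ev_map φ a _ _ _

theorem isUnit_tr {R : Type u} [CommRing R] [Algebra K R] (a : S.Pt R) {i j : Fin D.n}
    (hi : S.Mem a (D.U i)) (hj : S.Mem a (D.U j)) : IsUnit (D.tr a hi hj) :=
  IsUnit.of_mul_eq_one (D.tr a hj hi) (by rw [D.tr_mul a hi hj hi, D.tr_self])

theorem mem_of_ext {a : S.Pt M} {W : Val K M} {i : Fin D.n} (h : S.Mem (S.liftPt a W) (D.U i)) :
    S.Mem a (D.U i) := S.map_liftPt a W ▸ h.map S W.incl

/-- The value at a point: the transition function from the chart of the centre. -/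
def value (a : S.Pt M) (W : Val K M) : M :=
  D.tr a (D.mem_of_ext (D.idx_mem (S.liftPt a W))) (D.idx_mem a)

theorem valuation_tr_eq {a : S.Pt M} {W : Val K M} {i j k : Fin D.n}
    (hi : S.Mem (S.liftPt a W) (D.U i)) (hj : S.Mem (S.liftPt a W) (D.U j)) (hk : S.Mem a (D.U k)) :
    W.sub.valuation (D.tr a (D.mem_of_ext hi) hk) = W.sub.valuation (D.tr a (D.mem_of_ext hj) hk) := by
  have h1 : W.sub.valuation (D.tr a (D.mem_of_ext hi) (D.mem_of_ext hj)) = 1 := by
    have e := D.tr_map W.incl (S.liftPt a W) hi hj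
    simp only [S.map_liftPt] at e
    rw [e]
    exact (W.sub.valuation_eq_one_iff _).mp (D.isUnit_tr _ hi hj)
  rw [← D.tr_mul a (D.mem_of_ext hi) (D.mem_of_ext hj) hk, map_mul, h1, one_mul]

theorem valuation_value {a : S.Pt M} {W : Val K M} {j : Fin D.n}
    (hj : S.Mem (S.liftPt a W) (D.U j)) :
    W.sub.valuation (D.value a W) = W.sub.valuation (D.tr a (D.mem_of_ext hj) (D.idx_mem a)) :=
  D.valuation_tr_eq (D.idx_mem _) hj _

/-- **The line bundle of a divisor.** -/
def lineVal : LineVal S where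
  val := fun a W => D.value a W
  ne_zero := fun a W => (D.isUnit_tr a _ _).ne_zero
  natural := fun {M N} _ _ _ _ φ a => by
    have hi0 := (D.idx_mem a).map S φ
    refine ⟨D.tr (S.map φ a) hi0 (D.idx_mem (S.map φ a)), (D.isUnit_tr _ _ _).ne_zero, fun W => ?_⟩
    set c := S.liftPt a (W.comap φ) with hc
    have hj := D.idx_mem c
    have hcW : S.map (W.comapHom φ) c = S.liftPt (S.map φ a) W := S.lift_unique (by
      rw [S.map_liftPt, Setting.map_map, Val.incl_comapHom, ← Setting.map_map, hc, S.map_liftPt])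
    have hj' : S.Mem (S.liftPt (S.map φ a) W) (D.U (D.idx c)) := hcW ▸ hj.map S (W.comapHom φ)
    rw [D.valuation_value hj',
      ← D.tr_mul (S.map φ a) (D.mem_of_ext hj') hi0 (D.idx_mem (S.map φ a)),
      D.tr_map φ a (D.mem_of_ext hj) (D.idx_mem a), mul_comm]
    rfl
  specialise := fun {M N} _ _ _ _ P a b h => by
    obtain ⟨cP, hcP, hcPb⟩ := h
    have := P.isLocalHom
    have hib : S.Mem cP (D.U (D.idx b)) := Setting.Mem.of_map S (φ := P.hom) (hcPb ▸ D.idx_mem b)
    have hiba : S.Mem a (D.U (D.idx b)) := hcP ▸ hib.map S P.val.incl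
    refine ⟨D.tr a hiba (D.idx_mem a), (D.isUnit_tr _ _ _).ne_zero, 1, one_ne_zero, fun W => ?_⟩
    set c := S.liftPt b W with hc
    have hj := D.idx_mem c
    have hred : S.map (P.compRed W) (S.liftPt a (P.compVal W)) = c :=
      P.lift_compRed S ⟨cP, hcP, hcPb⟩ W (S.map_liftPt _ _) (S.map_liftPt _ _)
    have := P.isLocalHom_compRed W
    have hj' : S.Mem (S.liftPt a (P.compVal W)) (D.U (D.idx c)) :=
      Setting.Mem.of_map S (φ := P.compRed W) (hred.symm ▸ hj)
    have hjb : S.Mem b (D.U (D.idx c)) := D.mem_of_ext hj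
    have hjP : S.Mem cP (D.U (D.idx c)) := Setting.Mem.of_map S (φ := P.hom) (hcPb ▸ hjb)
    refine ⟨D.tr cP hjP hib, ((D.isUnit_tr _ _ _).map P.hom).ne_zero, ?_, ?_⟩
    · rw [D.valuation_value hj', ← D.tr_mul a (D.mem_of_ext hj') hiba (D.idx_mem a), mul_comm]
      congr 2
      have e := D.tr_map P.val.incl cP hjP hib
      simp only [hcP] at e
      exact e
    · rw [one_mul, D.valuation_value hj]
      congr 1
      have e := D.tr_map P.hom cP hjP hib
      simp only [hcPb] at e
      exact e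
  finite_range := fun {M} _ _ a => by
    classical
    refine Set.Finite.subset (Set.finite_range fun i : Fin D.n =>
      if h : S.Mem a (D.U i) then D.tr a h (D.idx_mem a) else 1) ?_
    rintro _ ⟨W, rfl⟩
    exact ⟨D.idx (S.liftPt a W), dif_pos (D.mem_of_ext (D.idx_mem _))⟩
  local_eq := fun {M} _ _ R a p hp => by
    have := hp
    let x : PrimeSpectrum R := ⟨p, hp⟩
    obtain ⟨j, hj⟩ := D.cover (a.1 x)
    set aM := S.map R.val a
    have hpt : (⊥ : Ideal R).IsPrime := Ideal.isPrime_bot
    have hgen : ∀ q : PrimeSpectrum R, q.asIdeal ≤ p → a.1 q ∈ D.U j := fun q hq =>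
      (((PrimeSpectrum.le_iff_specializes q x).mp hq).map a.1.continuous).mem_open (D.U j).2 hj
    have hMj : S.Mem aM (D.U j) := fun y _ => hgen (Spec.map (CommRingCat.ofHom R.val.toRingHom) y)
      (by
        intro r hr
        have h' := (Ideal.eq_bot_or_top y.asIdeal).resolve_right y.2.ne_top
        have hr' : R.val.toRingHom r ∈ y.asIdeal := hr
        rw [h', Ideal.mem_bot] at hr'
        have : (R.val r : M) = 0 := hr'
        rw [show r = 0 from Subtype.ext this]
        exact p.zero_mem)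
    refine ⟨D.tr aM hMj (D.idx_mem aM), (D.isUnit_tr _ _ _).ne_zero, fun W hRW hp' => ?_⟩
    let ι : R →ₐ[K] W.sub :=
      { toFun := fun r => ⟨r, hRW r⟩
        map_one' := rfl
        map_mul' := fun _ _ => rfl
        map_zero' := rfl
        map_add' := fun _ _ => rfl
        commutes' := fun _ => rfl }
    have e : S.liftPt aM W = S.map ι a := S.lift_unique (by
      rw [S.map_liftPt, Setting.map_map]; rfl)
    have hjW : S.Mem (S.liftPt aM W) (D.U j) := by
      rw [e, Setting.mem_iff]
      refine hgen _ fun r hr => hp' r ?_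
      exact ValuationSubring.coe_mem_nonunits_iff.mpr hr
    exact D.valuation_value hjW

theorem lineVal_val (a : S.Pt M) (W : Val K M) : D.lineVal.val a W = D.value a W := rfl

end DivData

end Fermat.Agent.AV

end
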