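import Fermat.Agent.AV.Line
import Fermat.Agent.AV.DivExists

/-!
# The symmetrised bundle of an effective divisor

`exists_polarisation`: the product of the bundle of a divisor dominating the poles of generators
of the function field with its pullback along the inverse is a polarisation.
-/

set_option autoImplicit false
set_option linter.unusedSectionVars false

noncomputable section

universe u

open CategoryTheory CategoryTheory.Limits AlgebraicGeometry

namespace Fermat.Agent.AV

variable {K : Type u} [Field K] {S : Setting K}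

theorem Place.Maps.neg {M N : Type u} [Field M] [Algebra K M] [Field N] [Algebra K N]
    {P : Place K M N} {a : S.Pt M} {b : S.Pt N} (h : P.Maps S a b) : P.Maps S (-a) (-b) := by
  obtain ⟨c, hc, hcb⟩ := h
  exact ⟨-c, by rw [map_neg, hc], by rw [map_neg, hcb]⟩

/-- The pullback along the inverse. -/
def LineVal.negComp (L : LineVal S) : LineVal S where
  val := fun a W => L.val (-a) W
  ne_zero := fun a W => L.ne_zero (-a) W
  natural := fun φ a => by simpa only [map_neg] using L.natural φ (-a)
  specialise := fun P a b h => L.specialise P (-a) (-b) h.neg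
  finite_range := fun a => L.finite_range (-a)
  local_eq := fun R a p hp => by simpa only [map_neg] using L.local_eq R (-a) p hp

/-- The product of two bundles. -/
def LineVal.tensor (L L' : LineVal S) : LineVal S where
  val := fun a W => L.val a W * L'.val a W
  ne_zero := fun a W => mul_ne_zero (L.ne_zero a W) (L'.ne_zero a W)
  natural := fun φ a => by
    obtain ⟨c, hc, e⟩ := L.natural φ a
    obtain ⟨c', hc', e'⟩ := L'.natural φ a
    refine ⟨c * c', mul_ne_zero hc hc', fun W => ?_⟩
    rw [map_mul, e W, e' W, ← map_mul, map_mul φ]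
    congr 1
    ring
  specialise := fun P a b h => (L.placeRel P h).mul (L'.placeRel P h)
  finite_range := fun a =>
    ((L.finite_range a).image2 (· * ·) (L'.finite_range a)).subset
      (by rintro _ ⟨W, rfl⟩; exact Set.mem_image2_of_mem ⟨W, rfl⟩ ⟨W, rfl⟩)
  local_eq := fun R a p hp => by
    obtain ⟨c, hc, e⟩ := L.local_eq R a p hp
    obtain ⟨c', hc', e'⟩ := L'.local_eq R a p hp
    exact ⟨c * c', mul_ne_zero hc hc', fun W h h' => by rw [map_mul, e W h h', e' W h h', map_mul]⟩

theorem GenericData.closure_neg_eta (G : GenericData S) :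
    closure {(-G.eta).1 (IsLocalRing.closedPoint G.KA)} = (⊤ : Set S.A) := by
  obtain ⟨M', _, _, i, P, hP⟩ := G.spec G.KA (-G.eta)
  obtain ⟨c, hc, hci⟩ := hP.neg
  rw [map_neg, neg_neg] at hci
  have := P.isLocalHom
  have e1 : c.1 (IsLocalRing.closedPoint P.val.sub) = G.eta.1 (IsLocalRing.closedPoint G.KA) := by
    have h := congrArg (fun x : S.Pt M' => x.1 (IsLocalRing.closedPoint M')) hci
    have : IsLocalHom (CommRingCat.ofHom P.hom.toRingHom).hom := ‹_›
    have : IsLocalHom (CommRingCat.ofHom i.toRingHom).hom :=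
      ⟨fun x hx => isUnit_iff_ne_zero.mpr fun h0 => hx.ne_zero (by rw [h0, map_zero])⟩
    simp only [Setting.map_coe, Scheme.Hom.comp_apply] at h
    rwa [Spec_closedPoint, Spec_closedPoint] at h
  have e2 : (-G.eta).1 (IsLocalRing.closedPoint G.KA) ⤳ c.1 (IsLocalRing.closedPoint P.val.sub) := by
    rw [← hc, Setting.map_coe, Scheme.Hom.comp_apply]
    exact (IsLocalRing.specializes_closedPoint _).map c.1.continuous
  rw [e1] at e2
  exact top_unique (G.isGeneric.2 ▸ specializes_iff_closure_subset.mp e2)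

namespace DivData

variable {G : GenericData S} (D : DivData S G)

/-- The local equation at the centre of the generic point. -/
def locEq (W : Val K G.KA) : G.KA :=
  let i := D.idx (S.liftPt G.eta W)
  S.ev G.eta (D.eta_mem i) (D.e i)

theorem ev_mem (W : Val K G.KA) (x : Γ(S.A, D.U (D.idx (S.liftPt G.eta W)))) :
    S.ev G.eta (D.eta_mem _) x ∈ W.sub := by
  have e := S.ev_map W.incl (S.liftPt G.eta W) (D.idx_mem _) ((D.idx_mem _).map S W.incl) x
  simp only [S.map_liftPt] at e
  rw [e]
  exact SetLike.coe_mem _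

theorem locEq_mem (W : Val K G.KA) : D.locEq W ∈ W.sub := D.ev_mem W _

theorem value_eta (W : Val K G.KA) :
    D.value G.eta W = (S.ev G.eta (D.eta_mem (D.idx G.eta)) (D.e (D.idx G.eta)))⁻¹ * D.locEq W := by
  set i := D.idx (S.liftPt G.eta W)
  set j := D.idx G.eta
  have h := congrArg (S.ev G.eta ((D.eta_mem i).inf S (D.eta_mem j))) (D.g_mul i j)
  rw [map_mul, S.ev_res, S.ev_res] at h
  rw [eq_inv_mul_iff_mul_eq₀ (D.e_ne j), mul_comm]
  exact h.symm

theorem finite_locEq : (Set.range D.locEq).Finite :=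
  (Set.finite_range fun i => S.ev G.eta (D.eta_mem i) (D.e i)).subset
    (by rintro _ ⟨W, rfl⟩; exact ⟨_, rfl⟩)

end DivData

variable [IsAlgClosed K] (S)

/-- **A polarisation exists.** -/
theorem exists_polarisation (G : GenericData S) : Nonempty (Polarisation S G) := by
  obtain ⟨D, y, hy, hz⟩ := exists_divData G
  obtain ⟨φ, hφ⟩ := G.desc G.KA _ G.closure_neg_eta
  obtain ⟨k, hk, hkW⟩ := D.lineVal.natural φ G.eta
  have hj := D.e_ne (D.idx G.eta)
  set t := S.ev G.eta (D.eta_mem (D.idx G.eta)) (D.e (D.idx G.eta)) with ht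
  refine ⟨{
    B := D.lineVal.tensor D.lineVal.negComp
    gam := fun W => D.locEq W * φ (D.locEq (W.comap φ))
    gam_eta := ⟨t⁻¹ * (k * φ t⁻¹), mul_ne_zero (inv_ne_zero hj) (mul_ne_zero hk
      (by simpa using hj)), fun W => ?_⟩
    gam_mem := fun W => W.sub.mul_mem _ _ (D.locEq_mem W) (D.locEq_mem (W.comap φ))
    gam_finite := ((D.finite_locEq).image2 (fun x y => x * φ y) D.finite_locEq).subset
      (by rintro _ ⟨W, rfl⟩; exact Set.mem_image2_of_mem ⟨_, rfl⟩ ⟨_, rfl⟩)
    symm := fun {M} _ _ a => QPrin.one.congr fun W => ?_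
    gens := ⟨y, hy, fun z hzy => ?_⟩ }⟩
  · show W.sub.valuation (D.lineVal.val G.eta W * D.lineVal.val (-G.eta) W) = _
    have e := hkW W
    rw [hφ, D.lineVal_val, D.lineVal_val, D.value_eta, ← ht] at e
    rw [map_mul, D.lineVal_val, D.lineVal_val, D.value_eta W, ← ht, e, map_mul φ, ← map_mul]
    congr 1
    ring
  · congr 1
    show D.lineVal.val (-a) W * D.lineVal.val (- -a) W /
      (D.lineVal.val a W * D.lineVal.val (-a) W) = 1
    rw [neg_neg, mul_comm, div_self]
    exact mul_ne_zero (D.lineVal.ne_zero _ _) (D.lineVal.ne_zero _ _)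
  · obtain ⟨b, hb⟩ := hz z hzy
    refine ⟨b, fun W => ?_⟩
    obtain ⟨r, hr⟩ := hb (D.idx (S.liftPt G.eta W))
    rw [mul_pow, ← mul_assoc]
    exact W.sub.mul_mem _ _ (hr ▸ D.ev_mem W r) (W.sub.toSubring.pow_mem (D.locEq_mem (W.comap φ)) b)

end Fermat.Agent.AV

end
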