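import Fermat.Agent.AV.Cube

/-!
# Quadraticity of a symmetric bundle at multiples of the generic point

`qprin_quadratic`: by the theorem of the cube the value at `n` times the generic point is, up to a
principal function, the `n ^ 2`-th power of the value at the generic point, both normalised at zero.
-/

set_option autoImplicit false
set_option linter.unusedSectionVars false

noncomputable section

universe u

open CategoryTheory CategoryTheory.Limits AlgebraicGeometry

namespace Fermat.Agent.AV

variable {K : Type u} [Field K] [IsAlgClosed K] (S : Setting K)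

/-- **Quadraticity at multiples of the generic point.** -/
theorem qprin_quadratic (hg : 0 < S.g) (G : GenericData S) (P : Polarisation S G) :
    ∀ m : ℕ, QPrin fun W : Val K G.KA =>
      P.B.val (m • G.eta) W * P.B.val 0 W ^ (m ^ 2) / (P.B.val G.eta W ^ (m ^ 2) * P.B.val 0 W)
  | 0 => QPrin.one.congr fun W => by
      simp [P.B.ne_zero]
  | 1 => QPrin.one.congr fun W => by
      simp [P.B.ne_zero]
  | m + 2 => by
    have hc := qprin_cube S hg G P.B ((m + 1) • G.eta) G.eta (-G.eta)
    refine (((((qprin_quadratic hg G P (m + 1)).pow 2).div (qprin_quadratic hg G P m)).mul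
      (P.symm G.eta)).div hc).congr fun W => ?_
    congr 1
    have e1 : (m + 1) • G.eta + G.eta + -G.eta = (m + 1) • G.eta := by abel
    have e2 : (m + 1) • G.eta + G.eta = (m + 2) • G.eta := (succ_nsmul _ _).symm
    have e3 : (m + 1) • G.eta + -G.eta = m • G.eta := by rw [succ_nsmul]; abel
    have e4 : G.eta + -G.eta = 0 := add_neg_cancel _
    simp only [LineVal.cube, e1]
    rw [e2, e3, e4]
    have h0 := P.B.ne_zero (0 : S.Pt G.KA) W
    have h1 := P.B.ne_zero G.eta W
    have h2 := P.B.ne_zero (-G.eta) W
    have h3 := P.B.ne_zero (m • G.eta) W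
    have h4 := P.B.ne_zero ((m + 1) • G.eta) W
    have h5 := P.B.ne_zero ((m + 2) • G.eta) W
    rw [show (m + 2) ^ 2 = m ^ 2 + 4 * m + 4 by ring, show (m + 1) ^ 2 = m ^ 2 + 2 * m + 1 by ring]
    simp only [pow_add, pow_mul]
    field_simp
    ring

end Fermat.Agent.AV

end
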