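import Fermat.Agent.AV.GrowthQuadratic
import Fermat.Agent.AV.Quadratic
import Fermat.Agent.AV.Polarisation
import Fermat.Agent.AV.Generic

/-!
# The number of torsion points of an abelian variety

`card_torsion`: for `n` invertible in the algebraically closed field there are exactly `n ^ (2 g)`
rational points killed by `n`.  The count is the degree of multiplication by `n` on the function
field (`exists_phi`), which is computed from a polarisation (`exists_polarisation`), quadratic by
the theorem of the cube (`qprin_quadratic`), and the growth of spaces of functions with bounded
poles (`finrank_eq_pow_of_quadratic`).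
-/

set_option autoImplicit false
set_option linter.unusedSectionVars false

noncomputable section

universe u

open CategoryTheory CategoryTheory.Limits AlgebraicGeometry

namespace Fermat.Agent.AV

variable {K : Type u} [Field K] [IsAlgClosed K] (S : Setting K)

/-- **An abelian variety of dimension `g` has `n ^ (2 g)` points killed by `n`.** -/
theorem card_torsion (n : ℕ) (hn : (n : K) ≠ 0) :
    Nat.card {x : S.Pt K // n • x = 0} = n ^ (2 * S.g) := by
  rcases Nat.eq_zero_or_pos S.g with h0 | hg
  · rw [card_torsion_of_g_eq_zero S h0, h0, mul_zero, pow_zero]
  obtain ⟨G⟩ := exists_genericData S hg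
  obtain ⟨P⟩ := exists_polarisation S G
  obtain ⟨φ, hφ, hfin, hsep, hcard⟩ := exists_phi S G hn
  rw [hcard]
  exact finrank_eq_pow_of_quadratic S G P (qprin_quadratic S hg G P) hn φ hφ

end Fermat.Agent.AV

end
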