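import Mathlib

/-!
# Common field extensions, places centred at a point, tensor products of fields
-/

set_option autoImplicit false

noncomputable section

universe u

open scoped TensorProduct

namespace Fermat.Agent.AV

/-- Two field extensions embed into a common one. -/
theorem exists_common_extension {k E M : Type u} [Field k] [Field E] [Field M] [Algebra k E]
    [Algebra k M] : ∃ (M' : Type u) (_ : Field M') (i : E →+* M') (j : M →+* M'),
      ∀ x : k, i (algebraMap k E x) = j (algebraMap k M x) := by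
  have : Nontrivial (E ⊗[k] M) :=
    (Algebra.TensorProduct.includeLeft_injective (S := E) (A := E) (B := M)
      (algebraMap k M).injective).nontrivial
  obtain ⟨m, hm⟩ := Ideal.exists_maximal (E ⊗[k] M)
  let : Field ((E ⊗[k] M) ⧸ m) := Ideal.Quotient.field m
  refine ⟨(E ⊗[k] M) ⧸ m, inferInstance,
    (Ideal.Quotient.mk m).comp Algebra.TensorProduct.includeLeftRingHom,
    (Ideal.Quotient.mk m).comp (Algebra.TensorProduct.includeRight : M →ₐ[k] E ⊗[k] M).toRingHom,
    fun x => ?_⟩
  show Ideal.Quotient.mk m _ = Ideal.Quotient.mk m _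
  congr 1
  exact (Algebra.TensorProduct.includeLeft (R := k) (S := k) (A := E) (B := M)).commutes x |>.trans
    ((Algebra.TensorProduct.includeRight (R := k) (A := E) (B := M)).commutes x).symm

/-- A local ring mapping to a field has a place centred at its closed point, with values in a given
extension of its residue field. -/
theorem exists_place {O N M : Type u} [CommRing O] [IsLocalRing O] [Field N] [Field M]
    (ι : O →+* N) (φ : O →+* M) [IsLocalHom φ] :
    ∃ (V : ValuationSubring N) (hV : ∀ o, ι o ∈ V.toSubring) (M' : Type u) (_ : Field M')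
      (i : M →+* M') (h : V →+* M'), IsLocalHom h ∧ ∀ o, h ⟨ι o, hV o⟩ = i (φ o) := by
  obtain ⟨V, hV, hloc⟩ := IsLocalRing.exists_factor_valuationRing ι
  let ψ : O →+* V := ι.codRestrict V.toSubring hV
  have : IsLocalHom ψ := hloc
  let k := IsLocalRing.ResidueField O
  let : Algebra k (IsLocalRing.ResidueField V) := (IsLocalRing.ResidueField.map ψ).toAlgebra
  let : Algebra k M := (IsLocalRing.ResidueField.lift φ).toAlgebra
  obtain ⟨M', _, a, b, hab⟩ :=
    exists_common_extension (k := k) (E := IsLocalRing.ResidueField V) (M := M)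
  refine ⟨V, hV, M', inferInstance, b, a.comp (IsLocalRing.residue V), ?_, fun o => ?_⟩
  · exact @RingHom.isLocalHom_comp _ _ _ _ _ _ a _ ⟨fun x hx => (isUnit_map_iff a x).mp hx⟩
      inferInstance
  · have := hab (IsLocalRing.residue O o)
    exact this

/-- Over an algebraically closed field, the tensor product of two field extensions is a domain. -/
theorem isDomain_tensorProduct (K E M : Type u) [Field K] [IsAlgClosed K] [Field E] [Field M]
    [Algebra K E] [Algebra K M] : IsDomain (E ⊗[K] M) := by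
  classical
  have : Nontrivial (E ⊗[K] M) :=
    (Algebra.TensorProduct.includeLeft_injective (S := E) (A := E) (B := M)
      (algebraMap K M).injective).nontrivial
  suffices H : NoZeroDivisors (E ⊗[K] M) from NoZeroDivisors.to_isDomain _
  refine ⟨fun {u v} huv => ?_⟩
  by_contra hne
  rw [not_or] at hne
  let ι := Module.Basis.ofVectorSpaceIndex K M
  let e : Module.Basis ι K M := Module.Basis.ofVectorSpace K M
  let eq := TensorProduct.equivFinsuppOfBasisRight (M := E) e
  obtain ⟨i₀, hi₀⟩ : ∃ i, eq u i ≠ 0 := by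
    by_contra h
    push Not at h
    exact hne.1 (eq.map_eq_zero_iff.mp (Finsupp.ext h))
  obtain ⟨j₀, hj₀⟩ : ∃ j, eq v j ≠ 0 := by
    by_contra h
    push Not at h
    exact hne.2 (eq.map_eq_zero_iff.mp (Finsupp.ext h))
  let w := eq u i₀ * eq v j₀
  let s : Finset E := insert w⁻¹ ((eq u).support.image (eq u) ∪ (eq v).support.image (eq v))
  let B := Algebra.adjoin K (s : Set E)
  have hmem : ∀ (f : ι →₀ E) (i : ι), (∀ j ∈ f.support, f j ∈ (s : Set E)) → f i ∈ B := by
    intro f i h
    by_cases hi : i ∈ f.support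
    · exact Algebra.subset_adjoin (h i hi)
    · rw [Finsupp.notMem_support_iff.mp hi]; exact zero_mem B
  have hu : ∀ i, eq u i ∈ B := fun i => hmem (eq u) i fun j hj => by
    simp only [s, Finset.coe_insert, Finset.coe_union, Finset.coe_image]
    exact Or.inr (Or.inl ⟨j, hj, rfl⟩)
  have hv : ∀ i, eq v i ∈ B := fun i => hmem (eq v) i fun j hj => by
    simp only [s, Finset.coe_insert, Finset.coe_union, Finset.coe_image]
    exact Or.inr (Or.inr ⟨j, hj, rfl⟩)
  have hw : w⁻¹ ∈ B := Algebra.subset_adjoin (by simp [s])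
  have : Algebra.FiniteType K B := (Subalgebra.fg_iff_finiteType B).mp ⟨s, rfl⟩
  obtain ⟨m, hm⟩ := Ideal.exists_maximal B
  let : Field (B ⧸ m) := Ideal.Quotient.field m
  have : Module.Finite K (B ⧸ m) := finite_of_finite_type_of_isJacobsonRing K (B ⧸ m)
  let χ : B →ₐ[K] K := ((AlgEquiv.ofBijective (Algebra.ofId K (B ⧸ m))
    IsAlgClosed.algebraMap_bijective_of_isIntegral).symm.toAlgHom).comp (Ideal.Quotient.mkₐ K m)
  let u' : B ⊗[K] M := (eq u).sum fun i _ => (⟨eq u i, hu i⟩ : B) ⊗ₜ e i
  let v' : B ⊗[K] M := (eq v).sum fun i _ => (⟨eq v i, hv i⟩ : B) ⊗ₜ e i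
  let inc : B ⊗[K] M →ₐ[K] E ⊗[K] M := Algebra.TensorProduct.map B.val (AlgHom.id K M)
  have hinc : Function.Injective inc := by
    have h := Module.Flat.rTensor_preserves_injective_linearMap (M := M) B.val.toLinearMap
      Subtype.val_injective
    intro a b hab
    exact h hab
  have hexp : ∀ (t : E ⊗[K] M), (eq t).sum (fun i a => a ⊗ₜ[K] e i) = t := fun t => by
    conv_rhs => rw [← eq.symm_apply_apply t]
    rw [TensorProduct.equivFinsuppOfBasisRight_symm_apply]
  have hu' : inc u' = u := by
    conv_rhs => rw [← hexp u]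
    simp [u', inc, Finsupp.sum, map_sum]
  have hv' : inc v' = v := by
    conv_rhs => rw [← hexp v]
    simp [v', inc, Finsupp.sum, map_sum]
  have hzero : u' * v' = 0 := hinc (by rw [map_mul, hu', hv', huv, map_zero])
  let Φ : B ⊗[K] M →ₐ[K] M :=
    Algebra.TensorProduct.lift ((Algebra.ofId K M).comp χ) (AlgHom.id K M)
      fun _ _ => Commute.all _ _
  have hkey : ∀ (f : ι →₀ E) (hf : ∀ i, f i ∈ B) (i : ι), f i ≠ 0 →
      Φ (f.sum fun i _ => (⟨f i, hf i⟩ : B) ⊗ₜ e i) = 0 → χ ⟨f i, hf i⟩ = 0 := by
    intro f hf i hi h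
    rw [Finsupp.sum, map_sum] at h
    simp only [Φ, Algebra.TensorProduct.lift_tmul, AlgHom.comp_apply, Algebra.ofId_apply,
      AlgHom.id_apply, ← Algebra.smul_def] at h
    exact linearIndependent_iff'.mp e.linearIndependent f.support _ h i
      (Finsupp.mem_support_iff.mpr hi)
  have h1 : Φ u' * Φ v' = 0 := by rw [← map_mul, hzero, map_zero]
  have hprod : χ ⟨eq u i₀, hu i₀⟩ * χ ⟨eq v j₀, hv j₀⟩ ≠ 0 := by
    rw [← map_mul]
    intro h
    have h2 : (⟨eq u i₀, hu i₀⟩ * ⟨eq v j₀, hv j₀⟩ : B) * ⟨w⁻¹, hw⟩ = 1 :=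
      Subtype.ext (mul_inv_cancel₀ (mul_ne_zero hi₀ hj₀))
    have := congrArg χ h2
    rw [map_mul, h, zero_mul, map_one] at this
    exact zero_ne_one this
  rcases mul_eq_zero.mp h1 with h | h
  · exact hprod (by rw [hkey _ hu i₀ hi₀ h, zero_mul])
  · exact hprod (by rw [hkey _ hv j₀ hj₀ h, mul_zero])

end Fermat.Agent.AV

end
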