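import Mathlib
import Fermat.Agent.Patching.PowerSeriesRegular

/-!
# Power series rings over infinite fields are factorial

By induction on the number of variables, using a linear change of variables and the Weierstrass
preparation theorem.
-/

set_option autoImplicit false
set_option linter.style.haveILetI false

noncomputable section

namespace Fermat.Agent.AV

open MvPowerSeries

variable {k : Type*} [Field k]

theorem maximalIdeal_mvPowerSeries (n : ℕ) :
    IsLocalRing.maximalIdeal (MvPowerSeries (Fin n) k) =
      Ideal.span (Set.range (MvPowerSeries.X : Fin n → MvPowerSeries (Fin n) k)) := by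
  ext f
  rw [Patching.mem_span_range_X_iff, IsLocalRing.mem_maximalIdeal, mem_nonunits_iff,
    MvPowerSeries.isUnit_iff_constantCoeff, isUnit_iff_ne_zero, not_not]

instance isAdicComplete_maximalIdeal_mvPowerSeries (n : ℕ) :
    IsAdicComplete (IsLocalRing.maximalIdeal (MvPowerSeries (Fin n) k))
      (MvPowerSeries (Fin n) k) := by
  rw [maximalIdeal_mvPowerSeries]
  infer_instance

/-- A series regular in the variable which is irreducible is prime. -/
theorem prime_of_irreducible_of_map_ne_zero {A : Type*} [CommRing A] [IsDomain A] [IsLocalRing A]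
    [UniqueFactorizationMonoid A] [IsAdicComplete (IsLocalRing.maximalIdeal A) A]
    {f : PowerSeries A} (hf : Irreducible f) (hres : f.map (IsLocalRing.residue A) ≠ 0) :
    Prime f := by
  obtain ⟨g, h, H⟩ := PowerSeries.exists_isWeierstrassFactorization hres
  have hass : Associated (g : PowerSeries A) f := by
    rw [H.eq_mul]
    exact ⟨H.isUnit.unit, rfl⟩
  refine (Associated.prime_iff hass).1 ?_
  have hirr : Irreducible (g : PowerSeries A) := hass.irreducible_iff.2 hf
  have hg := H.isDistinguishedAt
  have hm : (IsLocalRing.maximalIdeal A) ≠ ⊤ := (IsLocalRing.maximalIdeal.isMaximal A).ne_top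
  have hgX := hg.map_eq_X_pow
  have hgirr : Irreducible g := by
    rw [hg.monic.irreducible_iff_natDegree]
    refine ⟨fun e => hirr.not_isUnit (by rw [e, Polynomial.coe_one]; exact isUnit_one),
      fun a b ha hb hab => ?_⟩
    by_contra! hne
    have hnu : ∀ a b : Polynomial A, a.Monic → b.Monic → a * b = g → a.natDegree ≠ 0 →
        ¬ IsUnit (a : PowerSeries A) := by
      intro a b ha hb hab ha0 hu
      rw [← hab, Polynomial.map_mul] at hgX
      obtain ⟨i, -, hi⟩ := (dvd_prime_pow (Polynomial.prime_X
        (R := IsLocalRing.ResidueField A)) (a * b).natDegree).1 ⟨_, hgX.symm⟩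
      have hi' : a.map (IsLocalRing.residue A) = Polynomial.X ^ i :=
        Polynomial.eq_of_monic_of_associated (ha.map _) (Polynomial.monic_X_pow i) hi
      have hi0 : i ≠ 0 := fun e => ha0 (by
        have := congrArg Polynomial.natDegree hi'
        rwa [e, pow_zero, Polynomial.natDegree_one,
          ha.natDegree_map (IsLocalRing.residue A)] at this)
      have h0 := congrArg (fun p => Polynomial.coeff p 0) hi'
      simp only [Polynomial.coeff_map, Polynomial.coeff_X_pow, Ne.symm hi0, if_false] at h0
      rw [PowerSeries.isUnit_iff_constantCoeff, Polynomial.constantCoeff_coe] at hu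
      exact IsLocalRing.mem_maximalIdeal _ |>.1 ((IsLocalRing.residue_eq_zero_iff _).1 h0) hu
    refine (hirr.isUnit_or_isUnit (show (g : PowerSeries A) = a * b by
      rw [← hab, Polynomial.coe_mul])).elim (hnu a b ha hb hab hne.1)
      (hnu b a hb ha (by rw [mul_comm, hab]) hne.2)
  have hgp : Prime g := UniqueFactorizationMonoid.irreducible_iff_prime.1 hgirr
  have hdom : (Ideal.span {g}).IsPrime := (Ideal.span_singleton_prime hgp.ne_zero).2 hgp
  refine (Ideal.span_singleton_prime hirr.ne_zero).1 ?_
  rw [← Ideal.Quotient.isDomain_iff_prime] at hdom ⊢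
  exact hg.algEquivQuotient.symm.toRingEquiv.toMulEquiv.isDomain _

section Change

variable {n : ℕ}

/-- The linear change of variables `X i ↦ X i + c i * X 0` for `i ≠ 0`. -/
def shear (c : Fin n → k) : Fin (n + 1) → MvPowerSeries (Fin (n + 1)) k :=
  Fin.cases (X 0) fun i => X i.succ + C (c i) * X 0

theorem hasSubst_shear (c : Fin n → k) : HasSubst (shear c) :=
  hasSubst_of_constantCoeff_zero fun s => by
    induction s using Fin.cases <;> simp [shear]

theorem shear_shear (c c' : Fin n → k) (h : ∀ i, c i + c' i = 0)
    (f : MvPowerSeries (Fin (n + 1)) k) : subst (shear c') (subst (shear c) f) = f := by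
  rw [subst_comp_subst_apply (hasSubst_shear c) (hasSubst_shear c')]
  have e : (fun s => subst (shear c') (shear c s)) =
      (X : Fin (n + 1) → MvPowerSeries (Fin (n + 1)) k) := funext fun s => by
    have hs := hasSubst_shear c'
    induction s using Fin.cases with
    | zero => simp [shear, subst_X hs]
    | succ i =>
      simp only [shear, Fin.cases_succ, Fin.cases_zero, subst_add hs, subst_mul hs, subst_X hs,
        subst_C]
      rw [add_assoc, ← add_mul, ← map_add, show c' i + c i = 0 by rw [add_comm, h]]
      simp
  rw [e, subst_self]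
  rfl

/-- The linear change of variables as an automorphism. -/
def shearEquiv (c : Fin n → k) :
    MvPowerSeries (Fin (n + 1)) k ≃ₐ[k] MvPowerSeries (Fin (n + 1)) k where
  __ := substAlgHom (R := k) (hasSubst_shear c)
  invFun := substAlgHom (R := k) (hasSubst_shear (-c))
  left_inv f := by
    simp only [AlgHom.toRingHom_eq_coe, RingHom.toMonoidHom_eq_coe, OneHom.toFun_eq_coe,
      MonoidHom.toOneHom_coe, MonoidHom.coe_coe, RingHom.coe_coe, substAlgHom_apply]
    exact shear_shear c (-c) (by simp) f
  right_inv f := by
    simp only [AlgHom.toRingHom_eq_coe, RingHom.toMonoidHom_eq_coe, OneHom.toFun_eq_coe,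
      MonoidHom.toOneHom_coe, MonoidHom.coe_coe, RingHom.coe_coe, substAlgHom_apply]
    exact shear_shear (-c) c (by simp) f

/-- The coefficient along the axis of the sheared series. -/
theorem coeff_single_shear (c : Fin n → k) (f : MvPowerSeries (Fin (n + 1)) k) (D : ℕ) :
    coeff (Finsupp.single 0 D) (subst (shear c) f) =
      ∑ᶠ d : Fin (n + 1) →₀ ℕ,
        if d.degree = D then coeff d f * ∏ i, (Fin.cons 1 c : Fin (n + 1) → k) i ^ d i else 0 := by
  classical
  rw [coeff_subst (hasSubst_shear c)]
  refine finsum_congr fun d => ?_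
  let a : Fin (n + 1) → MvPolynomial (Fin (n + 1)) k :=
    Fin.cases (MvPolynomial.X 0) fun i => MvPolynomial.X i.succ + MvPolynomial.C (c i) * .X 0
  have ha : ∀ s, shear c s = MvPolynomial.coeToMvPowerSeries.ringHom (a s) := fun s => by
    induction s using Fin.cases with
    | zero => simp [shear, a]
    | succ i => simp [shear, a]
  let ev : MvPolynomial (Fin (n + 1)) k →ₐ[k] Polynomial k :=
    MvPolynomial.aeval fun i => if i = 0 then Polynomial.X else 0
  have hev : ∀ q : MvPolynomial (Fin (n + 1)) k,
      (ev q).coeff D = q.coeff (Finsupp.single 0 D) := by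
    intro q
    induction q using MvPolynomial.induction_on' with
    | monomial u r =>
      simp only [ev, MvPolynomial.aeval_monomial, MvPolynomial.coeff_monomial,
        Finsupp.prod_fintype _ _ (fun i => pow_zero _), Polynomial.algebraMap_apply]
      rw [Fin.prod_univ_succ]
      by_cases hu : ∀ i : Fin n, u i.succ = 0
      · rw [Finset.prod_eq_one fun i _ => by rw [hu i, pow_zero], mul_one, if_pos rfl,
          Algebra.algebraMap_self_apply, Polynomial.coeff_C_mul_X_pow]
        have hu' : u = Finsupp.single 0 (u 0) := Finsupp.ext fun i => by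
          induction i using Fin.cases <;> simp [hu]
        by_cases hD : D = u 0
        · rw [if_pos hD, if_pos (hD ▸ hu')]
        · rw [if_neg hD, if_neg fun e => hD (by rw [e, Finsupp.single_eq_same])]
      · push Not at hu
        obtain ⟨i, hi⟩ := hu
        rw [Finset.prod_eq_zero (Finset.mem_univ i)
          (by rw [if_neg (Fin.succ_ne_zero i), zero_pow hi]), mul_zero, mul_zero,
          Polynomial.coeff_zero, if_neg]
        intro e
        rw [e, Finsupp.single_eq_of_ne (Fin.succ_ne_zero i)] at hi
        exact hi rfl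
    | add p q hp hq => simp [hp, hq]
  simp only [ha, Finsupp.prod, ← map_pow, ← map_prod]
  rw [MvPolynomial.coeToMvPowerSeries.ringHom_apply, MvPolynomial.coeff_coe, ← hev]
  have hev' : ev (∏ s ∈ d.support, a s ^ d s) =
      Polynomial.C (∏ i, (Fin.cons 1 c : Fin (n + 1) → k) i ^ d i) * Polynomial.X ^ d.degree := by
    rw [Finset.prod_subset (Finset.subset_univ _) fun i _ hi => by
      rw [Finsupp.notMem_support_iff.1 hi, pow_zero], map_prod]
    have : ∀ i, ev (a i) = Polynomial.C ((Fin.cons 1 c : Fin (n + 1) → k) i) * Polynomial.X :=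
      fun i => by induction i using Fin.cases <;> simp [ev, a, Fin.succ_ne_zero]
    simp only [map_pow, this, mul_pow, Finset.prod_mul_distrib, Finset.prod_pow_eq_pow_sum,
      map_prod, Finsupp.degree_eq_sum]
  rw [hev', Polynomial.coeff_C_mul_X_pow, smul_eq_mul]
  by_cases hD : d.degree = D
  · rw [if_pos hD, if_pos hD.symm]
  · rw [if_neg hD, if_neg (Ne.symm hD), mul_zero]

/-- After a linear change of variables a nonzero series is regular in the first variable. -/
theorem exists_shear_coeff_ne_zero [Infinite k] {f : MvPowerSeries (Fin (n + 1)) k} (hf : f ≠ 0) :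
    ∃ (c : Fin n → k) (D : ℕ), coeff (Finsupp.single 0 D) (subst (shear c) f) ≠ 0 := by
  classical
  obtain ⟨d₀, hd₀⟩ : ∃ d, coeff d f ≠ 0 := by
    by_contra! h
    exact hf (MvPowerSeries.ext fun d => by simp [h d])
  set D := d₀.degree
  set T := Finsupp.finite_of_degree_le (σ := Fin (n + 1)) D |>.toFinset
  have hT : ∀ d : Fin (n + 1) →₀ ℕ, d.degree = D → d ∈ T := fun d hd => by
    simpa [T] using hd.le
  let F : MvPolynomial (Fin (n + 1)) k :=
    ∑ d ∈ T.filter (·.degree = D), MvPolynomial.monomial d (coeff d f)
  have hF : F ≠ 0 := fun e => hd₀ (by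
    have := congrArg (MvPolynomial.coeff d₀) e
    simpa [F, MvPolynomial.coeff_sum, MvPolynomial.coeff_monomial, hT d₀ rfl, D] using this)
  obtain ⟨x, hx⟩ : ∃ x, MvPolynomial.eval x (MvPolynomial.X 0 * F) ≠ 0 := by
    by_contra! h
    exact mul_ne_zero (MvPolynomial.X_ne_zero _) hF
      (MvPolynomial.funext fun x => by rw [h x, map_zero])
  rw [map_mul, MvPolynomial.eval_X, mul_ne_zero_iff] at hx
  refine ⟨fun i => x i.succ / x 0, D, fun e => hx.2 ?_⟩
  rw [coeff_single_shear, finsum_eq_finsetSum_of_support_subset _
    (s := T.filter (·.degree = D)) (fun d hd => by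
      rw [Function.mem_support, ne_eq, ite_eq_right_iff, not_forall] at hd
      obtain ⟨hd, -⟩ := hd
      exact Finset.mem_coe.2 (Finset.mem_filter.2 ⟨hT d hd, hd⟩)),
    Finset.sum_congr rfl fun d hd => if_pos (Finset.mem_filter.1 hd).2] at e
  rw [map_sum]
  calc ∑ d ∈ T.filter (·.degree = D), MvPolynomial.eval x (MvPolynomial.monomial d (coeff d f))
      = x 0 ^ D * ∑ d ∈ T.filter (·.degree = D), coeff d f *
          ∏ i, (Fin.cons 1 fun i => x i.succ / x 0 : Fin (n + 1) → k) i ^ d i := by
        rw [Finset.mul_sum]
        refine Finset.sum_congr rfl fun d hd => ?_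
        rw [MvPolynomial.eval_monomial, Finsupp.prod_fintype _ _ fun i => pow_zero _,
          ← (Finset.mem_filter.1 hd).2, Finsupp.degree_eq_sum, ← Finset.prod_pow_eq_pow_sum,
          mul_left_comm, ← Finset.prod_mul_distrib]
        congr 1
        refine Finset.prod_congr rfl fun i _ => ?_
        rw [← mul_pow]
        congr 1
        induction i using Fin.cases with
        | zero => simp
        | succ i => rw [Fin.cons_succ, mul_div_cancel₀ _ hx.1]
    _ = 0 := by rw [e, mul_zero]

end Change

/-- **Power series rings over infinite fields are factorial.** -/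
theorem uniqueFactorizationMonoid_mvPowerSeries [Infinite k] :
    ∀ n : ℕ, UniqueFactorizationMonoid (MvPowerSeries (Fin n) k)
  | 0 => (isEmptyEquiv (R := k) (σ := Fin 0)).symm.toMulEquiv.uniqueFactorizationMonoid
      inferInstance
  | n + 1 => by
    classical
    haveI := uniqueFactorizationMonoid_mvPowerSeries n
    haveI : IsDomain (MvPowerSeries (Fin (n + 1)) k) := NoZeroDivisors.to_isDomain _
    haveI : IsDomain (MvPowerSeries (Fin n) k) := NoZeroDivisors.to_isDomain _
    refine { (inferInstance : WfDvdMonoid (MvPowerSeries (Fin (n + 1)) k)) with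
      irreducible_iff_prime := fun {f} => ⟨fun hf => ?_, Prime.irreducible⟩ }
    obtain ⟨c, D, hD⟩ := exists_shear_coeff_ne_zero hf.ne_zero
    let σ := (shearEquiv c).toRingEquiv.trans (finSuccEquiv k n).toRingEquiv
    refine (MulEquiv.prime_iff σ.toMulEquiv).1 (prime_of_irreducible_of_map_ne_zero
      ((MulEquiv.irreducible_iff (f := σ.toMulEquiv)).2 hf) fun h => hD ?_)
    have h1 := congrArg (PowerSeries.coeff D) h
    rw [PowerSeries.coeff_map, map_zero, IsLocalRing.residue_eq_zero_iff,
      maximalIdeal_mvPowerSeries, Patching.mem_span_range_X_iff,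
      ← coeff_zero_eq_constantCoeff_apply] at h1
    have h2 : coeff 0 (PowerSeries.coeff D (finSuccEquiv k n (subst (shear c) f))) = 0 := by
      simpa [σ, shearEquiv] using h1
    rw [coeff_coeff_finSuccEquiv] at h2
    rwa [show Finsupp.single (0 : Fin (n + 1)) D = Finsupp.cons D (0 : Fin n →₀ ℕ) from
      Finsupp.ext fun i => by induction i using Fin.cases <;> simp]

end Fermat.Agent.AV

end
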