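import Fermat.Prelude.Def_JacJ1Iface
import Fermat.Prelude.Def_GoodReductionJacobian_RelativeGroupLawKernel
import Mathlib

/-!
# Abelian varieties over an algebraically closed field: points with values in algebras

The group of points with values in a `K`-algebra, valuations and places of extensions of `K`,
principal functions, line bundles given by their values at points and the expression of the theorem
of the cube.
-/

set_option autoImplicit false
set_option linter.unusedSectionVars false

noncomputable section

universe u

open CategoryTheory CategoryTheory.Limits AlgebraicGeometry NeronModelInfra GoodReductionJacobian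

namespace Fermat.Agent.AV

/-- A commutative group law on an abelian scheme over a field. -/
structure Setting (K : Type u) [Field K] where
  A : Scheme.{u}
  f : A ⟶ Spec (CommRingCat.of K)
  law : RelativeGroupLaw K f
  comm : law.IsCommutative
  bundle : AbelianSchemePropertyBundle K f
  g : ℕ
  smooth : SmoothOfRelativeDimension g f

variable {K : Type u} [Field K]

/-- The structure map of the spectrum of an algebra. -/
abbrev str (K : Type u) [Field K] (R : Type u) [CommRing R] [Algebra K R] :
    Spec (CommRingCat.of R) ⟶ Spec (CommRingCat.of K) :=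
  Spec.map (CommRingCat.ofHom (algebraMap K R))

namespace Setting

variable (S : Setting K)

instance : IsProper S.f := S.bundle.proper

instance : SmoothOfRelativeDimension S.g S.f := S.smooth

/-- The points with values in an algebra. -/
def Pt (R : Type u) [CommRing R] [Algebra K R] : Type u := SchemeHomOver (str K R) S.f

variable {R R' : Type u} [CommRing R] [Algebra K R] [CommRing R'] [Algebra K R']

instance : Zero (S.Pt R) := ⟨S.law.one _⟩

instance : Add (S.Pt R) := ⟨S.law.mul _⟩

instance : Neg (S.Pt R) := ⟨S.law.inv _⟩

instance : AddCommGroup (S.Pt R) where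
  add_assoc := S.law.mul_assoc _
  zero_add := S.law.one_mul _
  add_zero := S.law.mul_one _
  nsmul := fun n x => S.law.nsmul _ n x
  nsmul_zero _ := rfl
  nsmul_succ _ _ := rfl
  zsmul := zsmulRec
  neg_add_cancel := S.law.inv_mul_cancel _
  add_comm := S.comm _

theorem str_comp (φ : R →ₐ[K] R') :
    Spec.map (CommRingCat.ofHom φ.toRingHom) ≫ str K R = str K R' := by
  rw [← Spec.map_comp]
  congr 1
  ext x
  exact φ.commutes x

/-- Functoriality of the points. -/
def map (φ : R →ₐ[K] R') : S.Pt R →+ S.Pt R' where
  toFun := schemeHomOverComp _ (str_comp φ)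
  map_zero' := S.law.one_natural _ _ _ _
  map_add' := S.law.mul_natural _ _ _ _

theorem map_map {R'' : Type u} [CommRing R''] [Algebra K R''] (φ : R →ₐ[K] R')
    (ψ : R' →ₐ[K] R'') (x : S.Pt R) : S.map ψ (S.map φ x) = S.map (ψ.comp φ) x := by
  refine Subtype.ext ?_
  show Spec.map _ ≫ Spec.map _ ≫ x.1 = Spec.map _ ≫ x.1
  rw [← Category.assoc, ← Spec.map_comp]
  rfl

theorem map_id (x : S.Pt R) : S.map (AlgHom.id K R) x = x := by
  refine Subtype.ext ?_
  show Spec.map _ ≫ x.1 = x.1
  simp

end Setting

/-- A valuation ring of `M` containing `K`. -/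
structure Val (K M : Type u) [Field K] [Field M] [Algebra K M] where
  sub : ValuationSubring M
  algebraMap_mem : ∀ k : K, algebraMap K M k ∈ sub

namespace Val

variable {M N : Type u} [Field M] [Algebra K M] [Field N] [Algebra K N]

/-- The restriction along a field embedding. -/
def comap (W : Val K N) (φ : M →ₐ[K] N) : Val K M :=
  ⟨W.sub.comap φ.toRingHom, fun k => by
    show φ (algebraMap K M k) ∈ W.sub
    rw [φ.commutes]; exact W.algebraMap_mem k⟩

instance (W : Val K M) : Algebra K W.sub :=
  ((algebraMap K M).codRestrict W.sub.toSubring W.algebraMap_mem).toAlgebra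

/-- The inclusion of a valuation ring. -/
def incl (W : Val K M) : W.sub →ₐ[K] M := { W.sub.subtype with commutes' := fun _ => rfl }

end Val

/-- A place of `M` with values in `N`. -/
structure Place (K M N : Type u) [Field K] [Field M] [Algebra K M] [Field N] [Algebra K N] where
  val : Val K M
  hom : val.sub →ₐ[K] N
  isLocalHom : IsLocalHom hom.toRingHom

namespace Place

variable {M N : Type u} [Field M] [Algebra K M] [Field N] [Algebra K N]

/-- The valuation ring of `M` composed of a place and a valuation ring of its target. -/
def compVal (P : Place K M N) (W : Val K N) : Val K M where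
  sub :=
    { toSubring := (W.sub.toSubring.comap P.hom.toRingHom).map P.val.sub.subtype
      mem_or_inv_mem' := fun x => by
        have := P.isLocalHom
        have key : ∀ y : P.val.sub, IsUnit y → P.hom y ∉ W.sub → ∃ z : P.val.sub,
            (z : M) = (y : M)⁻¹ ∧ P.hom z ∈ W.sub := fun y hy hn => by
          obtain ⟨u, rfl⟩ := hy
          refine ⟨(↑u⁻¹ : P.val.sub), ?_, ?_⟩
          · have e := congrArg (fun z : P.val.sub => (z : M)) u.mul_inv
            exact eq_inv_of_mul_eq_one_right e
          · have e : P.hom (↑u⁻¹ : P.val.sub) = (P.hom (u : P.val.sub))⁻¹ :=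
              eq_inv_of_mul_eq_one_right (by rw [← map_mul, u.mul_inv, map_one])
            rw [e]
            exact (W.sub.mem_or_inv_mem _).resolve_left hn
        have main : ∀ y : P.val.sub,
            (y : M) ∈ (W.sub.toSubring.comap P.hom.toRingHom).map P.val.sub.subtype ∨
            (y : M)⁻¹ ∈ (W.sub.toSubring.comap P.hom.toRingHom).map P.val.sub.subtype := fun y => by
          by_cases hy : P.hom y ∈ W.sub
          · exact Or.inl ⟨y, hy, rfl⟩
          · by_cases hu : IsUnit y
            · obtain ⟨z, hz, hzW⟩ := key y hu hy
              exact Or.inr ⟨z, hzW, hz⟩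
            · refine absurd ?_ hy
              have : P.hom y = 0 := by
                by_contra h0
                exact hu (isUnit_of_map_unit P.hom.toRingHom y (Ne.isUnit h0))
              rw [this]
              exact zero_mem _
        rcases P.val.sub.mem_or_inv_mem x with h | h
        · exact main ⟨x, h⟩
        · simpa using (main ⟨_, h⟩).symm }
  algebraMap_mem k := ⟨algebraMap K P.val.sub k, by
    show P.hom _ ∈ W.sub
    rw [P.hom.commutes]; exact W.algebraMap_mem k, rfl⟩

/-- A point specialises along a place. -/
def Maps (S : Setting K) (P : Place K M N) (a : S.Pt M) (b : S.Pt N) : Prop :=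
  ∃ c : S.Pt P.val.sub, S.map P.val.incl c = a ∧ S.map P.hom c = b

end Place

/-- A function on valuation rings is principal up to a positive power. -/
def QPrin {M : Type u} [Field M] [Algebra K M] (γ : Val K M → M) : Prop :=
  ∃ d : ℕ, 0 < d ∧ ∃ c : M, c ≠ 0 ∧ ∀ W : Val K M, W.sub.valuation (γ W ^ d) = W.sub.valuation c

/-- Values of a line bundle at points, up to units and up to a constant. -/
structure LineVal (S : Setting K) where
  val : ∀ {M : Type u} [Field M] [Algebra K M], S.Pt M → Val K M → M
  ne_zero : ∀ {M : Type u} [Field M] [Algebra K M] (a : S.Pt M) (W : Val K M), val a W ≠ 0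
  natural : ∀ {M N : Type u} [Field M] [Algebra K M] [Field N] [Algebra K N] (φ : M →ₐ[K] N)
    (a : S.Pt M), ∃ c : N, c ≠ 0 ∧ ∀ W : Val K N,
      W.sub.valuation (val (S.map φ a) W) = W.sub.valuation (c * φ (val a (W.comap φ)))
  specialise : ∀ {M N : Type u} [Field M] [Algebra K M] [Field N] [Algebra K N] (P : Place K M N)
    (a : S.Pt M) (b : S.Pt N), P.Maps S a b →
    ∃ c : M, c ≠ 0 ∧ ∃ c' : N, c' ≠ 0 ∧ ∀ W : Val K N, ∃ r : P.val.sub, P.hom r ≠ 0 ∧
      (P.compVal W).sub.valuation (val a (P.compVal W)) = (P.compVal W).sub.valuation (c * r) ∧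
      W.sub.valuation (val b W) = W.sub.valuation (c' * P.hom r)
  finite_range : ∀ {M : Type u} [Field M] [Algebra K M] (a : S.Pt M), (Set.range (val a)).Finite
  local_eq : ∀ {M : Type u} [Field M] [Algebra K M] (R : Subalgebra K M) (a : S.Pt R) (p : Ideal R),
    p.IsPrime → ∃ u : M, u ≠ 0 ∧ ∀ W : Val K M, (∀ r : R, (r : M) ∈ W.sub) →
      (∀ r : R, (r : M) ∈ W.sub.nonunits → r ∈ p) →
      W.sub.valuation (val (S.map R.val a) W) = W.sub.valuation u

namespace LineVal

variable {S : Setting K} (B : LineVal S) {M : Type u} [Field M] [Algebra K M]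

/-- The expression of the theorem of the cube. -/
def cube (a b c : S.Pt M) (W : Val K M) : M :=
  B.val (a + b + c) W * B.val a W * B.val b W * B.val c W /
    (B.val (a + b) W * B.val (a + c) W * B.val (b + c) W * B.val 0 W)

end LineVal

end Fermat.Agent.AV

end
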