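import Fermat.Agent.AV.Translate

/-!
# Infinitesimal points

A point with values in the dual numbers over the identity, killed by `n` invertible in the field,
is the identity: on such points the `m`-th power is the scaling by `m`.
-/

set_option autoImplicit false

noncomputable section

universe u

open CategoryTheory CategoryTheory.Limits AlgebraicGeometry NeronModelInfra GoodReductionJacobian

namespace Fermat.Agent.AV

variable {K : Type u} [Field K] {A : Scheme.{u}} {f : A ⟶ Spec (CommRingCat.of K)}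

section

variable (V W : Type u) [AddCommGroup V] [Module K V] [Module Kᵐᵒᵖ V] [IsCentralScalar K V]
  [AddCommGroup W] [Module K W] [Module Kᵐᵒᵖ W] [IsCentralScalar K W]

/-- The spectrum of a trivial extension by a vector space. -/
abbrev TSpec (K : Type u) [Field K] (V : Type u) [AddCommGroup V] [Module K V] [Module Kᵐᵒᵖ V]
    [IsCentralScalar K V] : Scheme.{u} :=
  Spec (CommRingCat.of (TrivSqZeroExt K V))

/-- Its structure map. -/
def tStr : TSpec K V ⟶ Spec (CommRingCat.of K) :=
  Spec.map (CommRingCat.ofHom (algebraMap K (TrivSqZeroExt K V)))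

/-- Its rational point. -/
def tPt : Spec (CommRingCat.of K) ⟶ TSpec K V :=
  Spec.map (CommRingCat.ofHom (TrivSqZeroExt.fstHom K K V).toRingHom)

variable {V W}

/-- The morphism of a linear map. -/
def tMap (φ : V →ₗ[K] W) : TSpec K W ⟶ TSpec K V :=
  Spec.map (CommRingCat.ofHom (TrivSqZeroExt.map φ).toRingHom)

theorem tMap_str (φ : V →ₗ[K] W) : tMap φ ≫ tStr V = tStr W := by
  rw [tMap, tStr, tStr, ← Spec.map_comp, ← CommRingCat.ofHom_comp]
  exact congrArg (fun r => Spec.map (CommRingCat.ofHom r))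
    (RingHom.ext fun r => (TrivSqZeroExt.map φ).commutes r)

theorem tMap_id : tMap (LinearMap.id : V →ₗ[K] V) = 𝟙 _ := by
  rw [tMap, TrivSqZeroExt.map_id]; exact Spec.map_id _

theorem tMap_comp {U : Type u} [AddCommGroup U] [Module K U] [Module Kᵐᵒᵖ U]
    [IsCentralScalar K U] (φ : V →ₗ[K] W) (ψ : W →ₗ[K] U) :
    tMap ψ ≫ tMap φ = tMap (ψ.comp φ) := by
  rw [tMap, tMap, tMap, ← Spec.map_comp, ← CommRingCat.ofHom_comp, TrivSqZeroExt.map_comp_map]
  rfl

theorem tPt_str : tPt V ≫ tStr V = 𝟙 (Spec (CommRingCat.of K)) := by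
  rw [tPt, tStr, ← Spec.map_comp, ← CommRingCat.ofHom_comp, AlgHom.toRingHom_eq_coe,
    AlgHom.comp_algebraMap]
  exact Spec.map_id _

theorem tPt_tMap (φ : V →ₗ[K] W) : tPt W ≫ tMap φ = tPt V := by
  rw [tPt, tPt, tMap, ← Spec.map_comp, ← CommRingCat.ofHom_comp]
  refine congrArg (fun r => Spec.map (CommRingCat.ofHom r)) (RingHom.ext fun z => ?_)
  induction z using TrivSqZeroExt.ind with
  | _ r m => simp

theorem tMap_zero : tMap (0 : V →ₗ[K] W) = tStr W ≫ tPt V := by
  rw [tMap, tStr, tPt, ← Spec.map_comp, ← CommRingCat.ofHom_comp]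
  refine congrArg (fun r => Spec.map (CommRingCat.ofHom r)) (RingHom.ext fun z => ?_)
  induction z using TrivSqZeroExt.ind with
  | _ r m => simp [TrivSqZeroExt.algebraMap_eq_inl]

variable (V) in
theorem tPt_surjective : Function.Surjective (tPt (K := K) V) := by
  intro P
  refine ⟨IsLocalRing.closedPoint K, PrimeSpectrum.ext ?_⟩
  change Ideal.comap (TrivSqZeroExt.fstHom K K V).toRingHom (IsLocalRing.maximalIdeal K) = P.asIdeal
  rw [IsLocalRing.maximalIdeal_eq_bot]
  refine le_antisymm (fun z hz => ?_) (fun z hz => ?_)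
  · have hz' : z.fst = 0 := by simpa using hz
    refine P.isPrime.mem_of_pow_mem 2 ?_
    rw [show z ^ 2 = 0 by
      rw [pow_two]; ext <;> simp [hz']]
    exact P.asIdeal.zero_mem
  · by_contra h
    have h' : z.fst ≠ 0 := by simpa using h
    exact P.isPrime.ne_top (Ideal.eq_top_of_isUnit_mem _ hz
      (TrivSqZeroExt.isUnit_iff_isUnit_fst.mpr (isUnit_iff_ne_zero.mpr h')))

/-- A morphism to a scheme factors through any open containing the image of the point. -/
theorem exists_eq_fromSpec (x : TSpec K V ⟶ A) {U : A.Opens} (hU : IsAffineOpen U)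
    (hx : (tPt V ≫ x) (IsLocalRing.closedPoint K) ∈ U) :
    ∃ φ : Γ(A, U) ⟶ CommRingCat.of (TrivSqZeroExt K V), Spec.map φ ≫ hU.fromSpec = x := by
  have hr : Set.range x ⊆ Set.range hU.fromSpec := by
    rintro _ ⟨P, rfl⟩
    obtain ⟨c, rfl⟩ := tPt_surjective (K := K) V P
    rw [hU.range_fromSpec, Subsingleton.elim c (IsLocalRing.closedPoint K)]
    exact (Scheme.Hom.comp_apply _ _ _) ▸ hx
  exact ⟨Spec.preimage (IsOpenImmersion.lift hU.fromSpec x hr), by
    rw [Spec.map_preimage, IsOpenImmersion.lift_fac]⟩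

/-- Points over a pair are determined by their projections. -/
theorem tSpec_ext {x y : TSpec K (V × W) ⟶ A}
    (h1 : tMap (LinearMap.fst K V W) ≫ x = tMap (LinearMap.fst K V W) ≫ y)
    (h2 : tMap (LinearMap.snd K V W) ≫ x = tMap (LinearMap.snd K V W) ≫ y) : x = y := by
  have h0 : tPt (V × W) ≫ x = tPt (V × W) ≫ y := by
    rw [← tPt_tMap (LinearMap.fst K V W), Category.assoc, Category.assoc, h1]
  obtain ⟨U, hU, hmem, -⟩ := exists_isAffineOpen_mem_and_subset (U := ⊤)
    (x := (tPt (V × W) ≫ x) (IsLocalRing.closedPoint K)) (by simp)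
  obtain ⟨a, rfl⟩ := exists_eq_fromSpec x hU hmem
  obtain ⟨b, rfl⟩ := exists_eq_fromSpec y hU (h0 ▸ hmem)
  simp only [tMap, ← Category.assoc, cancel_mono, ← Spec.map_comp] at h1 h2
  congr 2
  ext1
  refine RingHom.ext fun r => ?_
  have e1 := RingHom.congr_fun (congrArg CommRingCat.Hom.hom (Spec.map_injective h1)) r
  have e2 := RingHom.congr_fun (congrArg CommRingCat.Hom.hom (Spec.map_injective h2)) r
  simp only [CommRingCat.hom_comp, CommRingCat.hom_ofHom, RingHom.comp_apply,
    AlgHom.toRingHom_eq_coe, RingHom.coe_coe] at e1 e2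
  ext
  · simpa using congrArg TrivSqZeroExt.fst e1
  · simpa using congrArg TrivSqZeroExt.snd e1
  · simpa using congrArg TrivSqZeroExt.snd e2

end

variable (L : RelativeGroupLaw K f)

/-- Pulling a point back along a linear map. -/
def tPull {V W : Type u} [AddCommGroup V] [Module K V] [Module Kᵐᵒᵖ V] [IsCentralScalar K V]
    [AddCommGroup W] [Module K W] [Module Kᵐᵒᵖ W] [IsCentralScalar K W] (φ : V →ₗ[K] W)
    (x : SchemeHomOver (tStr (K := K) V) f) : SchemeHomOver (tStr (K := K) W) f :=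
  schemeHomOverComp (tMap φ) (tMap_str φ) x

theorem tPull_tPull {V W U : Type u} [AddCommGroup V] [Module K V] [Module Kᵐᵒᵖ V]
    [IsCentralScalar K V] [AddCommGroup W] [Module K W] [Module Kᵐᵒᵖ W] [IsCentralScalar K W]
    [AddCommGroup U] [Module K U] [Module Kᵐᵒᵖ U] [IsCentralScalar K U] (φ : V →ₗ[K] W)
    (ψ : W →ₗ[K] U) (x : SchemeHomOver (tStr (K := K) V) f) :
    tPull ψ (tPull φ x) = tPull (ψ.comp φ) x :=
  Subtype.ext (by simp [tPull, ← tMap_comp φ ψ])

theorem tPull_id {V : Type u} [AddCommGroup V] [Module K V] [Module Kᵐᵒᵖ V] [IsCentralScalar K V]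
    (x : SchemeHomOver (tStr (K := K) V) f) : tPull LinearMap.id x = x :=
  Subtype.ext (by simp [tPull, tMap_id])

/-- Being over the identity. -/
def AtOne (x : SchemeHomOver (tStr (K := K) K) f) : Prop := tPt K ≫ x.1 = (L.one (𝟙 _)).1

theorem tPull_zero {V : Type u} [AddCommGroup V] [Module K V] [Module Kᵐᵒᵖ V] [IsCentralScalar K V]
    {x : SchemeHomOver (tStr (K := K) K) f} (hx : AtOne L x) :
    tPull (0 : K →ₗ[K] V) x = L.one _ := by
  refine Subtype.ext ?_
  rw [tPull, schemeHomOverComp_coe, tMap_zero, Category.assoc, hx,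
    ← constAt_one L (tStr (K := K) V)]
  rfl

theorem tPull_mul {V W : Type u} [AddCommGroup V] [Module K V] [Module Kᵐᵒᵖ V] [IsCentralScalar K V]
    [AddCommGroup W] [Module K W] [Module Kᵐᵒᵖ W] [IsCentralScalar K W] (φ : V →ₗ[K] W)
    (x y : SchemeHomOver (tStr (K := K) V) f) :
    tPull φ (L.mul _ x y) = L.mul _ (tPull φ x) (tPull φ y) :=
  L.mul_natural _ _ _ _ x y

/-- Sum of scalings. -/
theorem mul_tPull {x : SchemeHomOver (tStr (K := K) K) f} (hx : AtOne L x) (φ ψ : K →ₗ[K] K) :
    L.mul _ (tPull φ x) (tPull ψ x) = tPull (φ + ψ) x := by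
  have hz : L.mul _ (tPull ((LinearMap.inl K K K).comp φ) x)
      (tPull ((LinearMap.inr K K K).comp ψ) x) = tPull (φ.prod ψ) x := by
    refine Subtype.ext (tSpec_ext ?_ ?_)
    · show (tPull (LinearMap.fst K K K) (L.mul _ _ _)).1 =
        (tPull (LinearMap.fst K K K) (tPull (φ.prod ψ) x)).1
      rw [tPull_mul, tPull_tPull, tPull_tPull, tPull_tPull, ← LinearMap.comp_assoc,
        ← LinearMap.comp_assoc, LinearMap.fst_comp_inl, LinearMap.fst_comp_inr,
        LinearMap.zero_comp, LinearMap.id_comp, tPull_zero L hx, L.mul_one, LinearMap.fst_prod]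
    · show (tPull (LinearMap.snd K K K) (L.mul _ _ _)).1 =
        (tPull (LinearMap.snd K K K) (tPull (φ.prod ψ) x)).1
      rw [tPull_mul, tPull_tPull, tPull_tPull, tPull_tPull, ← LinearMap.comp_assoc,
        ← LinearMap.comp_assoc, LinearMap.snd_comp_inl, LinearMap.snd_comp_inr,
        LinearMap.zero_comp, LinearMap.id_comp, tPull_zero L hx, L.one_mul, LinearMap.snd_prod]
  have h := congrArg (tPull (LinearMap.fst K K K + LinearMap.snd K K K)) hz
  rw [tPull_mul, tPull_tPull, tPull_tPull, tPull_tPull] at h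
  rwa [show (LinearMap.fst K K K + LinearMap.snd K K K) ∘ₗ LinearMap.inl K K K ∘ₗ φ = φ by
      ext; simp,
    show (LinearMap.fst K K K + LinearMap.snd K K K) ∘ₗ LinearMap.inr K K K ∘ₗ ψ = ψ by
      ext; simp,
    show (LinearMap.fst K K K + LinearMap.snd K K K) ∘ₗ φ.prod ψ = φ + ψ by ext; simp] at h

/-- The `n`-th power is the scaling by `n`. -/
theorem nsmul_eq_tPull {x : SchemeHomOver (tStr (K := K) K) f} (hx : AtOne L x) (n : ℕ) :
    L.nsmul _ n x = tPull ((n : K) • LinearMap.id) x := by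
  induction n with
  | zero => rw [RelativeGroupLaw.nsmul_zero, Nat.cast_zero, zero_smul, tPull_zero L hx]
  | succ n ih =>
    rw [RelativeGroupLaw.nsmul_succ, ih, Nat.cast_add, Nat.cast_one, add_smul, one_smul,
      ← mul_tPull L hx, tPull_id]

/-- Infinitesimal points at the identity have no torsion prime to the characteristic. -/
theorem eq_one_of_nsmul {x : SchemeHomOver (tStr (K := K) K) f} (hx : AtOne L x) {n : ℕ}
    (hn : (n : K) ≠ 0) (h : L.nsmul _ n x = L.one _) : x = L.one _ := by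
  have h' := congrArg (tPull ((n : K)⁻¹ • (LinearMap.id : K →ₗ[K] K))) h
  rw [nsmul_eq_tPull L hx, tPull_tPull, show ((n : K)⁻¹ • (LinearMap.id : K →ₗ[K] K)).comp
    ((n : K) • LinearMap.id) = LinearMap.id by ext; simp [hn], tPull_id] at h'
  rw [h']
  exact L.one_natural _ _ _ _

/-- An infinitesimal point with constant multiple by `n` is constant. -/
theorem const_of_nsmul_const (hc : L.IsCommutative) {n : ℕ} (hn : (n : K) ≠ 0)
    (x : SchemeHomOver (tStr (K := K) K) f)
    (h : (L.nsmul _ n x).1 = tStr K ≫ tPt K ≫ (L.nsmul _ n x).1) :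
    x.1 = tStr K ≫ tPt K ≫ x.1 := by
  let := L.pointGroup (tStr (K := K) K)
  let a : Pt f := schemeHomOverComp (tPt K) tPt_str x
  let c : SchemeHomOver (tStr (K := K) K) f := constAt _ a
  have hn' : L.nsmul _ n x = L.nsmul _ n c := by
    refine Subtype.ext (h.trans ?_)
    rw [nsmul_comp, nsmul_comp]
    simp [c, a, constAt]
  have hcomm : Commute x c⁻¹ := hc _ _ _
  have hv : x * c⁻¹ = L.one _ := by
    refine eq_one_of_nsmul L ?_ hn ?_
    · show (schemeHomOverComp (tPt K) tPt_str (L.mul _ x c⁻¹)).1 = _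
      have hxc : schemeHomOverComp (tPt K) tPt_str x = schemeHomOverComp (tPt K) tPt_str c := by
        refine Subtype.ext ?_
        simp [c, a, constAt, reassoc_of% (tPt_str (K := K) (V := K))]
      rw [L.mul_natural, hxc, ← L.mul_natural]
      show (schemeHomOverComp (tPt K) tPt_str (c * c⁻¹)).1 = _
      rw [mul_inv_cancel]
      exact congrArg Subtype.val (L.one_natural _ _ _ _)
    · rw [nsmul_eq_pow, hcomm.mul_pow, inv_pow, ← nsmul_eq_pow, ← nsmul_eq_pow, hn',
        mul_inv_cancel]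
      rfl
  have hxc : x = c := mul_inv_eq_one.mp hv
  conv_lhs => rw [hxc]
  rfl

end Fermat.Agent.AV

end
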