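import Fermat.Prelude.Def_GoodReductionJacobian_RelativeGroupLawKernel
import Fermat.Prelude.Def_JacJ1Iface

/-!
# Points of a group law, multiplication by `n` and translations

The points of a relative group law over every base form a group, natural in the base; translation
by a rational point is an automorphism of the scheme.
-/

set_option autoImplicit false

noncomputable section

universe u

open CategoryTheory CategoryTheory.Limits AlgebraicGeometry NeronModelInfra GoodReductionJacobian

namespace Fermat.Agent.AV

variable {K : Type u} [CommRing K] {A : Scheme.{u}} {f : A ⟶ Spec (CommRingCat.of K)}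
  (L : RelativeGroupLaw K f)

local notation "S" => Spec (CommRingCat.of K)

/-- The rational points. -/
abbrev Pt (f : A ⟶ Spec (CommRingCat.of K)) : Type u :=
  SchemeHomOver (𝟙 (Spec (CommRingCat.of K))) f

theorem nsmul_eq_pow {T : Scheme.{u}} (t : T ⟶ S) (n : ℕ) (x : SchemeHomOver t f) :
    L.nsmul t n x = (letI := L.pointGroup t; x ^ n) := by
  let := L.pointGroup t
  induction n with
  | zero => exact (pow_zero x).symm
  | succ n ih => rw [RelativeGroupLaw.nsmul_succ, ih]; exact (pow_succ x n).symm

/-- A point, moved by multiplication by `n`. -/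
theorem nsmul_comp {T : Scheme.{u}} (t : T ⟶ S) (n : ℕ) (x : SchemeHomOver t f) :
    (L.nsmul t n x).1 = x.1 ≫ L.schemeNsmul n := by
  have h := L.nsmul_natural f t x.1 x.2 n (RelativeGroupLaw.idPoint (f := f))
  have e : schemeHomOverComp x.1 x.2 (RelativeGroupLaw.idPoint (f := f)) = x :=
    Subtype.ext (Category.comp_id _)
  rw [e] at h
  exact (congrArg Subtype.val h).symm

/-- A rational point over a base. -/
def constAt {T : Scheme.{u}} (t : T ⟶ S) (a : Pt f) : SchemeHomOver t f :=
  schemeHomOverComp t (Category.comp_id t) a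

theorem constAt_natural {T T' : Scheme.{u}} (t : T ⟶ S) (t' : T' ⟶ S) (ψ : T' ⟶ T)
    (hψ : ψ ≫ t = t') (a : Pt f) :
    schemeHomOverComp ψ hψ (constAt t a) = constAt t' a :=
  Subtype.ext (by simp [constAt, ← hψ])

theorem constAt_mul {T : Scheme.{u}} (t : T ⟶ S) (a b : Pt f) :
    constAt t (L.mul (𝟙 _) a b) = L.mul t (constAt t a) (constAt t b) :=
  L.mul_natural (𝟙 _) t t (Category.comp_id t) a b

theorem constAt_one {T : Scheme.{u}} (t : T ⟶ S) : constAt t (L.one (𝟙 _)) = L.one t :=
  L.one_natural (𝟙 _) t t (Category.comp_id t)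

theorem constAt_id (a : Pt f) : constAt (𝟙 _) a = a := Subtype.ext (Category.id_comp _)

/-- Translation by a rational point. -/
def trans (a : Pt f) : A ⟶ A := (L.mul f RelativeGroupLaw.idPoint (constAt f a)).1

theorem comp_trans {T : Scheme.{u}} (t : T ⟶ S) (x : SchemeHomOver t f) (a : Pt f) :
    x.1 ≫ trans L a = (L.mul t x (constAt t a)).1 := by
  have h := L.mul_natural f t x.1 x.2 RelativeGroupLaw.idPoint (constAt f a)
  rw [constAt_natural, show schemeHomOverComp x.1 x.2 (RelativeGroupLaw.idPoint (f := f)) = x from
    Subtype.ext (Category.comp_id _)] at h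
  exact congrArg Subtype.val h

theorem pt_comp_trans (x a : Pt f) : x.1 ≫ trans L a = (L.mul (𝟙 _) x a).1 := by
  rw [comp_trans, constAt_id]

theorem trans_comp_trans (a b : Pt f) :
    trans L a ≫ trans L b = trans L (L.mul (𝟙 _) a b) := by
  rw [show trans L a = (L.mul f RelativeGroupLaw.idPoint (constAt f a)).1 from rfl, comp_trans,
    L.mul_assoc, ← constAt_mul]
  rfl

theorem trans_one : trans L (L.one (𝟙 _)) = 𝟙 A := by
  show (L.mul f RelativeGroupLaw.idPoint (constAt f (L.one (𝟙 _)))).1 = _
  rw [constAt_one, L.mul_one]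

/-- Translation as an automorphism. -/
def transIso (a : Pt f) : A ≅ A where
  hom := trans L a
  inv := trans L (L.inv (𝟙 _) a)
  hom_inv_id := by rw [trans_comp_trans, L.mul_inv_cancel, trans_one]
  inv_hom_id := by rw [trans_comp_trans, L.inv_mul_cancel, trans_one]

instance isIso_trans (a : Pt f) : IsIso (trans L a) := (transIso L a).isIso_hom

end Fermat.Agent.AV

end
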