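import Fermat.Agent.AV.Tangent

/-!
# Multiplication by `n` is unramified

An algebra of finite type over an algebraically closed field is unramified over a subalgebra if no
nonconstant point in the dual numbers is constant on the subalgebra.
-/

set_option autoImplicit false

noncomputable section

universe u

open CategoryTheory CategoryTheory.Limits AlgebraicGeometry NeronModelInfra GoodReductionJacobian
open scoped Pointwise

namespace Fermat.Agent.AV

/-- The criterion by points in the dual numbers. -/
theorem formallyUnramified_of_tangent {K R B : Type u} [Field K] [IsAlgClosed K] [CommRing R]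
    [CommRing B] [Algebra K R] [Algebra R B] [Algebra K B] [IsScalarTower K R B]
    [Algebra.FiniteType K B]
    (h : ∀ φ : B →ₐ[K] TrivSqZeroExt K K,
      (∀ r : R, φ (algebraMap R B r) = TrivSqZeroExt.inl (φ (algebraMap R B r)).fst) →
        ∀ b, φ b = TrivSqZeroExt.inl (φ b).fst) :
    Algebra.FormallyUnramified R B := by
  have : Algebra.FiniteType R B := Algebra.FiniteType.of_restrictScalars_finiteType K R B
  refine ⟨?_⟩
  have key : ∀ m : Ideal B, m.IsMaximal → (⊤ : Submodule B Ω[B⁄R]) ≤ m • ⊤ := by
    intro m hm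
    by_contra hne
    obtain ⟨ω, -, hω⟩ := SetLike.not_le_iff_exists.mp hne
    let : Field (B ⧸ m) := Ideal.Quotient.field m
    have : Module.Finite K (B ⧸ m) := finite_of_finite_type_of_isJacobsonRing K (B ⧸ m)
    let e : K ≃ₐ[K] B ⧸ m := AlgEquiv.ofBijective (Algebra.ofId K (B ⧸ m))
      IsAlgClosed.algebraMap_bijective_of_isIntegral
    let χ : B →ₐ[K] K := e.symm.toAlgHom.comp (Ideal.Quotient.mkₐ K m)
    let Q := Ω[B⁄R] ⧸ m • (⊤ : Submodule B Ω[B⁄R])
    obtain ⟨ℓ, hℓ⟩ : ∃ ℓ : Module.Dual (B ⧸ m) Q, ℓ (Submodule.Quotient.mk ω) ≠ 0 := by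
      by_contra hc
      simp only [not_exists, not_not] at hc
      exact hω ((Submodule.Quotient.mk_eq_zero _).mp
        ((Module.forall_dual_apply_eq_zero_iff (B ⧸ m) _).mp hc))
    let g : Ω[B⁄R] → K := fun z => e.symm (ℓ (Submodule.Quotient.mk z))
    have gadd : ∀ z w, g (z + w) = g z + g w := fun z w => by
      simp only [g, Submodule.Quotient.mk_add, map_add]
    have gsmul : ∀ (b : B) z, g (b • z) = χ b * g z := fun b z => by
      show e.symm (ℓ (Submodule.Quotient.mk (b • z))) = _
      rw [show (Submodule.Quotient.mk (b • z) : Q) =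
        Ideal.Quotient.mk m b • (Submodule.Quotient.mk z : Q) from rfl, map_smul, smul_eq_mul,
        map_mul]
      rfl
    let d : B → K := fun b => g (KaehlerDifferential.D R B b)
    have g0 : g 0 = 0 := by simpa using gsmul 0 0
    have dmul : ∀ a b, d (a * b) = χ a * d b + χ b * d a := fun a b => by
      show g _ = _
      rw [Derivation.leibniz, gadd, gsmul, gsmul]
    have dalg : ∀ r, d (algebraMap R B r) = 0 := fun r => by
      show g _ = 0
      rw [Derivation.map_algebraMap, g0]
    let φ : B →ₐ[K] TrivSqZeroExt K K :=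
      { toFun := fun b => TrivSqZeroExt.inl (χ b) + TrivSqZeroExt.inr (d b)
        map_one' := by
          have h1 : d 1 = 0 := by rw [← map_one (algebraMap R B)]; exact dalg 1
          simp [h1]
        map_mul' := fun a b => by
          ext
          · simp
          · simp [dmul, TrivSqZeroExt.snd_mul]; ring
        map_zero' := by
          have h1 : d 0 = 0 := by rw [← map_zero (algebraMap R B)]; exact dalg 0
          simp [h1]
        map_add' := fun a b => by
          ext
          · simp
          · simp [d, gadd]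
        commutes' := fun k => by
          rw [IsScalarTower.algebraMap_apply K R B, dalg]
          simp [← IsScalarTower.algebraMap_apply, TrivSqZeroExt.algebraMap_eq_inl] }
    have hd : ∀ b, d b = 0 := fun b => by
      have := congrArg TrivSqZeroExt.snd (h φ (fun r => by
        show TrivSqZeroExt.inl (χ _) + TrivSqZeroExt.inr (d (algebraMap R B r)) = _
        simp [φ, dalg]) b)
      simpa [φ] using this
    have hg : ∀ z, g z = 0 := fun z => by
      have hz : z ∈ Submodule.span B (Set.range (KaehlerDifferential.D R B)) := by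
        rw [KaehlerDifferential.span_range_derivation]; trivial
      induction hz using Submodule.span_induction with
      | mem x hx =>
        obtain ⟨b, rfl⟩ := hx
        exact hd b
      | zero => exact g0
      | add x y _ _ hx hy => rw [gadd, hx, hy, add_zero]
      | smul c x _ hx => rw [gsmul, hx, mul_zero]
    exact hℓ (e.symm.injective ((hg ω).trans (map_zero e.symm).symm))
  refine subsingleton_of_forall_eq 0 fun z => ?_
  let I : Ideal B := LinearMap.ker (LinearMap.toSpanSingleton B _ z)
  suffices I = ⊤ by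
    have h1 : (1 : B) ∈ I := this ▸ Submodule.mem_top
    simpa [I] using h1
  by_contra hI
  obtain ⟨m, hm, hle⟩ := Ideal.exists_le_maximal I hI
  obtain ⟨r, hr, hr0⟩ := Submodule.exists_sub_one_mem_and_smul_eq_zero_of_fg_of_le_smul m
    (⊤ : Submodule B Ω[B⁄R]) Module.Finite.fg_top (key m hm)
  have hrI : r ∈ I := by simpa [I] using hr0 z trivial
  exact hm.ne_top ((Ideal.eq_top_iff_one m).mpr (by simpa using sub_mem (hle hrI) hr))

variable {K : Type u} [Field K] [IsAlgClosed K] {A : Scheme.{u}}
  {f : A ⟶ Spec (CommRingCat.of K)} (L : RelativeGroupLaw K f)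

/-- The coordinate ring of an affine open as an algebra over the base. -/
def baseHom (f : A ⟶ Spec (CommRingCat.of K)) (V : A.Opens) : CommRingCat.of K ⟶ Γ(A, V) :=
  (Scheme.ΓSpecIso (CommRingCat.of K)).inv ≫ f.appLE ⊤ V le_top

omit [IsAlgClosed K] in
theorem fromSpec_comp (f : A ⟶ Spec (CommRingCat.of K)) {V : A.Opens} (hV : IsAffineOpen V) :
    hV.fromSpec ≫ f = Spec.map (baseHom f V) := by
  rw [← IsAffineOpen.SpecMap_appLE_fromSpec f (isAffineOpen_top _) hV le_top, baseHom,
    Spec.map_comp, IsAffineOpen.fromSpec_top, Scheme.isoSpec_Spec_inv]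

/-- **Multiplication by `n` is unramified.** -/
theorem formallyUnramified_schemeNsmul [LocallyOfFiniteType f] (hc : L.IsCommutative) {n : ℕ}
    (hn : (n : K) ≠ 0) : FormallyUnramified (L.schemeNsmul n) := by
  refine ⟨fun {U} hU {V} hV e => ?_⟩
  set ψ := (L.schemeNsmul n).appLE U V e with hψ
  let : Algebra K Γ(A, U) := (baseHom f U).hom.toAlgebra
  let : Algebra K Γ(A, V) := (baseHom f V).hom.toAlgebra
  let : Algebra Γ(A, U) Γ(A, V) := ψ.hom.toAlgebra
  have hψb : baseHom f U ≫ ψ = baseHom f V := by
    rw [baseHom, baseHom, Category.assoc, hψ]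
    congr 1
    have h := Scheme.Hom.appLE_comp_appLE (L.schemeNsmul n) f ⊤ U V (fun _ _ => trivial) e
    refine h.trans ?_
    congr 1
    exact L.schemeNsmul_over n
  have : IsScalarTower K Γ(A, U) Γ(A, V) :=
    IsScalarTower.of_algebraMap_eq' (congrArg CommRingCat.Hom.hom hψb).symm
  have : Algebra.FiniteType K Γ(A, V) := by
    refine (RingHom.finiteType_algebraMap).mp ?_
    show (baseHom f V).hom.FiniteType
    exact RingHom.FiniteType.comp (f.finiteType_appLE (isAffineOpen_top _) hV le_top)
      (RingHom.FiniteType.of_surjective _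
        (Scheme.ΓSpecIso (CommRingCat.of K)).symm.commRingCatIsoToRingEquiv.surjective)
  show Algebra.FormallyUnramified Γ(A, U) Γ(A, V)
  refine formallyUnramified_of_tangent (K := K) fun φ hφ b => ?_
  let φc : Γ(A, V) ⟶ CommRingCat.of (TrivSqZeroExt K K) := CommRingCat.ofHom φ.toRingHom
  let c : CommRingCat.of (TrivSqZeroExt K K) ⟶ CommRingCat.of (TrivSqZeroExt K K) :=
    CommRingCat.ofHom ((algebraMap K (TrivSqZeroExt K K)).comp
      (TrivSqZeroExt.fstHom K K K).toRingHom)
  have hc' : Spec.map c = tStr K ≫ tPt K := by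
    rw [tStr, tPt, ← Spec.map_comp]; rfl
  let x : SchemeHomOver (tStr (K := K) K) f := ⟨Spec.map φc ≫ hV.fromSpec, by
    rw [Category.assoc, fromSpec_comp, ← Spec.map_comp, tStr]
    exact congrArg (fun r => Spec.map r) (CommRingCat.hom_ext (RingHom.ext fun k => φ.commutes k))⟩
  have hxn : (L.nsmul _ n x).1 = Spec.map (ψ ≫ φc) ≫ hU.fromSpec := by
    rw [nsmul_comp, Spec.map_comp, Category.assoc, Category.assoc,
      IsAffineOpen.SpecMap_appLE_fromSpec]
  have hψc : ψ ≫ φc = (ψ ≫ φc) ≫ c := CommRingCat.hom_ext (RingHom.ext fun r => by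
    show φ _ = algebraMap K (TrivSqZeroExt K K) (φ _).fst
    rw [TrivSqZeroExt.algebraMap_eq_inl]
    exact hφ r)
  have h := const_of_nsmul_const L hc hn x (by
    rw [hxn, ← Category.assoc, ← hc', ← Category.assoc, ← Spec.map_comp, ← hψc])
  have h' : Spec.map φc ≫ hV.fromSpec = Spec.map (φc ≫ c) ≫ hV.fromSpec := by
    rw [Spec.map_comp, hc', Category.assoc, Category.assoc]; exact h
  have h'' := RingHom.congr_fun (congrArg CommRingCat.Hom.hom
    (Spec.map_injective ((cancel_mono hV.fromSpec).mp h'))) b
  simpa [φc, c, TrivSqZeroExt.algebraMap_eq_inl] using h''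

end Fermat.Agent.AV

end
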